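import Fermat.Agent.Lib.Eis.Geom.Fricke
import Fermat.Agent.Lib.CurveP.Global
import Fermat.Agent.Lib.Curve.PlaceOfValuation

/-!
# P11 (D2): the two places of `F' = k(j̄, j̄_p)` over `j̄ = ∞`

* `ehPlaceInf`: the place `x_∞` of the `q`-expansion embedding `F' ⊆ k((q))`; `ord_{x_∞} f` is the
  `q`-order of `f`; `j̄` has a simple pole there (`e = 1`);
* `ehPlaceZero = x_∞ ∘ σ` (`σ` the Fricke involution): `ord_{x_0} f` is the `q`-order of `σ f`;
  `j̄` has a pole of order `p` there (`e = p`);
* these are the only poles of `j̄`, since `1 + p = [F' : k(j̄)]`.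
-/

set_option autoImplicit false

open HahnSeries ModularCurve IntermediateField WithZero AlgebraicCurve
open Fermat.Agent.Igusa Fermat.Agent.Curve

noncomputable section

namespace Fermat.Agent.Eis

/-! ### Orders of Laurent series -/

section Order

variable {R : Type*} [CommRing R]

theorem eh_order_eq_of_coeff {f : LaurentSeries R} {n : ℤ} (h1 : f.coeff n ≠ 0)
    (h2 : ∀ m < n, f.coeff m = 0) : f.order = n := by
  have hf : f ≠ 0 := by
    rintro rfl
    exact h1 rfl
  apply le_antisymm (HahnSeries.order_le_of_coeff_ne_zero h1)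
  by_contra hlt
  exact hf (HahnSeries.coeff_order_eq_zero.mp (h2 _ (not_le.mp hlt)))

theorem eh_order_jqModC [Nontrivial R] : (jqModC R).order = -1 := by
  apply eh_order_eq_of_coeff
  · rw [ModularCurve.coeff_jqModC_neg_one]
    exact one_ne_zero
  · intro m hm
    have h := ModularCurve.coeff_jqModC_pow_of_lt R (b := 1) (m := m) (by simpa using hm)
    rwa [pow_one] at h

theorem eh_order_qExpand (N : ℕ) [NeZero N] {f : LaurentSeries R} (hf : f ≠ 0) :
    (qExpand R N f).order = N * f.order := by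
  have hN : (0 : ℤ) < N := by exact_mod_cast Nat.pos_of_ne_zero (NeZero.ne N)
  apply eh_order_eq_of_coeff
  · rw [qExpand_coeff_mul]
    exact fun h => hf (HahnSeries.coeff_order_eq_zero.mp h)
  · intro m hm
    by_cases hdvd : (N : ℤ) ∣ m
    · obtain ⟨m', rfl⟩ := hdvd
      rw [qExpand_coeff_mul]
      apply HahnSeries.coeff_eq_zero_of_lt_order
      exact lt_of_mul_lt_mul_left hm hN.le
    · exact qExpand_coeff_of_not_dvd N f hdvd

end Order

/-! ### The place `x_∞` -/

section PlaceInf

variable (k : Type*) [Field k] (p : ℕ) [NeZero p]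

open Classical in
/-- the `q`-adic valuation of `F' ⊆ k((q))` -/
def ehValInf : Valuation (EhField k p) ℤᵐ⁰ where
  toFun f := if f = 0 then 0 else exp (-(ehEmb k p f).order)
  map_zero' := if_pos rfl
  map_one' := by
    rw [if_neg one_ne_zero, map_one, HahnSeries.order_one, neg_zero, exp_zero]
  map_mul' f g := by
    by_cases hf : f = 0
    · simp [hf]
    by_cases hg : g = 0
    · simp [hg]
    rw [if_neg hf, if_neg hg, if_neg (mul_ne_zero hf hg), ← exp_add, map_mul,
      HahnSeries.order_mul ((ehEmb_eq_zero_iff k p f).not.mpr hf)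
        ((ehEmb_eq_zero_iff k p g).not.mpr hg)]
    congr 1
    ring
  map_add_le_max' f g := by
    by_cases hf : f = 0
    · simp [hf]
    by_cases hg : g = 0
    · simp [hg]
    by_cases hfg : f + g = 0
    · rw [if_pos hfg]; exact zero_le
    rw [if_neg hf, if_neg hg, if_neg hfg, le_max_iff, exp_le_exp, exp_le_exp, map_add]
    have h1 := HahnSeries.min_order_le_order_add (x := ehEmb k p f) (y := ehEmb k p g)
      (by rw [← map_add]; exact (ehEmb_eq_zero_iff k p _).not.mpr hfg)
    rcases min_le_iff.mp h1 with h | h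
    · left; omega
    · right; omega

theorem ehValInf_apply {f : EhField k p} (hf : f ≠ 0) :
    ehValInf k p f = exp (-(ehEmb k p f).order) := by
  classical
  show (if f = 0 then 0 else exp (-(ehEmb k p f).order)) = _
  rw [if_neg hf]

theorem ehValInf_algebraMap_le_one (c : k) :
    ehValInf k p (algebraMap k (EhField k p) c) ≤ 1 := by
  by_cases hc : algebraMap k (EhField k p) c = 0
  · rw [hc, map_zero]; exact zero_le
  · rw [ehValInf_apply k p hc, AlgHom.commutes, LaurentSeries.algebraMap_apply]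
    have hc' : c ≠ 0 := by
      rintro rfl
      exact hc (map_zero _)
    rw [HahnSeries.order_C, neg_zero, exp_zero]

theorem ehValInf_ehX : ehValInf k p (ehX k p) = exp (1 : ℤ) := by
  rw [ehValInf_apply k p (ehX_ne_zero k p), ehEmb_ehX, eh_order_jqModC]
  rfl

theorem ehValInf_nontrivial : ∃ y : EhField k p, y ≠ 0 ∧ ehValInf k p y ≠ 1 := by
  refine ⟨ehX k p, ehX_ne_zero k p, ?_⟩
  rw [ehValInf_ehX, ← exp_zero, Ne, exp_inj]
  norm_num

/-- **the place `x_∞`** of `F'` defined by the `q`-expansion -/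
def ehPlaceInf : Place k (EhField k p) :=
  placeOfValuation (ehValInf k p) (ehValInf_algebraMap_le_one k p) (ehValInf_nontrivial k p)

/-- `ord_{x_∞} f` is the `q`-order of `f` -/
theorem ehPlaceInf_ord (f : EhField k p) : (ehPlaceInf k p).ord f = (ehEmb k p f).order := by
  rcases eq_or_ne f 0 with rfl | hf
  · rw [Place.ord_zero, map_zero, HahnSeries.order_zero]
  obtain ⟨m, hm, h⟩ := placeOfValuation_ord (ehValInf k p) (ehValInf_algebraMap_le_one k p)
    (ehValInf_nontrivial k p)
  have hx := h (ehX k p) (ehX_ne_zero k p)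
  rw [ehValInf_ehX, exp_inj] at hx
  have hm1 : (m : ℤ) = 1 := by
    have hdvd : (m : ℤ) ∣ 1 := ⟨-(ehPlaceInf k p).ord (ehX k p), by
      have : (1 : ℤ) = -((m : ℤ) * (ehPlaceInf k p).ord (ehX k p)) := hx
      linarith⟩
    exact Int.eq_one_of_dvd_one (by positivity) hdvd
  have hf' := h f hf
  rw [ehValInf_apply k p hf, exp_inj, hm1, one_mul] at hf'
  have : (ehPlaceInf k p).ord f = (placeOfValuation (ehValInf k p)
    (ehValInf_algebraMap_le_one k p) (ehValInf_nontrivial k p)).ord f := rfl
  omega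

theorem ehPlaceInf_ord_ehX : (ehPlaceInf k p).ord (ehX k p) = -1 := by
  rw [ehPlaceInf_ord, ehEmb_ehX, eh_order_jqModC]

theorem ehPlaceInf_ord_ehY : (ehPlaceInf k p).ord (ehY k p) = -(p : ℤ) := by
  rw [ehPlaceInf_ord, ehEmb_ehY, eh_order_qExpand p (jqModC_ne_zero k), eh_order_jqModC]
  ring

end PlaceInf

/-! ### The place `x_0 = x_∞ ∘ σ` and the poles of `j̄` -/

section PlaceZero

variable (k : Type*) [Field k] (p : ℕ) [NeZero p] [CharP k 2] [IsAlgClosed k]

/-- **the place `x_0`** of `F'`: the transport of `x_∞` along the Fricke involution -/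
def ehPlaceZero (hp : p.Prime) (hp2 : p ≠ 2) : Place k (EhField k p) :=
  placeMap (ehFricke k p hp hp2) (ehPlaceInf k p)

/-- `ord_{x_0} f` is the `q`-order of `σ f` -/
theorem ehPlaceZero_ord (hp : p.Prime) (hp2 : p ≠ 2) (f : EhField k p) :
    (ehPlaceZero k p hp hp2).ord f = (ehEmb k p (ehFricke k p hp hp2 f)).order := by
  rw [ehPlaceZero, placeMap_ord', ehFricke_symm, ehPlaceInf_ord]

theorem ehPlaceZero_ord_eq (hp : p.Prime) (hp2 : p ≠ 2) (f : EhField k p) :
    (ehPlaceZero k p hp hp2).ord f = (ehPlaceInf k p).ord (ehFricke k p hp hp2 f) := by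
  rw [ehPlaceZero_ord, ehPlaceInf_ord]

theorem ehPlaceInf_ord_fricke (hp : p.Prime) (hp2 : p ≠ 2) (f : EhField k p) :
    (ehPlaceInf k p).ord f = (ehPlaceZero k p hp hp2).ord (ehFricke k p hp hp2 f) := by
  rw [ehPlaceZero_ord_eq, ehFricke_ehFricke]

theorem ehPlaceZero_ord_ehX (hp : p.Prime) (hp2 : p ≠ 2) :
    (ehPlaceZero k p hp hp2).ord (ehX k p) = -(p : ℤ) := by
  rw [ehPlaceZero_ord_eq, ehFricke_ehX, ehPlaceInf_ord_ehY]

theorem ehPlaceZero_ord_ehY (hp : p.Prime) (hp2 : p ≠ 2) :
    (ehPlaceZero k p hp hp2).ord (ehY k p) = -1 := by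
  rw [ehPlaceZero_ord_eq, ehFricke_ehY, ehPlaceInf_ord_ehX]

theorem ehPlaceInf_ne_ehPlaceZero (hp : p.Prime) (hp2 : p ≠ 2) :
    ehPlaceInf k p ≠ ehPlaceZero k p hp hp2 := by
  intro h
  have h1 := ehPlaceInf_ord_ehX k p
  rw [h, ehPlaceZero_ord_ehX] at h1
  have := hp.one_lt
  omega

/-- **the poles of `j̄`** are exactly `x_∞` (simple) and `x_0` (of order `p`) -/
theorem eh_eq_of_ord_ehX_neg (hp : p.Prime) (hp2 : p ≠ 2) (v : Place k (EhField k p))
    (hv : v.ord (ehX k p) < 0) : v = ehPlaceInf k p ∨ v = ehPlaceZero k p hp hp2 := by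
  classical
  have hgen := ehField_isFunctionFieldGen k p hp hp2
  have := ehField_isSeparable k p hp hp2
  have hfin := Fermat.Agent.CurveP.finite_poles hgen
  have hsum := Fermat.Agent.CurveP.sum_ord_poles hgen
  rw [ehField_finrank k p hp hp2, finsum_mem_eq_finite_toFinset_sum _ hfin] at hsum
  by_contra hcon
  push Not at hcon
  have hmem : ∀ w : Place k (EhField k p), w ∈ hfin.toFinset ↔ w.ord (ehX k p) < 0 := fun w => by
    rw [Set.Finite.mem_toFinset, Set.mem_ofPred_eq]
  have h1 : ehPlaceInf k p ∈ hfin.toFinset := by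
    rw [hmem, ehPlaceInf_ord_ehX]; norm_num
  have h2 : ehPlaceZero k p hp hp2 ∈ hfin.toFinset := by
    rw [hmem, ehPlaceZero_ord_ehX]
    have := hp.pos
    omega
  have h3 : v ∈ hfin.toFinset := (hmem v).mpr hv
  have hsub : ({ehPlaceInf k p, ehPlaceZero k p hp hp2, v} : Finset (Place k (EhField k p))) ⊆
      hfin.toFinset := by
    intro w hw
    simp only [Finset.mem_insert, Finset.mem_singleton] at hw
    rcases hw with rfl | rfl | rfl
    · exact h1
    · exact h2
    · exact h3
  have hle := Finset.sum_le_sum_of_subset_of_nonneg (f := fun w : Place k (EhField k p) =>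
    -w.ord (ehX k p)) hsub (fun w hw _ => by
      have := (hmem w).mp hw
      omega)
  rw [hsum] at hle
  rw [Finset.sum_insert (by
      simp only [Finset.mem_insert, Finset.mem_singleton, not_or]
      exact ⟨ehPlaceInf_ne_ehPlaceZero k p hp hp2, hcon.1.symm⟩),
    Finset.sum_insert (by
      simp only [Finset.mem_singleton]
      exact hcon.2.symm),
    Finset.sum_singleton, ehPlaceInf_ord_ehX, ehPlaceZero_ord_ehX] at hle
  push_cast at hle
  omega

end PlaceZero

end Fermat.Agent.Eis
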