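import Fermat.Agent.Lib.Eis.Geom.CharTwo
import Fermat.Agent.Lib.Igusa.TowerBridge
import Fermat.Agent.Lib.Igusa.TowerMain
import Fermat.Agent.Lib.Igusa.PsiStep
import Fermat.Agent.Lib.Igusa.GaussAdjoin
import Fermat.Agent.Lib.Curve.Defs

/-!
# P11 (D2): the function field `F' = k(j̄, j̄_p)` of `X₀(p)` in characteristic `2`

`k` algebraically closed of characteristic `2`, `p` an odd prime.  Inside `k((q))`:

* `Ū_p = j̄ / j̄_p`, so `k(j̄)(X̄_d, Ū_r) = k(j̄, j̄_p)` and Igusa's bound gives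
  `[k(j̄, j̄_p) : k(j̄)] = p + 1`;
* `Φ_p(X, j̄)` is the minimal polynomial of `j̄_p` over `k(j̄)`, and it is separable.
-/

set_option autoImplicit false

open HahnSeries ModularCurve IntermediateField Polynomial
open Fermat.Agent.Igusa

noncomputable section

namespace Fermat.Agent.Eis

section KappaLevel

variable (k : Type*) [Field k] (p : ℕ) [NeZero p]

/-- `j̄_p = j̄(q^p)` -/
abbrev ehJpLS : LaurentSeries k := qExpand k p (jqModC k)

theorem ehJpLS_ne_zero : ehJpLS k p ≠ 0 := by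
  intro h
  exact jqModC_ne_zero k (qExpand_injective p (h.trans (map_zero _).symm))

/-- `Φ_p(X, j̄) ∈ k(j̄)[X]` -/
def ehPhiKappa (hp : p.Prime) : Polynomial ↥(kappaJ k) := (modPhiK p hp k).map evalJKappa

theorem ehPhiKappa_monic (hp : p.Prime) : (ehPhiKappa k p hp).Monic :=
  (modPhiK_monic p hp k).map _

theorem ehPhiKappa_natDegree (hp : p.Prime) : (ehPhiKappa k p hp).natDegree = p + 1 := by
  rw [ehPhiKappa, (modPhiK_monic p hp k).natDegree_map, modPhiK_natDegree]

theorem ehPhiKappa_map (hp : p.Prime) :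
    (ehPhiKappa k p hp).map (algebraMap ↥(kappaJ k) (LaurentSeries k)) =
      (modPhiK p hp k).map (evalJ k) := by
  rw [ehPhiKappa, Polynomial.map_map, algebraMap_comp_evalJKappa]

theorem ehPhiKappa_aeval (hp : p.Prime) : aeval (ehJpLS k p) (ehPhiKappa k p hp) = 0 := by
  rw [aeval_def, ehPhiKappa, Polynomial.eval₂_map, algebraMap_comp_evalJKappa]
  exact modPhiK_eval_left p hp k

theorem eh_isIntegral_JpLS (hp : p.Prime) : IsIntegral ↥(kappaJ k) (ehJpLS k p) :=
  ⟨ehPhiKappa k p hp, ehPhiKappa_monic k p hp, by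
    have := ehPhiKappa_aeval k p hp
    rwa [aeval_def] at this⟩

theorem eh_finrank_le (hp : p.Prime) :
    Module.finrank ↥(kappaJ k) ↥(kappaJ k)⟮ehJpLS k p⟯ ≤ p + 1 := by
  rw [IntermediateField.adjoin.finrank (eh_isIntegral_JpLS k p hp), ← ehPhiKappa_natDegree k p hp]
  exact Polynomial.natDegree_le_of_dvd (minpoly.dvd _ _ (ehPhiKappa_aeval k p hp))
    (ehPhiKappa_monic k p hp).ne_zero

variable [CharP k 2]

/-- in characteristic `2` the Igusa generators of prime odd level lie in `k(j̄)(j̄_p)` -/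
theorem eh_igGenSet_subset (hp : p.Prime) (hp2 : p ≠ 2) :
    igGenSet k p ⊆ ((kappaJ k)⟮ehJpLS k p⟯ : Set (LaurentSeries k)) := by
  have hJ : jqModC k ∈ (kappaJ k)⟮ehJpLS k p⟯ :=
    IntermediateField.algebraMap_mem _
      (⟨jqModC k, IntermediateField.mem_adjoin_simple_self k _⟩ : ↥(kappaJ k))
  have hJp : ehJpLS k p ∈ (kappaJ k)⟮ehJpLS k p⟯ := IntermediateField.mem_adjoin_simple_self _ _
  rintro x (⟨d, hd0, hd, rfl⟩ | ⟨r, hr0, hr, hd, rfl⟩)
  · rcases (Nat.dvd_prime hp).mp hd with rfl | rfl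
    · rw [qExpand_one_apply]
      exact hJ
    · exact hJp
  · have hrp : r = p := (Nat.prime_dvd_prime_iff_eq hr hp).mp hd
    subst hrp
    have hodd : Odd r := hp.odd_of_ne_two hp2
    have h1 := eg_unitInfLS_mul k r hodd
    have h2 : unitInfLS k r = jqModC k * (ehJpLS k r)⁻¹ := by
      rw [← h1, mul_assoc, mul_inv_cancel₀ (ehJpLS_ne_zero k r), mul_one]
    rw [h2]
    exact mul_mem hJ (inv_mem hJp)

variable [IsAlgClosed k]

omit [NeZero p] [IsAlgClosed k] in
theorem eh_natCast_ne_zero (hp2 : p ≠ 2) (hp : p.Prime) : ((p : ℕ) : k) ≠ 0 := by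
  rw [eg_natCast_of_odd k (hp.odd_of_ne_two hp2)]
  exact one_ne_zero

/-- **Igusa's degree**: `[k(j̄)(j̄_p) : k(j̄)] = p + 1` in characteristic `2`. -/
theorem eh_finrank_kappaJ (hp : p.Prime) (hp2 : p ≠ 2) :
    Module.finrank ↥(kappaJ k) ↥(kappaJ k)⟮ehJpLS k p⟯ = p + 1 := by
  refine le_antisymm (eh_finrank_le k p hp) ?_
  have hN := eh_natCast_ne_zero k p hp2 hp
  have h1 := ig_tower_bound_of_relfinrank k p hN ((pzTowerData k p hN).dedekindPsi_le)
  rw [igPsi_prime hp] at h1
  have hfin : FiniteDimensional ↥(kappaJ k) ↥(kappaJ k)⟮ehJpLS k p⟯ :=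
    IntermediateField.adjoin.finiteDimensional (eh_isIntegral_JpLS k p hp)
  have hle : IntermediateField.adjoin ↥(kappaJ k) (igGenSet k p) ≤ (kappaJ k)⟮ehJpLS k p⟯ := by
    rw [IntermediateField.adjoin_le_iff]
    exact eh_igGenSet_subset k p hp hp2
  exact h1.trans (IntermediateField.finrank_le_of_le_right hle)

/-- `Φ_p(X, j̄)` is the minimal polynomial of `j̄_p` over `k(j̄)` -/
theorem eh_minpoly_eq (hp : p.Prime) (hp2 : p ≠ 2) :
    minpoly ↥(kappaJ k) (ehJpLS k p) = ehPhiKappa k p hp := by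
  have hint := eh_isIntegral_JpLS k p hp
  have hdvd := minpoly.dvd _ _ (ehPhiKappa_aeval k p hp)
  have hdeg : (ehPhiKappa k p hp).natDegree ≤ (minpoly ↥(kappaJ k) (ehJpLS k p)).natDegree := by
    rw [ehPhiKappa_natDegree, ← IntermediateField.adjoin.finrank hint, eh_finrank_kappaJ k p hp hp2]
  exact (Polynomial.eq_of_monic_of_dvd_of_natDegree_le (minpoly.monic hint)
    (ehPhiKappa_monic k p hp) hdvd hdeg).symm

/-- the roots of `Φ_p(X, j̄(q^p))` in `k((q))` are pairwise distinct, so `Φ_p(X, j̄)` is separable -/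
theorem ehPhiKappa_separable (hp : p.Prime) (hp2 : p ≠ 2) : (ehPhiKappa k p hp).Separable := by
  classical
  have hN := eh_natCast_ne_zero k p hp2 hp
  obtain ⟨ζ, hζ⟩ := (pzTowerData k p hN).exists_primitiveRoot
  rw [pzTowerData_N] at hζ
  have hroots := modPhiK_roots p hp k hζ
  have hmap : (ehPhiKappa k p hp).map
      ((qExpand k p).comp (algebraMap ↥(kappaJ k) (LaurentSeries k))) =
      (modPhiK p hp k).map ((qExpand k p).comp (evalJ k)) := by
    rw [ehPhiKappa, Polynomial.map_map, RingHom.comp_assoc, algebraMap_comp_evalJKappa]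
  rw [← Polynomial.separable_map
    ((qExpand k p).comp (algebraMap ↥(kappaJ k) (LaurentSeries k))), hmap, hroots]
  have hp1 : 1 < p := hp.one_lt
  -- coefficients at `-1`
  have hc1 : ∀ b : ℕ, (lsTwist (ζ ^ b) (jqModC k)).coeff (-1) ≠ 0 := by
    intro b
    rw [lsTwist_coeff, ModularCurve.coeff_jqModC_neg_one, mul_one]
    exact Units.ne_zero _
  have hc2 : (qExpand k p (qExpand k p (jqModC k))).coeff (-1) = 0 := by
    apply qExpand_coeff_of_not_dvd
    intro hdvd
    have h1 : ((p : ℕ) : ℤ) ∣ 1 := (dvd_neg (a := ((p : ℕ) : ℤ)) (b := (1 : ℤ))).mp hdvd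
    have h2 : (p : ℤ) ≤ 1 := Int.le_of_dvd one_pos h1
    omega
  refine Polynomial.Separable.mul Polynomial.separable_X_sub_C ?_ ?_
  · rw [Polynomial.separable_prod_X_sub_C_iff']
    intro x hx y hy hxy
    have hn₀ : (jqModC k).coeff (-1) ≠ 0 := by
      rw [ModularCurve.coeff_jqModC_neg_one]; exact one_ne_zero
    have hcop : IsCoprime (-1 : ℤ) ((p : ℕ) : ℤ) := isCoprime_one_left.neg_left
    exact lsTwist_injOn p hζ (jqModC k) hn₀ hcop (Finset.mem_coe.mpr hx) (Finset.mem_coe.mpr hy) hxy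
  · refine IsCoprime.prod_right fun b _ => ?_
    apply Polynomial.isCoprime_X_sub_C_of_isUnit_sub
    refine (sub_ne_zero_of_ne ?_).isUnit
    intro heq
    apply hc1 b
    rw [← heq]
    exact hc2

end KappaLevel

/-! ### Transport between `k(x) ⊆ E` inside `L` and `k(x) ⊆ E` as types -/

section Transport

variable {k L : Type*} [Field k] [Field L] [Algebra k L]

theorem eh_adjoin_simple_le (E : IntermediateField k L) (x : ↥E) : k⟮(x : L)⟯ ≤ E := by
  rw [IntermediateField.adjoin_simple_le_iff]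
  exact x.2

/-- the canonical identifications `k(x) ≃ k(x)` and `E ≃ E` between the tower `k(x) ⊆ E` of
intermediate fields of `L` and the same tower built inside the type `E` -/
theorem eh_exists_transport (E : IntermediateField k L) (x : ↥E) :
    ∃ (e₁ : ↥(k⟮(x : L)⟯) ≃+* ↥(k⟮x⟯))
      (e₂ : ↥(IntermediateField.extendScalars (eh_adjoin_simple_le E x)) ≃+* ↥E),
      (algebraMap ↥(k⟮x⟯) ↥E).comp (e₁ : ↥(k⟮(x : L)⟯) →+* ↥(k⟮x⟯)) =
        (e₂ : ↥(IntermediateField.extendScalars (eh_adjoin_simple_le E x)) →+* ↥E).comp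
          (algebraMap ↥(k⟮(x : L)⟯)
            ↥(IntermediateField.extendScalars (eh_adjoin_simple_le E x))) ∧
      (∀ y, ((e₂ y : ↥E) : L) = (y : L)) := by
  have hmap : (k⟮x⟯).map E.val = k⟮(x : L)⟯ := by
    rw [IntermediateField.adjoin_map, Set.image_singleton]
    rfl
  let e₀ : ↥(k⟮x⟯) ≃ₐ[k] ↥(k⟮(x : L)⟯) :=
    ((k⟮x⟯).equivMap E.val).trans (IntermediateField.equivOfEq hmap)
  have he₀ : ∀ y : ↥(k⟮x⟯), ((e₀ y : ↥(k⟮(x : L)⟯)) : L) = ((y : ↥E) : L) := fun y => rfl
  let e₂ : ↥(IntermediateField.extendScalars (eh_adjoin_simple_le E x)) ≃+* ↥E :=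
    { toFun := fun y => ⟨y.1, (IntermediateField.mem_extendScalars _).mp y.2⟩
      invFun := fun z => ⟨z.1, (IntermediateField.mem_extendScalars _).mpr z.2⟩
      left_inv := fun y => rfl
      right_inv := fun z => rfl
      map_mul' := fun _ _ => rfl
      map_add' := fun _ _ => rfl }
  refine ⟨e₀.symm.toRingEquiv, e₂, ?_, fun y => rfl⟩
  ext z
  have h1 := he₀ (e₀.symm z)
  rw [AlgEquiv.apply_symm_apply] at h1
  show (((e₀.symm z : ↥(k⟮x⟯)) : ↥E) : L) = (z : L)
  exact h1.symm

theorem eh_finrank_transport (E : IntermediateField k L) (x : ↥E) :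
    Module.finrank ↥(k⟮x⟯) ↥E =
      Module.finrank ↥(k⟮(x : L)⟯)
        ↥(IntermediateField.extendScalars (eh_adjoin_simple_le E x)) := by
  obtain ⟨e₁, e₂, he, -⟩ := eh_exists_transport E x
  exact (Algebra.finrank_eq_of_equiv_equiv e₁ e₂ he).symm

theorem eh_isSeparable_transport (E : IntermediateField k L) (x : ↥E)
    (h : Algebra.IsSeparable ↥(k⟮(x : L)⟯)
      ↥(IntermediateField.extendScalars (eh_adjoin_simple_le E x))) :
    Algebra.IsSeparable ↥(k⟮x⟯) ↥E := by
  obtain ⟨e₁, e₂, he, -⟩ := eh_exists_transport E x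
  exact Algebra.IsSeparable.of_equiv_equiv e₁ e₂ he

end Transport

/-! ### The field `F' = k(j̄, j̄_p)` -/

section FieldLevel

variable (k : Type*) [Field k] (p : ℕ) [NeZero p]

/-- `F' = k(j̄, j̄_p) ⊆ k((q))` -/
def ehF : IntermediateField k (LaurentSeries k) :=
  IntermediateField.adjoin k {jqModC k, ehJpLS k p}

theorem jqModC_mem_ehF : jqModC k ∈ ehF k p :=
  IntermediateField.subset_adjoin k _ (Set.mem_insert _ _)

theorem ehJpLS_mem_ehF : ehJpLS k p ∈ ehF k p :=
  IntermediateField.subset_adjoin k _ (Set.mem_insert_of_mem _ rfl)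

/-- `j̄` as an element of `F'` -/
def ehJ : ↥(ehF k p) := ⟨jqModC k, jqModC_mem_ehF k p⟩

/-- `j̄_p` as an element of `F'` -/
def ehJp : ↥(ehF k p) := ⟨ehJpLS k p, ehJpLS_mem_ehF k p⟩

@[simp] theorem coe_ehJ : ((ehJ k p : ↥(ehF k p)) : LaurentSeries k) = jqModC k := rfl

@[simp] theorem coe_ehJp : ((ehJp k p : ↥(ehF k p)) : LaurentSeries k) = ehJpLS k p := rfl

theorem ehJ_ne_zero : ehJ k p ≠ 0 := fun h =>
  jqModC_ne_zero k (congrArg (fun z : ↥(ehF k p) => (z : LaurentSeries k)) h)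

theorem ehJp_ne_zero : ehJp k p ≠ 0 := fun h =>
  ehJpLS_ne_zero k p (congrArg (fun z : ↥(ehF k p) => (z : LaurentSeries k)) h)

theorem kappaJ_le_ehF : kappaJ k ≤ ehF k p := eh_adjoin_simple_le (ehF k p) (ehJ k p)

/-- `F'` as an extension of `k(j̄)` is `k(j̄)(j̄_p)` -/
theorem ehF_extendScalars :
    IntermediateField.extendScalars (kappaJ_le_ehF k p) = (kappaJ k)⟮ehJpLS k p⟯ := by
  apply le_antisymm
  · intro x hx
    rw [IntermediateField.mem_extendScalars] at hx
    have hle : (ehF k p).toSubfield ≤ ((kappaJ k)⟮ehJpLS k p⟯).toSubfield := by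
      rw [ehF, IntermediateField.adjoin_toSubfield, Subfield.closure_le]
      rintro y (⟨c, rfl⟩ | rfl | hy)
      · exact IntermediateField.algebraMap_mem _
          (⟨algebraMap k _ c, (kappaJ k).algebraMap_mem c⟩ : ↥(kappaJ k))
      · exact IntermediateField.algebraMap_mem _
          (⟨jqModC k, IntermediateField.mem_adjoin_simple_self k _⟩ : ↥(kappaJ k))
      · rw [Set.mem_singleton_iff] at hy
        rw [hy]
        exact IntermediateField.mem_adjoin_simple_self _ _
    exact hle hx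
  · rw [IntermediateField.adjoin_simple_le_iff, IntermediateField.mem_extendScalars]
    exact ehJpLS_mem_ehF k p

theorem ehF_le_of_mem {E : IntermediateField k (LaurentSeries k)} (h1 : jqModC k ∈ E)
    (h2 : ehJpLS k p ∈ E) : ehF k p ≤ E := by
  rw [ehF, IntermediateField.adjoin_le_iff]
  rintro y (rfl | hy)
  · exact h1
  · rw [Set.mem_singleton_iff] at hy
    rw [hy]
    exact h2

theorem mem_ehF_iff {x : LaurentSeries k} : x ∈ ehF k p ↔ x ∈ (kappaJ k)⟮ehJpLS k p⟯ := by
  rw [← ehF_extendScalars, IntermediateField.mem_extendScalars]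

theorem eh_transcendental_ehJ : Transcendental k (ehJ k p) := by
  have h := transcendental_jqModC k
  have hinj : Function.Injective (algebraMap ↥(ehF k p) (LaurentSeries k)) :=
    (algebraMap ↥(ehF k p) (LaurentSeries k)).injective
  exact (transcendental_algebraMap_iff hinj).mp h

theorem eh_transcendental_ehJp : Transcendental k (ehJp k p) := by
  have hinj : Function.Injective (algebraMap ↥(ehF k p) (LaurentSeries k)) :=
    (algebraMap ↥(ehF k p) (LaurentSeries k)).injective
  refine (transcendental_algebraMap_iff hinj).mp ?_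
  show Transcendental k (qExpand k p (jqModC k))
  intro halg
  obtain ⟨P, hP0, hP⟩ := halg
  apply transcendental_jqModC k
  refine ⟨P, hP0, ?_⟩
  apply qExpand_injective p
  rw [map_zero, ← hP, Polynomial.aeval_def, Polynomial.aeval_def, Polynomial.hom_eval₂]
  congr 1
  ext c : 1
  rw [RingHom.comp_apply, algebraMap_laurentSeries_eq_single, qExpand_single, mul_zero]

variable [CharP k 2] [IsAlgClosed k]

/-- **`[F' : k(j̄)] = p + 1`** -/
theorem eh_finrank (hp : p.Prime) (hp2 : p ≠ 2) :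
    Module.finrank ↥(k⟮ehJ k p⟯) ↥(ehF k p) = p + 1 := by
  rw [eh_finrank_transport (ehF k p) (ehJ k p)]
  show Module.finrank ↥(kappaJ k) ↥(IntermediateField.extendScalars (kappaJ_le_ehF k p)) = p + 1
  rw [ehF_extendScalars, eh_finrank_kappaJ k p hp hp2]

theorem eh_finiteDimensional (hp : p.Prime) (hp2 : p ≠ 2) :
    FiniteDimensional ↥(k⟮ehJ k p⟯) ↥(ehF k p) := by
  apply FiniteDimensional.of_finrank_pos
  rw [eh_finrank k p hp hp2]
  omega

/-- `j̄` is a separating transcendental generator of `F' / k` -/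
theorem eh_isFunctionFieldGen (hp : p.Prime) (hp2 : p ≠ 2) :
    Fermat.Agent.Curve.IsFunctionFieldGen k ↥(ehF k p) (ehJ k p) :=
  ⟨eh_transcendental_ehJ k p, eh_finiteDimensional k p hp hp2⟩

theorem eh_isSeparable (hp : p.Prime) (hp2 : p ≠ 2) :
    Algebra.IsSeparable ↥(k⟮ehJ k p⟯) ↥(ehF k p) := by
  apply eh_isSeparable_transport (ehF k p) (ehJ k p)
  show Algebra.IsSeparable ↥(kappaJ k) ↥(IntermediateField.extendScalars (kappaJ_le_ehF k p))
  rw [ehF_extendScalars]
  rw [IntermediateField.isSeparable_adjoin_simple_iff_isSeparable]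
  show (minpoly ↥(kappaJ k) (ehJpLS k p)).Separable
  rw [eh_minpoly_eq k p hp hp2]
  exact ehPhiKappa_separable k p hp hp2

end FieldLevel

/-! ### `F'` as a type

`EhField k p` is `↥(ehF k p)` as a plain type with its own `Field` and `Algebra k` instances: this
insulates instance search from the (expensive) algebra structure of `k((q))`. -/

section EhFieldDef

variable (k : Type*) [Field k] (p : ℕ) [NeZero p]

/-- `F' = k(j̄, j̄_p)` as a type -/
def EhField : Type _ := ↥(ehF k p)

instance : Field (EhField k p) := inferInstanceAs (Field ↥(ehF k p))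

instance : Algebra k (EhField k p) := inferInstanceAs (Algebra k ↥(ehF k p))

/-- the `q`-expansion embedding `F' → k((q))` -/
def ehEmb : EhField k p →ₐ[k] LaurentSeries k := (ehF k p).val

/-- `j̄ ∈ F'` -/
def ehX : EhField k p := ehJ k p

/-- `j̄_p ∈ F'` -/
def ehY : EhField k p := ehJp k p

@[simp] theorem ehEmb_ehX : ehEmb k p (ehX k p) = jqModC k := rfl

@[simp] theorem ehEmb_ehY : ehEmb k p (ehY k p) = qExpand k p (jqModC k) := rfl

theorem ehEmb_injective : Function.Injective (ehEmb k p) := (ehEmb k p).toRingHom.injective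

theorem ehEmb_mem (z : EhField k p) : ehEmb k p z ∈ ehF k p := z.2

/-- an element of `k(j̄, j̄_p) ⊆ k((q))` as an element of `F'` -/
def ehLift (f : LaurentSeries k) (hf : f ∈ ehF k p) : EhField k p := ⟨f, hf⟩

@[simp] theorem ehEmb_ehLift (f : LaurentSeries k) (hf : f ∈ ehF k p) :
    ehEmb k p (ehLift k p f hf) = f := rfl

theorem ehLift_ehEmb (z : EhField k p) : ehLift k p (ehEmb k p z) (ehEmb_mem k p z) = z := rfl

theorem ehEmb_eq_zero_iff (z : EhField k p) : ehEmb k p z = 0 ↔ z = 0 :=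
  map_eq_zero_iff _ (ehEmb_injective k p)

theorem ehX_ne_zero : ehX k p ≠ 0 := ehJ_ne_zero k p

theorem ehY_ne_zero : ehY k p ≠ 0 := ehJp_ne_zero k p

theorem eh_transcendental_ehX : Transcendental k (ehX k p) := eh_transcendental_ehJ k p

theorem eh_transcendental_ehY : Transcendental k (ehY k p) := eh_transcendental_ehJp k p

/-- `F'` is generated by `j̄`, `j̄_p`: a subfield of `F'` containing `k`, `j̄`, `j̄_p` is everything -/
theorem eh_mem_of_subfield (T : Subfield (EhField k p))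
    (hk : ∀ c : k, algebraMap k (EhField k p) c ∈ T) (hx : ehX k p ∈ T) (hy : ehY k p ∈ T)
    (z : EhField k p) : z ∈ T := by
  have hle : (IntermediateField.adjoin k {jqModC k, ehJpLS k p}).toSubfield ≤
      T.map (ehEmb k p).toRingHom := by
    rw [IntermediateField.adjoin_toSubfield, Subfield.closure_le]
    rintro w (⟨c, rfl⟩ | rfl | hw)
    · exact ⟨algebraMap k (EhField k p) c, hk c, rfl⟩
    · exact ⟨ehX k p, hx, rfl⟩
    · rw [Set.mem_singleton_iff] at hw
      rw [hw]
      exact ⟨ehY k p, hy, rfl⟩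
  obtain ⟨z', hz', hzz⟩ := hle (ehEmb_mem k p z)
  have : z' = z := ehEmb_injective k p hzz
  rw [← this]
  exact hz'

/-- two ring homomorphisms out of `F'` agreeing on `k`, `j̄`, `j̄_p` are equal -/
theorem eh_ringHom_ext {R : Type*} [Semiring R] (f g : EhField k p →+* R)
    (hk : ∀ c : k, f (algebraMap k (EhField k p) c) = g (algebraMap k (EhField k p) c))
    (hx : f (ehX k p) = g (ehX k p)) (hy : f (ehY k p) = g (ehY k p)) : f = g := by
  ext z
  exact eh_mem_of_subfield k p (RingHom.eqLocusField f g) hk hx hy z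

variable [CharP k 2] [IsAlgClosed k]

/-- **`[F' : k(j̄)] = p + 1`** -/
theorem ehField_finrank (hp : p.Prime) (hp2 : p ≠ 2) :
    Module.finrank ↥(k⟮ehX k p⟯) (EhField k p) = p + 1 := eh_finrank k p hp hp2

theorem ehField_finiteDimensional (hp : p.Prime) (hp2 : p ≠ 2) :
    FiniteDimensional ↥(k⟮ehX k p⟯) (EhField k p) := eh_finiteDimensional k p hp hp2

/-- `j̄` is a transcendental generator of `F' / k` -/
theorem ehField_isFunctionFieldGen (hp : p.Prime) (hp2 : p ≠ 2) :
    Fermat.Agent.Curve.IsFunctionFieldGen k (EhField k p) (ehX k p) :=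
  eh_isFunctionFieldGen k p hp hp2

/-- `j̄` is separating -/
theorem ehField_isSeparable (hp : p.Prime) (hp2 : p ≠ 2) :
    Algebra.IsSeparable ↥(k⟮ehX k p⟯) (EhField k p) := eh_isSeparable k p hp hp2

end EhFieldDef

end Fermat.Agent.Eis
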