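import Fermat.Agent.Lib.Eis.Geom.BridgeIntegral
import Fermat.Agent.Lib.Eis.Eta.EtaQuotExp
import Fermat.Agent.Lib.Eis.Level.SlashS
import Fermat.Agent.Lib.Eis.Level.EisForm
import Fermat.Agent.Lib.Igusa.ModPolyPsi
import Fermat.Agent.Lib.Eis.Upper.Zl

/-!
# P11 (D5), analytic part: the function `g₁ = (φ² + φγ)³/Δ` on `X₀(p)`

For `φ, γ ∈ M₂(Γ₀(p))` the function `g₁ = (φ² + φγ)³/Δ` is `Γ₀(p)`-invariant and holomorphic on
`ℍ`; its expansion at `∞` is `(Φ² + ΦΓ)³ Δ⁻¹` and its expansion at the cusp `0` (in `q^{1/p}`) is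
`(Φ_S² + Φ_S Γ_S)³ Δ(q)⁻¹` with `Φ_S = -(1/p) U_p Φ`.
-/

set_option autoImplicit false

open HahnSeries ModularCurve ModularForm Complex ModularGroup CongruenceSubgroup
open Fermat.Agent.ES Fermat.Agent.S24Lib Fermat.Agent.Igusa
open UpperHalfPlane hiding I
open scoped Real MatrixGroups ModularForm Manifold

namespace Fermat.Agent.Eis

local notation "Δ" => ModularForm.discriminant

/-! ### The weight-`12` combination `(a² + ab)³` -/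

/-- `(a² + ab)³` -/
noncomputable def ehHfun (a b : ℍ → ℂ) : ℍ → ℂ := fun z => (a z * a z + a z * b z) ^ 3

theorem eh_discriminant_smul (γ : SL(2, ℤ)) (z : ℍ) :
    Δ (γ • z) = Δ z * denom γ z ^ 12 := by
  have h := congrFun (discriminant_slash_SL γ) z
  rw [ModularForm.SL_slash_apply] at h
  have hd : denom γ z ≠ 0 := denom_ne_zero γ z
  rw [← h, zpow_neg, mul_assoc]
  have : (denom γ z ^ (12 : ℤ))⁻¹ * denom γ z ^ 12 = 1 := by
    rw [show (12 : ℤ) = ((12 : ℕ) : ℤ) by norm_num, zpow_natCast]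
    exact inv_mul_cancel₀ (pow_ne_zero 12 hd)
  rw [this, mul_one]

/-- the weight-`0` quotient `(a² + ab)³/Δ` transforms through the weight-`2` slash actions -/
theorem ehHfun_quot_smul (a b : ℍ → ℂ) (γ : SL(2, ℤ)) (z : ℍ) :
    ehHfun a b (γ • z) * (Δ (γ • z))⁻¹ =
      ehHfun (a ∣[(2 : ℤ)] γ) (b ∣[(2 : ℤ)] γ) z * (Δ z)⁻¹ := by
  have hd : denom γ z ≠ 0 := denom_ne_zero γ z
  have hΔ : Δ z ≠ 0 := discriminant_ne_zero z
  simp only [ehHfun, ModularForm.SL_slash_apply]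
  rw [eh_discriminant_smul, zpow_neg, show (2 : ℤ) = ((2 : ℕ) : ℤ) by norm_num, zpow_natCast]
  field_simp

theorem ehHfun_isQLaurentable {N : ℕ} [NeZero N] {a b : ℍ → ℂ} (ha : IsQLaurentable N a)
    (hb : IsQLaurentable N b) :
    IsQLaurentable N (ehHfun a b) ∧
      qLaurent N (ehHfun a b) =
        (qLaurent N a * qLaurent N a + qLaurent N a * qLaurent N b) ^ 3 := by
  have h1 := (ha.mul ha).add (ha.mul hb)
  refine ⟨h1.pow 3, ?_⟩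
  show qLaurent N (fun z => (a z * a z + a z * b z) ^ 3) = _
  rw [qLaurent_pow h1, qLaurent_add (ha.mul ha) (ha.mul hb), qLaurent_mul ha ha,
    qLaurent_mul ha hb]

/-- `g₁ = (a² + ab)³/Δ` -/
noncomputable def ehGOne (a b : ℍ → ℂ) : ℍ → ℂ := fun z => ehHfun a b z * (Δ z)⁻¹

theorem ehGOne_smul (a b : ℍ → ℂ) (γ : SL(2, ℤ)) (z : ℍ) :
    ehGOne a b (γ • z) = ehGOne (a ∣[(2 : ℤ)] γ) (b ∣[(2 : ℤ)] γ) z :=
  ehHfun_quot_smul a b γ z

theorem ehGOne_isQLaurentable_one {a b : ℍ → ℂ} (ha : IsQLaurentable 1 a)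
    (hb : IsQLaurentable 1 b) :
    IsQLaurentable 1 (ehGOne a b) ∧
      qLaurent 1 (ehGOne a b) =
        (qLaurent 1 a * qLaurent 1 a + qLaurent 1 a * qLaurent 1 b) ^ 3 * deltaInvLS ℂ := by
  obtain ⟨h1, h2⟩ := ehHfun_isQLaurentable ha hb
  refine ⟨h1.mul isQLaurentable_discriminant_inv, ?_⟩
  show qLaurent 1 (fun z => ehHfun a b z * (Δ z)⁻¹) = _
  rw [qLaurent_mul h1 isQLaurentable_discriminant_inv, h2, qLaurent_discriminant_inv]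

theorem ehGOne_isQLaurentable (p : ℕ) [NeZero p] {a b : ℍ → ℂ} (ha : IsQLaurentable p a)
    (hb : IsQLaurentable p b) :
    IsQLaurentable p (ehGOne a b) ∧
      qLaurent p (ehGOne a b) =
        (qLaurent p a * qLaurent p a + qLaurent p a * qLaurent p b) ^ 3 *
          qExpand ℂ p (deltaInvLS ℂ) := by
  obtain ⟨h1, h2⟩ := ehHfun_isQLaurentable ha hb
  have h3 := qLaurent_change_period p isQLaurentable_discriminant_inv
  refine ⟨h1.mul h3.1, ?_⟩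
  show qLaurent p (fun z => ehHfun a b z * (Δ z)⁻¹) = _
  rw [qLaurent_mul h1 h3.1, h2, h3.2, qLaurent_discriminant_inv]

/-! ### Weight `2` forms on `Γ₀(p)` at the two cusps -/

section Forms

variable (p : ℕ) [hpF : Fact p.Prime]

local notation "Γ₀'" => (Subgroup.map (Matrix.SpecialLinearGroup.mapGL ℝ) (Gamma0 p))

theorem eh_isNice_of_periodic {F : ℍ → ℂ} (hm : MDiff F)
    (hper : Function.Periodic (F ∘ UpperHalfPlane.ofComplex) 1) (hb : IsBoundedAtImInfty F) :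
    IsNice ((1 : ℕ) : ℝ) F where
  mdiff := hm
  periodic z := by
    have h1 := hper (z : ℂ)
    simp only [Function.comp_apply, ofComplex_apply] at h1
    rw [← h1]
    congr 1
    apply UpperHalfPlane.ext
    rw [UpperHalfPlane.coe_vadd, Nat.cast_one, ofComplex_apply_of_im_pos]
    · push_cast
      ring
    · simpa using z.im_pos
  bdd := hb

theorem eh_isNice_modularForm (ψ : ModularForm Γ₀' 2) : IsNice ((1 : ℕ) : ℝ) (ψ : ℍ → ℂ) :=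
  eh_isNice_of_periodic (ModularFormClass.holo ψ)
    (SlashInvariantFormClass.periodic_comp_ofComplex ψ
      (CongruenceSubgroup.one_mem_strictPeriods_Gamma0 p))
    (ModularFormClass.bdd_at_infty ψ)

theorem eh_isNice_heckeU (ψ : ModularForm Γ₀' 2) :
    IsNice ((1 : ℕ) : ℝ) (heckeU 2 p (ψ : ℍ → ℂ)) :=
  eh_isNice_of_periodic (mdifferentiable_heckeU (ModularFormClass.holo ψ) 2 p)
    (periodic_heckeU_comp_ofComplex (SlashInvariantFormClass.periodic_comp_ofComplex ψ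
      (CongruenceSubgroup.one_mem_strictPeriods_Gamma0 p)) 2 p)
    (isBoundedAtImInfty_heckeU (ModularFormClass.bdd_at_infty ψ) 2 p)

omit hpF in
theorem eh_slash_of_mem_gamma0 (ψ : ModularForm Γ₀' 2) {δ : SL(2, ℤ)} (hδ : δ ∈ Gamma0 p) :
    (ψ : ℍ → ℂ) ∣[(2 : ℤ)] δ = ψ := by
  rw [ModularForm.SL_slash]
  exact SlashInvariantFormClass.slash_action_eq ψ _ (Subgroup.mem_map_of_mem _ hδ)

theorem eh_heckeMatrix_zero_smul (z : ℍ) : heckeMatrix p 0 • z = eeDiv p z := by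
  apply UpperHalfPlane.ext
  rw [coe_heckeMatrix_smul hpF.out.ne_zero, coe_eeDiv]
  simp

/-- the expansion of `ψ ∣ S` in `q^{1/p}` -/
theorem eh_qLaurent_slash_S (ψ : ModularForm Γ₀' 2) :
    IsQLaurentable p ((ψ : ℍ → ℂ) ∣[(2 : ℤ)] S) ∧
      qLaurent p ((ψ : ℍ → ℂ) ∣[(2 : ℤ)] S) =
        HahnSeries.C (-(p : ℂ)⁻¹) *
          HahnSeries.ofPowerSeries ℤ ℂ (qExpansion 1 (heckeU 2 p (ψ : ℍ → ℂ))) := by
  have hfun : (ψ : ℍ → ℂ) ∣[(2 : ℤ)] S =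
      fun z => (fun _ : ℍ => -(p : ℂ)⁻¹) z * (fun z => heckeU 2 p (ψ : ℍ → ℂ) (eeDiv p z)) z := by
    funext z
    rw [slash_S_apply, eh_heckeMatrix_zero_smul]
  have hU := eh_isNice_heckeU p ψ
  have hc : IsQLaurentable p (fun _ : ℍ => -(p : ℂ)⁻¹) := IsQLaurentable.const p _
  have hC := ee_qLaurent_comp_div p hU.isQLaurentable
  rw [hfun]
  refine ⟨hc.mul hC.1, ?_⟩
  rw [qLaurent_mul hc hC.1, qLaurent_const, hC.2, qLaurent_of_nice hU, Nat.cast_one]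

theorem eh_qExpansion_heckeU (ψ : ModularForm Γ₀' 2) :
    qExpansion 1 (heckeU 2 p (ψ : ℍ → ℂ)) = psU p (qExpansion 1 (ψ : ℍ → ℂ)) := by
  ext n
  rw [coeff_psU]
  exact ModularFormClass.qCoeff_heckeU ψ (CongruenceSubgroup.one_mem_strictPeriods_Gamma0 p)
    hpF.out.ne_zero n

end Forms

/-! ### The formal `g₁` and the main analytic statement -/

section Main

/-- the formal `g₁ = (Φ² + ΦΓ)³ Δ⁻¹` -/
noncomputable def ehGOneLS (A : Type*) [CommRing A] (Φ Γ : PowerSeries A) : LaurentSeries A :=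
  (HahnSeries.ofPowerSeries ℤ A Φ * HahnSeries.ofPowerSeries ℤ A Φ +
    HahnSeries.ofPowerSeries ℤ A Φ * HahnSeries.ofPowerSeries ℤ A Γ) ^ 3 * deltaInvLS A

theorem lsMapHom_ehGOneLS {A B : Type*} [CommRing A] [CommRing B] (ψ : A →+* B)
    (Φ Γ : PowerSeries A) :
    lsMapHom ψ (ehGOneLS A Φ Γ) = ehGOneLS B (Φ.map ψ) (Γ.map ψ) := by
  simp only [ehGOneLS, map_mul, map_pow, map_add, lsMapHom_ofPowerSeries, lsMapHom_deltaInvLS]

/-- the formal expansion of `g₁` at the cusp `0`, in `T = q^{1/p}` -/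
noncomputable def ehGOneSLS (A : Type*) [CommRing A] (p : ℕ) [NeZero p] (c : A)
    (Φ Γ : PowerSeries A) : LaurentSeries A :=
  ((HahnSeries.C c * HahnSeries.ofPowerSeries ℤ A (psU p Φ)) *
      (HahnSeries.C c * HahnSeries.ofPowerSeries ℤ A (psU p Φ)) +
    (HahnSeries.C c * HahnSeries.ofPowerSeries ℤ A (psU p Φ)) *
      (HahnSeries.C c * HahnSeries.ofPowerSeries ℤ A (psU p Γ))) ^ 3 *
    qExpand A p (deltaInvLS A)

theorem lsMapHom_ehGOneSLS {A B : Type*} [CommRing A] [CommRing B] (ψ : A →+* B) (p : ℕ)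
    [NeZero p] (c : A) (Φ Γ : PowerSeries A) :
    lsMapHom ψ (ehGOneSLS A p c Φ Γ) = ehGOneSLS B p (ψ c) (Φ.map ψ) (Γ.map ψ) := by
  simp only [ehGOneSLS, map_mul, map_pow, map_add, lsMapHom_ofPowerSeries, lsMapHom_deltaInvLS,
    lsMapHom_C, lsMapHom_qExpand, map_psU]

variable (p : ℕ) [hpF : Fact p.Prime] [NeZero p]

local notation "Γ₀'" => (Subgroup.map (Matrix.SpecialLinearGroup.mapGL ℝ) (Gamma0 p))

set_option quotPrecheck false in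
local notation "ℤ₂" => ↥(GaloisRep.ratLocalizedAt 2)

omit hpF [NeZero p] in
theorem ehGOne_invariant (φ γ : ModularForm Γ₀' 2) (δ : SL(2, ℤ)) (hδ : δ ∈ Gamma0 p) (τ : ℍ) :
    ehGOne (φ : ℍ → ℂ) (γ : ℍ → ℂ) (δ • τ) = ehGOne (φ : ℍ → ℂ) (γ : ℍ → ℂ) τ := by
  rw [ehGOne_smul, eh_slash_of_mem_gamma0 p φ hδ, eh_slash_of_mem_gamma0 p γ hδ]

omit [NeZero p] in
theorem ehGOne_qLaurent_inf (φ γ : ModularForm Γ₀' 2) :
    IsQLaurentable 1 (ehGOne (φ : ℍ → ℂ) (γ : ℍ → ℂ)) ∧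
      qLaurent 1 (ehGOne (φ : ℍ → ℂ) (γ : ℍ → ℂ)) =
        ehGOneLS ℂ (qExpansion 1 (φ : ℍ → ℂ)) (qExpansion 1 (γ : ℍ → ℂ)) := by
  have hφ := eh_isNice_modularForm p φ
  have hγ := eh_isNice_modularForm p γ
  obtain ⟨h1, h2⟩ := ehGOne_isQLaurentable_one hφ.isQLaurentable hγ.isQLaurentable
  refine ⟨h1, ?_⟩
  rw [h2, qLaurent_of_nice hφ, qLaurent_of_nice hγ, Nat.cast_one, ehGOneLS]

theorem ehGOne_qLaurent_zero (φ γ : ModularForm Γ₀' 2) :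
    IsQLaurentable p (fun τ => ehGOne (φ : ℍ → ℂ) (γ : ℍ → ℂ) (S • τ)) ∧
      qLaurent p (fun τ => ehGOne (φ : ℍ → ℂ) (γ : ℍ → ℂ) (S • τ)) =
        ehGOneSLS ℂ p (-(p : ℂ)⁻¹) (qExpansion 1 (φ : ℍ → ℂ)) (qExpansion 1 (γ : ℍ → ℂ)) := by
  have hfun : (fun τ => ehGOne (φ : ℍ → ℂ) (γ : ℍ → ℂ) (S • τ)) =
      ehGOne ((φ : ℍ → ℂ) ∣[(2 : ℤ)] S) ((γ : ℍ → ℂ) ∣[(2 : ℤ)] S) := by
    funext τ
    exact ehGOne_smul _ _ S τ
  obtain ⟨hφ1, hφ2⟩ := eh_qLaurent_slash_S p φ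
  obtain ⟨hγ1, hγ2⟩ := eh_qLaurent_slash_S p γ
  obtain ⟨h1, h2⟩ := ehGOne_isQLaurentable p hφ1 hγ1
  rw [hfun]
  refine ⟨h1, ?_⟩
  rw [h2, hφ2, hγ2, eh_qExpansion_heckeU, eh_qExpansion_heckeU, ehGOneSLS]

/-- **(D5), analytic input**: for `φ, γ ∈ M₂(Γ₀(p))` (`p` odd) with `2`-integral `q`-expansions
`Φ, Γ`, the series `g₁ = (Φ² + ΦΓ)³Δ⁻¹` lies in `ℚ(j, j_p)` and is integral over `ℤ_(2)[j]` -/
theorem ehGOneLS_mem_and_integral (hp2 : p ≠ 2) (φ γ : ModularForm Γ₀' 2)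
    (Φ₂ Γ₂ : PowerSeries ℤ₂) (hΦ : qExpansion 1 (φ : ℍ → ℂ) = Φ₂.map (efZlC 2))
    (hΓ : qExpansion 1 (γ : ℍ → ℂ) = Γ₂.map (efZlC 2)) :
    inclL 2 (ehGOneLS ℤ₂ Φ₂ Γ₂) ∈ modularFunctionFieldFull p ∧
      (evalJ ℤ₂).IsIntegralElem (ehGOneLS ℤ₂ Φ₂ Γ₂) := by
  have hcop : p.Coprime 2 := by
    rw [Nat.coprime_two_right]
    exact hpF.out.odd_of_ne_two hp2
  have hinv : efZlC 2 (-(zlInv 2 p hcop)) = -(p : ℂ)⁻¹ := by
    rw [map_neg]
    exact congrArg Neg.neg (zlIota_zlInv 2 p hcop)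
  obtain ⟨hq, hqe⟩ := ehGOne_qLaurent_inf p φ γ
  obtain ⟨hS, hSe⟩ := ehGOne_qLaurent_zero p φ γ
  have hqe' : qLaurent 1 (ehGOne (φ : ℍ → ℂ) (γ : ℍ → ℂ)) =
      lsMapHom (algebraMap ℚ ℂ) (inclL 2 (ehGOneLS ℤ₂ Φ₂ Γ₂)) := by
    rw [hqe, ← lsMapHom_efZlC, lsMapHom_ehGOneLS, hΦ, hΓ]
  have hSe' : qLaurent p (fun τ => ehGOne (φ : ℍ → ℂ) (γ : ℍ → ℂ) (S • τ)) =
      lsMapHom (algebraMap ℚ ℂ) (inclL 2 (ehGOneSLS ℤ₂ p (-(zlInv 2 p hcop)) Φ₂ Γ₂)) := by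
    rw [hSe, ← lsMapHom_efZlC, lsMapHom_ehGOneSLS, hΦ, hΓ, hinv]
  exact ⟨ef_inclL_mem_full 2 p _ (ehGOne_invariant p φ γ) _ _ hq hqe' hS hSe',
    ef_isIntegralElem_zl 2 p _ (ehGOne_invariant p φ γ) _ _ hq hqe' hS hSe'⟩

end Main

end Fermat.Agent.Eis
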