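import Fermat.Agent.Lib.Eis.Geom.ThetaDiff

/-!
# P11 (D2/D4): `v̄`, `t̄` in `F'`, regularity away from the cusps, `3 ∣ ord_x(j̄)`

* elements of `F'` whose `q`-expansion is integral over `k[j̄]` are regular at every place of `F'`
  where `j̄` is regular;
* `v̄ = (η(q)/η(q^p))¹² ∈ F'` with `v̄² = j̄_p / j̄`; it is a unit at every non-cuspidal place, so
  `ord_x(j̄_p) = ord_x(j̄)` there; `dv̄ = (v̄/j̄) dj̄` when `(p - 1)/2` is odd;
* **(D4)** `t̄ = E₄²/(η(q)η(q^p))⁸ ∈ F'` (`p ≡ 2 mod 3`) with `t̄³ = j̄ j̄_p`, hence `3 ∣ ord_x(j̄)` at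
  every non-cuspidal place `x`.
-/

set_option autoImplicit false

open HahnSeries ModularCurve IntermediateField AlgebraicCurve KaehlerDifferential
open Fermat.Agent.Igusa Fermat.Agent.Curve Fermat.Agent.S23Lib

noncomputable section

namespace Fermat.Agent.Eis

section Regular

variable (k : Type*) [Field k] (p : ℕ) [NeZero p]

/-- `k[X] → F'`, `X ↦ j̄` -/
def ehEvalX : Polynomial k →+* EhField k p := (Polynomial.aeval (ehX k p)).toRingHom

theorem ehEmb_comp_evalX : (ehEmb k p).toRingHom.comp (ehEvalX k p) = evalJ k := by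
  apply Polynomial.ringHom_ext
  · intro c
    rw [evalJ_C]
    simp only [ehEvalX, RingHom.comp_apply, AlgHom.toRingHom_eq_coe, RingHom.coe_coe,
      Polynomial.aeval_C]
    exact ehEmb_algebraMap k p c
  · rw [evalJ_X]
    simp only [ehEvalX, RingHom.comp_apply, AlgHom.toRingHom_eq_coe, RingHom.coe_coe,
      Polynomial.aeval_X]
    rfl

theorem ehEvalX_mem (v : Place k (EhField k p)) (hv : 0 ≤ v.ord (ehX k p)) (P : Polynomial k) :
    ehEvalX k p P ∈ v.toValuationSubring := by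
  have hx : ehX k p ∈ v.toValuationSubring := PlaceAux.mem_of_ord_nonneg v hv
  show Polynomial.aeval (ehX k p) P ∈ v.toValuationSubring
  rw [Polynomial.aeval_eq_sum_range]
  refine sum_mem fun i _ => ?_
  rw [Algebra.smul_def]
  exact mul_mem (v.algebraMap_mem' _) (pow_mem hx i)

/-- **regularity away from the cusps**: an element of `F'` whose `q`-expansion is integral over
`k[j̄]` is regular at every place where `j̄` is regular -/
theorem eh_ord_nonneg_of_isIntegralElem (v : Place k (EhField k p))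
    (hv : 0 ≤ v.ord (ehX k p)) (z : EhField k p)
    (hz : (evalJ k).IsIntegralElem (ehEmb k p z)) : 0 ≤ v.ord z := by
  obtain ⟨P, hP, hP0⟩ := hz
  let _ : Algebra (Polynomial k) (EhField k p) := (ehEvalX k p).toAlgebra
  have hint : IsIntegral (Polynomial k) z := by
    refine ⟨P, hP, ?_⟩
    apply ehEmb_injective k p
    rw [map_zero]
    have := Polynomial.hom_eval₂ P (ehEvalX k p) (ehEmb k p).toRingHom z
    refine this.trans ?_
    rw [ehEmb_comp_evalX]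
    exact hP0
  exact PlaceAux.ord_nonneg_of_mem v
    (Fermat.Agent.CurveP.PlaceAux.mem_of_isIntegral_of_algebraMap_mem v
      (fun r => ehEvalX_mem k p v hv r) hint)

end Regular

section Units

variable (k : Type*) [Field k] [CharP k 2] (p : ℕ) [NeZero p]

/-- `v̄ = (η(q)/η(q^p))¹²` as an element of `F'`, `p = 2m + 1` -/
def ehV (hp : p.Prime) (hp2 : p ≠ 2) {m : ℕ} (hm : p = 2 * m + 1) : EhField k p :=
  ehLift k p (eeVLS k p m) (eeVLS_mem_ehF k p hp hp2 hm)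

@[simp] theorem ehEmb_ehV (hp : p.Prime) (hp2 : p ≠ 2) {m : ℕ} (hm : p = 2 * m + 1) :
    ehEmb k p (ehV k p hp hp2 hm) = eeVLS k p m := rfl

/-- `v̄² · j̄ = j̄_p` -/
theorem ehV_sq_mul (hp : p.Prime) (hp2 : p ≠ 2) {m : ℕ} (hm : p = 2 * m + 1) :
    ehV k p hp hp2 hm ^ 2 * ehX k p = ehY k p := by
  apply ehEmb_injective k p
  rw [map_mul, map_pow, ehEmb_ehV, ehEmb_ehX, ehEmb_ehY, eeVLS_sq k p hm, eg_unitFinLS_mul]

theorem ehV_ne_zero (hp : p.Prime) (hp2 : p ≠ 2) {m : ℕ} (hm : p = 2 * m + 1) :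
    ehV k p hp hp2 hm ≠ 0 := by
  intro h
  have h1 := ehV_sq_mul k p hp hp2 hm
  rw [h] at h1
  exact ehY_ne_zero k p (by rw [← h1]; ring)

/-- `v̄` is a unit at every place where `j̄` is regular -/
theorem eh_ord_ehV (hp : p.Prime) (hp2 : p ≠ 2) {m : ℕ} (hm : p = 2 * m + 1)
    (v : Place k (EhField k p)) (hv : 0 ≤ v.ord (ehX k p)) :
    v.ord (ehV k p hp hp2 hm) = 0 := by
  have : Fact p.Prime := ⟨hp⟩
  have h1 : 0 ≤ v.ord (ehV k p hp hp2 hm) :=
    eh_ord_nonneg_of_isIntegralElem k p v hv _ (by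
      rw [ehEmb_ehV]
      exact eeVLS_isIntegralElem p k hm)
  -- `1/v̄² = j̄/j̄_p = u_∞` is integral over `k[j̄]`
  have hodd : Odd p := hp.odd_of_ne_two hp2
  have hu : ehEmb k p ((ehV k p hp hp2 hm ^ 2)⁻¹) = unitInfLS k p := by
    have h2 := ehV_sq_mul k p hp hp2 hm
    have h3 : (ehV k p hp hp2 hm ^ 2)⁻¹ = ehX k p * (ehY k p)⁻¹ := by
      rw [← h2]
      field_simp [ehV_ne_zero k p hp hp2 hm, ehX_ne_zero k p]
    rw [h3, map_mul, map_inv₀, ehEmb_ehX, ehEmb_ehY]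
    have h4 := eg_unitInfLS_mul k p hodd
    calc jqModC k * (qExpand k p (jqModC k))⁻¹
        = (unitInfLS k p * qExpand k p (jqModC k)) * (qExpand k p (jqModC k))⁻¹ := by rw [h4]
      _ = unitInfLS k p := by
        rw [mul_assoc, mul_inv_cancel₀ (ehJpLS_ne_zero k p), mul_one]
  have h2 : 0 ≤ v.ord ((ehV k p hp hp2 hm ^ 2)⁻¹) :=
    eh_ord_nonneg_of_isIntegralElem k p v hv _ (by
      rw [hu]
      exact isIntegralElem_unitInfLS p hp)
  rw [Place.ord_inv, ← zpow_natCast, Place.ord_zpow] at h2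
  push_cast at h2
  omega

/-- `ord_x(j̄_p) = ord_x(j̄)` at every place where `j̄` is regular -/
theorem eh_ord_ehY_eq (hp : p.Prime) (hp2 : p ≠ 2) (v : Place k (EhField k p))
    (hv : 0 ≤ v.ord (ehX k p)) : v.ord (ehY k p) = v.ord (ehX k p) := by
  obtain ⟨m, hm⟩ := hp.odd_of_ne_two hp2
  have h1 := ehV_sq_mul k p hp hp2 hm
  have h2 := eh_ord_ehV k p hp hp2 hm v hv
  rw [← h1, Place.ord_mul v (pow_ne_zero 2 (ehV_ne_zero k p hp hp2 hm)) (ehX_ne_zero k p),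
    ← zpow_natCast, Place.ord_zpow, h2]
  simp

end Units

section Differential

variable (k : Type*) [Field k] [CharP k 2] [IsAlgClosed k] (p : ℕ) [NeZero p]

/-- **`dv̄/v̄ = dj̄/j̄`**: `dv̄ = (v̄/j̄) dj̄` when `(p - 1)/2` is odd (i.e. `p ≡ 3 mod 4`) -/
theorem eh_D_ehV (hp : p.Prime) (hp2 : p ≠ 2) {m : ℕ} (hm : p = 2 * m + 1) (hodd : Odd m) :
    D k (EhField k p) (ehV k p hp hp2 hm) =
      (ehV k p hp hp2 hm / ehX k p) • D k (EhField k p) (ehX k p) := by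
  apply eh_D_eq_smul_of_qTheta k p hp hp2
  rw [ehEmb_ehV, eg_qTheta_eeVLS_of_odd k p hodd, eg_qTheta_jqModC, map_div₀, ehEmb_ehV,
    ehEmb_ehX, div_mul_cancel₀ _ (jqModC_ne_zero k)]

/-- `dj̄ ≠ 0` -/
theorem eh_D_ehX_ne_zero (hp : p.Prime) (hp2 : p ≠ 2) : D k (EhField k p) (ehX k p) ≠ 0 := by
  have hgen := ehField_isFunctionFieldGen k p hp hp2
  have := ehField_isSeparable k p hp hp2
  exact Fermat.Agent.CurveP.D_gen_ne_zero hgen (ehPlaceInf k p)

end Differential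

section CubeRoot

variable (k : Type*) [Field k] [CharP k 2] (p : ℕ) [NeZero p]

/-- `t̄ = E₄²/(η(q)η(q^p))⁸` as an element of `F'`, `p + 1 = 3m` -/
def ehT (hp : p.Prime) (hp2 : p ≠ 2) {m : ℕ} (hm : p + 1 = 3 * m) : EhField k p :=
  ehLift k p (eeTLS k p m) (eeTLS_mem_ehF k p hp hp2 hm)

@[simp] theorem ehEmb_ehT (hp : p.Prime) (hp2 : p ≠ 2) {m : ℕ} (hm : p + 1 = 3 * m) :
    ehEmb k p (ehT k p hp hp2 hm) = eeTLS k p m := rfl

/-- `t̄³ = j̄ · j̄_p` -/
theorem ehT_cube (hp : p.Prime) (hp2 : p ≠ 2) {m : ℕ} (hm : p + 1 = 3 * m) :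
    ehT k p hp hp2 hm ^ 3 = ehX k p * ehY k p := by
  apply ehEmb_injective k p
  rw [map_mul, map_pow, ehEmb_ehT, ehEmb_ehX, ehEmb_ehY, eeTLS_cube k p hm, pow_two, mul_assoc,
    mul_comm (jqModC k) (unitFinLS k p), eg_unitFinLS_mul]

/-- **(D4)**: `3 ∣ ord_x(j̄)` at every place `x` of `F'` where `j̄` is regular (`p ≡ 2 mod 3`) -/
theorem eh_three_dvd_ord_ehX (hp : p.Prime) (hp2 : p ≠ 2) {m : ℕ} (hm : p + 1 = 3 * m)
    (v : Place k (EhField k p)) (hv : 0 ≤ v.ord (ehX k p)) : (3 : ℤ) ∣ v.ord (ehX k p) := by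
  have h1 := congrArg v.ord (ehT_cube k p hp hp2 hm)
  rw [Place.ord_mul v (ehX_ne_zero k p) (ehY_ne_zero k p), eh_ord_ehY_eq k p hp hp2 v hv,
    ← zpow_natCast, Place.ord_zpow] at h1
  push_cast at h1
  omega

end CubeRoot

end Fermat.Agent.Eis
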