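import Fermat.Agent.Lib.Eis.Geom.ModTwoSeries
import Fermat.Agent.Lib.Eis.Geom.CuspUnits

/-!
# P11 (D5): the reduction `ḡ₁ = (1 + v̄)⁶ j̄ / j̄_p³` in `F' = k(j̄, j̄_p)`

Over a field `k` of characteristic `2`, with `φ̄ = ∑ σ'(n) qⁿ`:
`(φ̄² + φ̄)³ Δ̄⁻¹ = (Δ̄(q) + Δ̄(q^p))³ Δ̄(q)⁻¹` is the `q`-expansion of
`(1/j̄ + 1/j̄_p)³ j̄ = (1 + v̄)⁶ j̄ / j̄_p³`.
-/

set_option autoImplicit false

open HahnSeries ModularCurve IntermediateField
open Fermat.Agent.Igusa Fermat.Agent.S23Lib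

noncomputable section

namespace Fermat.Agent.Eis

section Formal

variable (k : Type*) [Field k] [CharP k 2]

/-- `ofPowerSeries` turns `X ↦ X^p` into `q ↦ q^p` -/
theorem eh_ofPowerSeries_expand {A : Type*} [CommRing A] (p : ℕ) [NeZero p]
    (u : PowerSeries A) :
    HahnSeries.ofPowerSeries ℤ A (u.expand p (NeZero.ne p)) =
      qExpand A p (HahnSeries.ofPowerSeries ℤ A u) := by
  ext n
  by_cases hn : (p : ℤ) ∣ n
  · obtain ⟨c, rfl⟩ := hn
    rw [qExpand_coeff_mul]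
    rcases le_or_gt 0 c with hc | hc
    · lift c to ℕ using hc
      rw [show (p : ℤ) * (c : ℤ) = ((p * c : ℕ) : ℤ) by push_cast; ring,
        HahnSeries.ofPowerSeries_apply_coeff, HahnSeries.ofPowerSeries_apply_coeff,
        PowerSeries.coeff_expand_mul]
    · have hp : (0 : ℤ) < p := by exact_mod_cast Nat.pos_of_ne_zero (NeZero.ne p)
      rw [ofPowerSeries_coeff_of_neg _ hc, ofPowerSeries_coeff_of_neg _ (by nlinarith)]
  · rw [qExpand_coeff_of_not_dvd _ _ hn]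
    rcases le_or_gt 0 n with hc | hc
    · lift n to ℕ using hc
      rw [HahnSeries.ofPowerSeries_apply_coeff, PowerSeries.coeff_expand_of_not_dvd]
      intro h
      exact hn (by exact_mod_cast h)
    · rw [ofPowerSeries_coeff_of_neg _ hc]

/-- `Δ̄` over `k` -/
theorem eh_ofPowerSeries_ehDbar :
    HahnSeries.ofPowerSeries ℤ k (ehDbar.map (ZMod.castHom (dvd_refl 2) k)) = deltaLS k := by
  have h1 : (ModularCurve.etaProd.map (Int.castRingHom (ZMod 2))).map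
      (ZMod.castHom (dvd_refl 2) k) = ModularCurve.etaProd.map (Int.castRingHom k) := by
    ext n
    simp only [PowerSeries.coeff_map]
    exact map_intCast _ _
  rw [ehDbar, map_mul, map_pow, h1, PowerSeries.map_X, map_mul, map_pow,
    HahnSeries.ofPowerSeries_X, deltaLS_eq_eeEtaLS, eeEtaLS]

/-- **`φ̄² + φ̄ = Δ̄(q) + Δ̄(q^p)`** in `k((q))` -/
theorem eh_ofPowerSeries_phiBar (p : ℕ) [NeZero p] (hp : p.Prime) (hp2 : p ≠ 2) :
    HahnSeries.ofPowerSeries ℤ k ((ehPhiBar p).map (ZMod.castHom (dvd_refl 2) k)) *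
        HahnSeries.ofPowerSeries ℤ k ((ehPhiBar p).map (ZMod.castHom (dvd_refl 2) k)) +
      HahnSeries.ofPowerSeries ℤ k ((ehPhiBar p).map (ZMod.castHom (dvd_refl 2) k)) =
    deltaLS k + qExpand k p (deltaLS k) := by
  have h := congrArg (fun u => HahnSeries.ofPowerSeries ℤ k
    (PowerSeries.map (ZMod.castHom (dvd_refl 2) k) u)) (ehPhiBar_sq_add hp hp2)
  simp only [map_add, map_pow, PowerSeries.map_expand] at h
  rw [eh_ofPowerSeries_expand, eh_ofPowerSeries_ehDbar, pow_two] at h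
  exact h

end Formal

section Field

variable (k : Type*) [Field k] [CharP k 2] (p : ℕ) [NeZero p]

/-- `w = (1/j̄ + 1/j̄_p)³ j̄ ∈ F'` -/
def ehW : EhField k p := ((ehX k p)⁻¹ + (ehY k p)⁻¹) ^ 3 * ehX k p

theorem ehEmb_ehW :
    ehEmb k p (ehW k p) = (deltaLS k + qExpand k p (deltaLS k)) ^ 3 * deltaInvLS k := by
  have h1 : (jqModC k)⁻¹ = deltaLS k := inv_eq_of_mul_eq_one_right (eg_jqModC_mul_deltaLS k)
  have h2 : (qExpand k p (jqModC k))⁻¹ = qExpand k p (deltaLS k) := by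
    rw [← map_inv₀, h1]
  rw [ehW, map_mul, map_pow, map_add, map_inv₀, map_inv₀, ehEmb_ehX, ehEmb_ehY, h1, h2,
    eg_jqModC_eq_deltaInvLS]

theorem ehW_eq (hp : p.Prime) (hp2 : p ≠ 2) {m : ℕ} (hm : p = 2 * m + 1) :
    ehW k p = (1 + ehV k p hp hp2 hm) ^ 6 * ehX k p / ehY k p ^ 3 := by
  have hx := ehX_ne_zero k p
  have hy := ehY_ne_zero k p
  have h1 := ehV_sq_mul k p hp hp2 hm
  have h2 : (2 : EhField k p) = 0 := by
    rw [← map_ofNat (algebraMap k (EhField k p)) 2, eg_two_eq_zero k, map_zero]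
  have h3 : (1 + ehV k p hp hp2 hm) ^ 2 = 1 + ehV k p hp hp2 hm ^ 2 := by
    linear_combination (ehV k p hp hp2 hm) * h2
  have h4 : (ehX k p)⁻¹ + (ehY k p)⁻¹ = (1 + ehV k p hp hp2 hm ^ 2) / ehY k p := by
    field_simp
    rw [← h1]
    ring
  rw [ehW, h4, ← h3]
  ring

end Field

end Fermat.Agent.Eis
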