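import Fermat.Agent.Lib.Eis.Geom.LocalArg
import Fermat.Agent.Lib.Eis.Geom.GOneAnalytic
import Fermat.Agent.Lib.Eis.Geom.GOneReduce

/-!
# P11 (D5): no Eisenstein congruence modulo `2` for `p ≡ 23 mod 24`, given the genus bound (II)

`eh_not_eisCong_two_of_genus_le`: if `g(F') ≤ (p + 1)/12` for `F' = k(j̄, j̄_p)` over an
algebraically closed field `k` of characteristic `2`, then no cusp form `f ∈ S₂(Γ₀(p))` has
`f ≡ ∑ σ'(n) qⁿ mod 2`.
-/

set_option autoImplicit false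

open HahnSeries ModularCurve ModularForm CongruenceSubgroup AlgebraicCurve
open Fermat.Agent.Igusa Fermat.Agent.Curve
open UpperHalfPlane hiding I
open scoped MatrixGroups ModularForm

noncomputable section

namespace Fermat.Agent.Eis

section Assembly

variable (k : Type*) [Field k] [CharP k 2] [IsAlgClosed k]
variable (p : ℕ) [hpF : Fact p.Prime] [NeZero p]

set_option quotPrecheck false in
local notation "ℤ₂" => ↥(GaloisRep.ratLocalizedAt 2)

local notation "Γ₀'" => (Subgroup.map (Matrix.SpecialLinearGroup.mapGL ℝ) (Gamma0 p))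

omit [IsAlgClosed k] hpF [NeZero p] in
theorem ehRed_intCast (n : ℤ) : ehRed k ((n : ℤ) : ℤ₂) = ((n : ℤ) : k) := map_intCast _ _

omit [IsAlgClosed k] hpF [NeZero p] in
theorem eh_intCast_eq_of_two_dvd {a b : ℤ} (h : (2 : ℤ) ∣ a - b) : ((a : ℤ) : k) = ((b : ℤ) : k) := by
  obtain ⟨c, hc⟩ := h
  have : a = b + 2 * c := by omega
  rw [this]
  push_cast
  rw [eg_two_eq_zero k, zero_mul, add_zero]

/-- the normalised Eisenstein series `G = 24 E/(p - 1)`, with constant term `1` -/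
def ehGForm : ModularForm Γ₀' 2 := (24 / ((p : ℂ) - 1)) • eisForm p

omit [NeZero p] in
theorem coeff_qExpansion_ehGForm (n : ℕ) :
    (qExpansion 1 ⇑(ehGForm p)).coeff n =
      if n = 0 then 1 else (24 / ((p : ℂ) - 1)) * (eisCoeff p n : ℂ) := by
  have hp1 : ((p : ℂ) - 1) ≠ 0 := by
    intro h
    rw [sub_eq_zero] at h
    have : p = 1 := by exact_mod_cast h
    exact hpF.out.one_lt.ne' this
  have h1 : (qExpansion 1 ⇑(ehGForm p)).coeff n =
      (24 / ((p : ℂ) - 1)) * ModularFormClass.qCoeff ⇑(eisForm p) n := by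
    rw [ehGForm, FunLike.coe_smul,
      ModularForm.qExpansion_smul one_pos (one_mem_strictPeriods_gamma0 p),
      PowerSeries.coeff_smul, smul_eq_mul]
    rfl
  rw [h1]
  split_ifs with hn
  · subst hn
    rw [qCoeff_eisForm_zero]
    field_simp
  · rw [qCoeff_eisForm p (Nat.one_le_iff_ne_zero.mpr hn)]

/-- **(D5)**: for `p ≡ 23 mod 24`, the genus bound (II) `g(F') ≤ (p + 1)/12` for
`F' = k(j̄, j̄_p)` excludes an Eisenstein congruence modulo `2` -/
theorem eh_not_eisCong_two_of_genus_le (hp24 : p % 24 = 23)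
    (hg : 12 * Fermat.Agent.CurveP.genusR k (EhField k p) ≤ p + 1)
    (f : CuspForm Γ₀' 2) : ¬ EisCong p 2 f := by
  intro hf
  have hp := hpF.out
  have hp2 : p ≠ 2 := by rintro rfl; omega
  obtain ⟨m, hm⟩ : ∃ m, p = 2 * m + 1 := ⟨p / 2, by omega⟩
  have hodd : Odd m := ⟨p / 4, by omega⟩
  obtain ⟨m', hm'⟩ : ∃ m', p + 1 = 3 * m' := ⟨(p + 1) / 3, by omega⟩
  choose mf hmf hd using hf
  -- the two forms and their `2`-integral expansions
  have hcop : m.Coprime 2 := Nat.coprime_two_right.mpr hodd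
  obtain ⟨u₂, hu₂⟩ : ∃ u : ℤ₂, u = 12 * zlInv 2 m hcop := ⟨_, rfl⟩
  have hp1 : ((p : ℂ) - 1) ≠ 0 := by
    intro h
    rw [sub_eq_zero] at h
    have : p = 1 := by exact_mod_cast h
    exact hp.one_lt.ne' this
  have hu : efZlC 2 u₂ = 24 / ((p : ℂ) - 1) := by
    rw [hu₂, map_mul, map_ofNat]
    have h1 : efZlC 2 (zlInv 2 m hcop) = ((m : ℂ))⁻¹ := zlIota_zlInv 2 m hcop
    have hm0 : (m : ℂ) ≠ 0 := by
      have : m ≠ 0 := by rintro rfl; exact (by decide : ¬ Odd 0) hodd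
      exact_mod_cast this
    have hpc : (p : ℂ) = 2 * (m : ℂ) + 1 := by exact_mod_cast hm
    rw [h1, hpc]
    field_simp
    ring
  obtain ⟨Φ₂, hΦ₂⟩ : ∃ Φ : PowerSeries ℤ₂, Φ = PowerSeries.mk fun n => ((mf n : ℤ) : ℤ₂) :=
    ⟨_, rfl⟩
  obtain ⟨Γ₂, hΓ₂⟩ : ∃ Γ : PowerSeries ℤ₂, Γ = PowerSeries.mk fun n =>
      if n = 0 then 1 else u₂ * ((eisCoeff p n : ℤ) : ℤ₂) := ⟨_, rfl⟩
  have hΦ : qExpansion 1 ((CuspForm.toModularFormₗ f : ModularForm Γ₀' 2) : ℍ → ℂ) =
      Φ₂.map (efZlC 2) := by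
    ext n
    rw [hΦ₂, PowerSeries.coeff_map, PowerSeries.coeff_mk, map_intCast]
    exact hmf n
  have hΓ : qExpansion 1 (ehGForm p : ℍ → ℂ) = Γ₂.map (efZlC 2) := by
    ext n
    rw [coeff_qExpansion_ehGForm, hΓ₂, PowerSeries.coeff_map, PowerSeries.coeff_mk]
    split_ifs with hn
    · rw [map_one]
    · rw [map_mul, map_intCast, hu]
  obtain ⟨hmem, hint⟩ := ehGOneLS_mem_and_integral p hp2 (CuspForm.toModularFormₗ f)
    (ehGForm p) Φ₂ Γ₂ hΦ hΓ
  -- reduction modulo `2`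
  have hintF := ef_isIntegralElem_lsMapHom (ehRed k) hint
  rw [lsMapHom_ehGOneLS] at hintF
  have hΦbar : Φ₂.map (ehRed k) = (ehPhiBar p).map (ZMod.castHom (dvd_refl 2) k) := by
    ext n
    rw [hΦ₂, PowerSeries.coeff_map, PowerSeries.coeff_mk, PowerSeries.coeff_map, ehPhiBar,
      PowerSeries.coeff_mk, ehRed_intCast, map_intCast]
    exact eh_intCast_eq_of_two_dvd k (by exact_mod_cast hd n)
  have h12 : ehRed k u₂ = 0 := by
    rw [hu₂, map_mul, map_ofNat]
    have : (12 : k) = 2 * 6 := by norm_num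
    rw [this, eg_two_eq_zero k, zero_mul, zero_mul]
  have hΓbar : Γ₂.map (ehRed k) = 1 := by
    ext n
    rw [hΓ₂, PowerSeries.coeff_map, PowerSeries.coeff_mk, PowerSeries.coeff_one]
    split_ifs with hn
    · rw [map_one]
    · rw [map_mul, h12, zero_mul]
  rw [hΦbar, hΓbar] at hintF
  have hW : ehGOneLS k ((ehPhiBar p).map (ZMod.castHom (dvd_refl 2) k)) 1 =
      ehEmb k p (ehW k p) := by
    rw [ehEmb_ehW, ehGOneLS, map_one, mul_one, eh_ofPowerSeries_phiBar k p hp hp2]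
  rw [hW] at hintF
  -- regularity of `ḡ₁` away from the cusps, and the geometric core
  refine eh_false_of_regular_of_genus_le k p hp hp2 hm hodd hm' (fun v hv => ?_) hg
  rw [← ehW_eq k p hp hp2 hm]
  exact eh_ord_nonneg_of_isIntegralElem k p v hv _ hintF

end Assembly

end Fermat.Agent.Eis
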