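import Fermat.Agent.Lib.Eis.Geom.FunFieldDeg
import Fermat.Agent.Lib.Igusa.ModPolyGauss

/-!
# P11 (D0): integrality over `A[j]` of `Γ₀(p)`-invariant functions with `A`-integral expansions

* `ef_isIntegralElem_of_gamma0_invariant`: a holomorphic `Γ₀(p)`-invariant function whose
  expansions at both cusps have coefficients in a subring `A ⊆ ℂ` has its `q`-expansion integral
  over `A[j]`;
* `ef_isIntegralElem_lsMapHom`: integrality over `A[j]` is preserved by coefficient maps;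
* the `ℤ_(ℓ)` versions: membership in `modularFunctionFieldFull p`, in `gaussRing ℓ p`, value of
  `gaussRho`, integrality of the reduction over `𝔽_ℓ[j̄]`.
-/

set_option autoImplicit false

open HahnSeries ModularCurve IntermediateField Polynomial UpperHalfPlane ModularGroup
  CongruenceSubgroup
open Fermat.Agent.ES Fermat.Agent.S24Lib Fermat.Agent.Igusa
open scoped MatrixGroups

namespace Fermat.Agent.Eis

/-- integrality over `A[j]` is preserved by coefficient maps -/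
theorem ef_isIntegralElem_lsMapHom {A B : Type*} [CommRing A] [CommRing B] (φ : A →+* B)
    {g : LaurentSeries A} (hg : (evalJ A).IsIntegralElem g) :
    (evalJ B).IsIntegralElem (lsMapHom φ g) := by
  obtain ⟨P, hP, hP0⟩ := hg
  refine ⟨P.map (Polynomial.mapRingHom φ), hP.map _, ?_⟩
  have h1 := congrArg (lsMapHom φ) hP0
  rw [map_zero, Polynomial.hom_eval₂] at h1
  rw [Polynomial.eval₂_map]
  have h2 : (lsMapHom φ).comp (evalJ A) = (evalJ B).comp (Polynomial.mapRingHom φ) := by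
    refine RingHom.ext fun Q => ?_
    exact lsMapHom_evalJ φ Q
  rw [← h2]
  exact h1

section Integral

variable {A : Type*} [CommRing A] [Nontrivial A] (ι : A →+* ℂ)

/-- **(D0), integrality.**  A holomorphic `Γ₀(p)`-invariant function `h` whose expansion at `∞` is
`g ∈ A((q))` and whose expansion at the cusp `0` is `f ∈ A((q^{1/p}))`, for a subring `A ⊆ ℂ`:
then `g` is integral over `A[j]`. -/
theorem ef_isIntegralElem_of_gamma0_invariant (hι : Function.Injective ι) (p : ℕ) [Fact p.Prime]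
    [NeZero p] (h : ℍ → ℂ) (hh : ∀ δ ∈ Gamma0 p, ∀ τ : ℍ, h (δ • τ) = h τ)
    (g f : LaurentSeries A)
    (hq : IsQLaurentable p h) (hqe : qLaurent p h = qExpand ℂ p (lsMapHom ι g))
    (hS : IsQLaurentable p (fun τ => h (S • τ)))
    (hSe : qLaurent p (fun τ => h (S • τ)) = lsMapHom ι f) :
    (evalJ A).IsIntegralElem g := by
  -- one of `s = 1`, `s = -1` is admissible
  obtain ⟨s, hs1, hs⟩ : ∃ s : A, s * s = 1 ∧ ι (1 + s * f.coeff (-1)) ≠ 0 := by
    by_cases h1 : ι (1 + 1 * f.coeff (-1)) ≠ 0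
    · exact ⟨1, one_mul 1, h1⟩
    · refine ⟨-1, by ring, ?_⟩
      rw [not_not] at h1
      intro h2
      have h3 : ι (1 + 1 * f.coeff (-1)) + ι (1 + -1 * f.coeff (-1)) = 0 := by rw [h1, h2, add_zero]
      rw [← map_add] at h3
      have h4 : (1 + 1 * f.coeff (-1)) + (1 + -1 * f.coeff (-1)) = (2 : A) := by ring
      rw [h4, map_ofNat] at h3
      exact two_ne_zero h3
  obtain ⟨Φ, hΦ, -, hroot⟩ := ef_exists_orbit_polynomial_add ι hι p h hh g f hq hqe hS hSe s hs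
  have h1 : (evalJ A).IsIntegralElem (qExpand A p (jqModC A) + HahnSeries.C s * g) :=
    ⟨Φ, hΦ, hroot⟩
  have h2 : (evalJ A).IsIntegralElem (qExpand A p (jqModC A)) := isIntegralElem_qExpand_jqModC p
  have h3 : (evalJ A).IsIntegralElem (HahnSeries.C s * g) := by
    have := RingHom.IsIntegralElem.sub (evalJ A) h1 h2
    rwa [add_sub_cancel_left] at this
  have h4 : (evalJ A).IsIntegralElem (HahnSeries.C s) := by
    rw [← evalJ_C]
    exact (evalJ A).isIntegralElem_map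
  have h5 := RingHom.IsIntegralElem.mul (evalJ A) h4 h3
  rwa [← mul_assoc, ← map_mul, hs1, map_one, one_mul] at h5

/-- the same with the expansion at `∞` given in the variable `q` (period `1`) -/
theorem ef_isIntegralElem_of_gamma0_invariant_one (hι : Function.Injective ι) (p : ℕ)
    [Fact p.Prime] [NeZero p] (h : ℍ → ℂ) (hh : ∀ δ ∈ Gamma0 p, ∀ τ : ℍ, h (δ • τ) = h τ)
    (g f : LaurentSeries A)
    (hq : IsQLaurentable 1 h) (hqe : qLaurent 1 h = lsMapHom ι g)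
    (hS : IsQLaurentable p (fun τ => h (S • τ)))
    (hSe : qLaurent p (fun τ => h (S • τ)) = lsMapHom ι f) :
    (evalJ A).IsIntegralElem g := by
  have hqp := qLaurent_change_period p hq
  exact ef_isIntegralElem_of_gamma0_invariant ι hι p h hh g f hqp.1 (by rw [hqp.2, hqe]) hS hSe

end Integral

/-- **(D0), membership**, with the expansion at `∞` given in the variable `q` (period `1`) -/
theorem ef_mem_full_of_gamma0_invariant_one (p : ℕ) [Fact p.Prime] [NeZero p] (h : ℍ → ℂ)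
    (hh : ∀ δ ∈ Gamma0 p, ∀ τ : ℍ, h (δ • τ) = h τ) (g f : LaurentSeries ℚ)
    (hq : IsQLaurentable 1 h) (hqe : qLaurent 1 h = lsMapHom (algebraMap ℚ ℂ) g)
    (hS : IsQLaurentable p (fun τ => h (S • τ)))
    (hSe : qLaurent p (fun τ => h (S • τ)) = lsMapHom (algebraMap ℚ ℂ) f) :
    g ∈ modularFunctionFieldFull p := by
  have hqp := qLaurent_change_period p hq
  exact ef_mem_full_of_gamma0_invariant p h hh g f hqp.1 (by rw [hqp.2, hqe]) hS hSe

/-! ### The `ℤ_(ℓ)` versions -/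

section Local

variable (ℓ : ℕ) [Fact ℓ.Prime]

set_option quotPrecheck false in
local notation "ℤℓ" => ↥(GaloisRep.ratLocalizedAt ℓ)

/-- the embedding `ℤ_(ℓ) → ℂ` -/
noncomputable def efZlC : ℤℓ →+* ℂ := (algebraMap ℚ ℂ).comp (GaloisRep.ratLocalizedAt ℓ).subtype

omit [Fact ℓ.Prime] in
theorem efZlC_injective : Function.Injective (efZlC ℓ) :=
  (algebraMap ℚ ℂ).injective.comp Subtype.val_injective

omit [Fact ℓ.Prime] in
theorem lsMapHom_efZlC (s : LaurentSeries ℤℓ) :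
    lsMapHom (efZlC ℓ) s = lsMapHom (algebraMap ℚ ℂ) (inclL ℓ s) := by
  ext n
  rw [lsMapHom_coeff, lsMapHom_coeff, inclL_coeff]
  rfl

omit [Fact ℓ.Prime] in
/-- **(D0), `ℓ`-integral version, membership**: the expansion at `∞` lies in `ℚ(j, j_p)` -/
theorem ef_inclL_mem_full (p : ℕ) [Fact p.Prime] [NeZero p] (h : ℍ → ℂ)
    (hh : ∀ δ ∈ Gamma0 p, ∀ τ : ℍ, h (δ • τ) = h τ) (s t : LaurentSeries ℤℓ)
    (hq : IsQLaurentable 1 h) (hqe : qLaurent 1 h = lsMapHom (algebraMap ℚ ℂ) (inclL ℓ s))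
    (hS : IsQLaurentable p (fun τ => h (S • τ)))
    (hSe : qLaurent p (fun τ => h (S • τ)) = lsMapHom (algebraMap ℚ ℂ) (inclL ℓ t)) :
    inclL ℓ s ∈ modularFunctionFieldFull p :=
  ef_mem_full_of_gamma0_invariant_one p h hh (inclL ℓ s) (inclL ℓ t) hq hqe hS hSe

omit [Fact ℓ.Prime] in
/-- **(D0), `ℓ`-integral version, integrality** over `ℤ_(ℓ)[j]` -/
theorem ef_isIntegralElem_zl (p : ℕ) [Fact p.Prime] [NeZero p] (h : ℍ → ℂ)
    (hh : ∀ δ ∈ Gamma0 p, ∀ τ : ℍ, h (δ • τ) = h τ) (s t : LaurentSeries ℤℓ)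
    (hq : IsQLaurentable 1 h) (hqe : qLaurent 1 h = lsMapHom (algebraMap ℚ ℂ) (inclL ℓ s))
    (hS : IsQLaurentable p (fun τ => h (S • τ)))
    (hSe : qLaurent p (fun τ => h (S • τ)) = lsMapHom (algebraMap ℚ ℂ) (inclL ℓ t)) :
    (evalJ ℤℓ).IsIntegralElem s :=
  ef_isIntegralElem_of_gamma0_invariant_one (efZlC ℓ) (efZlC_injective ℓ) p h hh s t hq
    (by rw [hqe, lsMapHom_efZlC]) hS (by rw [hSe, lsMapHom_efZlC])

/-- **(D0), `ℓ`-integral version**: the reduction mod `ℓ` is integral over `𝔽_ℓ[j̄]` -/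
theorem ef_isIntegralElem_redL (p : ℕ) [Fact p.Prime] [NeZero p] (h : ℍ → ℂ)
    (hh : ∀ δ ∈ Gamma0 p, ∀ τ : ℍ, h (δ • τ) = h τ) (s t : LaurentSeries ℤℓ)
    (hq : IsQLaurentable 1 h) (hqe : qLaurent 1 h = lsMapHom (algebraMap ℚ ℂ) (inclL ℓ s))
    (hS : IsQLaurentable p (fun τ => h (S • τ)))
    (hSe : qLaurent p (fun τ => h (S • τ)) = lsMapHom (algebraMap ℚ ℂ) (inclL ℓ t)) :
    (evalJ (ZMod ℓ)).IsIntegralElem (redL ℓ s) := by
  rw [redL_eq_lsMapHom]
  exact ef_isIntegralElem_lsMapHom (zlRed ℓ) (ef_isIntegralElem_zl ℓ p h hh s t hq hqe hS hSe)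

/-- **(D0), `ℓ`-integral version**: the expansion at `∞`, as an element of `ℚ(X₀(p))`, lies in the
Gauss valuation ring … -/
theorem ef_mem_gaussRing (p : ℕ) [Fact p.Prime] [NeZero p] (h : ℍ → ℂ)
    (hh : ∀ δ ∈ Gamma0 p, ∀ τ : ℍ, h (δ • τ) = h τ) (s t : LaurentSeries ℤℓ)
    (hq : IsQLaurentable 1 h) (hqe : qLaurent 1 h = lsMapHom (algebraMap ℚ ℂ) (inclL ℓ s))
    (hS : IsQLaurentable p (fun τ => h (S • τ)))
    (hSe : qLaurent p (fun τ => h (S • τ)) = lsMapHom (algebraMap ℚ ℂ) (inclL ℓ t)) :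
    (⟨inclL ℓ s, ef_inclL_mem_full ℓ p h hh s t hq hqe hS hSe⟩ :
      ↥(modularFunctionFieldFull p)) ∈ gaussRing ℓ p :=
  mem_gaussRing_of_eq_inclL ℓ p (s := s) rfl

/-- … and its residue is the coefficientwise reduction -/
theorem ef_gaussRho_eq (p : ℕ) [Fact p.Prime] [NeZero p] (h : ℍ → ℂ)
    (hh : ∀ δ ∈ Gamma0 p, ∀ τ : ℍ, h (δ • τ) = h τ) (s t : LaurentSeries ℤℓ)
    (hq : IsQLaurentable 1 h) (hqe : qLaurent 1 h = lsMapHom (algebraMap ℚ ℂ) (inclL ℓ s))
    (hS : IsQLaurentable p (fun τ => h (S • τ)))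
    (hSe : qLaurent p (fun τ => h (S • τ)) = lsMapHom (algebraMap ℚ ℂ) (inclL ℓ t)) :
    gaussRho ℓ p ⟨⟨inclL ℓ s, ef_inclL_mem_full ℓ p h hh s t hq hqe hS hSe⟩,
      ef_mem_gaussRing ℓ p h hh s t hq hqe hS hSe⟩ = redL ℓ s :=
  gaussRho_of_eq_inclL ℓ p (s := s) rfl

end Local

end Fermat.Agent.Eis
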