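import Fermat.Agent.Lib.Igusa.ModPolyPhi

/-!
# P11 (F): the `SL(2, ℤ)`-orbit of a `Γ₀(p)`-invariant function

For `p` prime, `SL(2, ℤ) = Γ₀(p) ⊔ ⨆_{b < p} Γ₀(p) S T^b`.  Hence for a `Γ₀(p)`-invariant function
`F` on `ℍ`, the `p + 1` functions `F`, `F ∘ S T^b` (`b < p`) are permuted by `SL(2, ℤ)`.  If
`F ∘ S` has a `q_p`-expansion `L`, then `F ∘ S T^b` has the expansion `L(ζ^b T)`.
-/

set_option autoImplicit false

open HahnSeries ModularCurve UpperHalfPlane ModularGroup CongruenceSubgroup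
open Fermat.Agent.ES Fermat.Agent.S24Lib Fermat.Agent.Igusa
open scoped MatrixGroups Manifold

namespace Fermat.Agent.Eis

/-- the coset representative `S T^b` -/
noncomputable def egRep (b : ℕ) : SL(2, ℤ) := S * T ^ (b : ℤ)

/-- the conjugate `F ∘ S T^b` of a function on `ℍ` -/
noncomputable def egConj (F : ℍ → ℂ) (b : ℕ) : ℍ → ℂ := fun τ => F (egRep b • τ)

theorem egConj_apply (F : ℍ → ℂ) (b : ℕ) (τ : ℍ) :
    egConj F b τ = F (S • (((b : ℤ) : ℝ) +ᵥ τ)) := by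
  rw [egConj, egRep, mul_smul, modular_T_zpow_smul]

/-- the inverse of `S T^b` -/
def egRepInv (b : ℤ) : SL(2, ℤ) := ⟨!![b, 1; -1, 0], by simp [Matrix.det_fin_two_of]⟩

theorem egRepInv_coe (b : ℤ) :
    ((egRepInv b : SL(2, ℤ)) : Matrix (Fin 2) (Fin 2) ℤ) = !![b, 1; -1, 0] := rfl

theorem egRep_inv (b : ℕ) : ((egRep b)⁻¹ : SL(2, ℤ)) = egRepInv (b : ℤ) := by
  ext i j
  simp only [egRep, egRepInv_coe, Matrix.SpecialLinearGroup.coe_inv,
    Matrix.SpecialLinearGroup.coe_mul, coe_S, coe_T_zpow, Matrix.adjugate_fin_two]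
  fin_cases i <;> fin_cases j <;> simp [Matrix.mul_apply, Fin.sum_univ_two]

/-- **Coset decomposition** `SL(2, ℤ) = Γ₀(p) ⊔ ⨆_b Γ₀(p) S T^b`. -/
theorem eg_exists_coset (p : ℕ) [Fact p.Prime] (γ : SL(2, ℤ)) :
    γ ∈ Gamma0 p ∨ ∃ b : ℕ, b < p ∧ γ * (egRep b)⁻¹ ∈ Gamma0 p := by
  have hp : p.Prime := Fact.out
  have : NeZero p := ⟨hp.ne_zero⟩
  by_cases hc : ((γ 1 0 : ℤ) : ZMod p) = 0
  · exact Or.inl (Gamma0_mem.mpr hc)
  · right
    set k : ZMod p := ((γ 1 1 : ℤ) : ZMod p) * (((γ 1 0 : ℤ) : ZMod p))⁻¹ with hk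
    refine ⟨k.val, ZMod.val_lt k, ?_⟩
    rw [Gamma0_mem, egRep_inv]
    have h10 : ((γ * egRepInv ((k.val : ℕ) : ℤ) : SL(2, ℤ)) 1 0 : ℤ) =
        γ 1 0 * (k.val : ℤ) - γ 1 1 := by
      rw [Matrix.SpecialLinearGroup.coe_mul, egRepInv_coe, Matrix.mul_apply, Fin.sum_univ_two]
      simp
      ring
    rw [h10]
    push_cast
    rw [ZMod.natCast_val, ZMod.cast_id', id, hk]
    field_simp
    ring

/-- the orbit of a `Γ₀(p)`-invariant function under `SL(2, ℤ)` -/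
theorem eg_comp_mem_orbit (p : ℕ) [Fact p.Prime] (F : ℍ → ℂ)
    (hF : ∀ δ ∈ Gamma0 p, ∀ τ : ℍ, F (δ • τ) = F τ) (γ : SL(2, ℤ)) :
    (fun τ => F (γ • τ)) = F ∨ ∃ b : ℕ, b < p ∧ (fun τ => F (γ • τ)) = egConj F b := by
  rcases eg_exists_coset p γ with h | ⟨b, hb, h⟩
  · exact Or.inl (funext fun τ => hF γ h τ)
  · refine Or.inr ⟨b, hb, funext fun τ => ?_⟩
    have e : γ • τ = (γ * (egRep b)⁻¹) • (egRep b • τ) := by
      rw [← mul_smul, inv_mul_cancel_right]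
    rw [e, hF _ h]
    rfl

/-- `SL(2, ℤ)` permutes the `p + 1` conjugates of a `Γ₀(p)`-invariant function -/
theorem eg_orbit_perm (p : ℕ) [Fact p.Prime] (F : ℍ → ℂ)
    (hF : ∀ δ ∈ Gamma0 p, ∀ τ : ℍ, F (δ • τ) = F τ) (γ : SL(2, ℤ)) (x : ℍ → ℂ)
    (hx : x = F ∨ ∃ b : ℕ, b < p ∧ x = egConj F b) :
    ((fun τ => x (γ • τ)) = F ∨ ∃ b : ℕ, b < p ∧ (fun τ => x (γ • τ)) = egConj F b) := by
  rcases hx with rfl | ⟨b, -, rfl⟩
  · exact eg_comp_mem_orbit p x hF γ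
  · have h := eg_comp_mem_orbit p F hF (egRep b * γ)
    have e : (fun τ => egConj F b (γ • τ)) = fun τ => F ((egRep b * γ) • τ) := by
      funext τ
      rw [egConj, mul_smul]
    rw [e]
    exact h

/-! ### Expansions of the conjugates -/

/-- if `F ∘ S` has the `q_p`-expansion `L`, then `F ∘ S T^b` has the expansion `L(ζ^b T)` -/
theorem eg_qLaurent_egConj (p : ℕ) [NeZero p] (F : ℍ → ℂ)
    (hS : IsQLaurentable p (fun τ => F (S • τ))) (b : ℕ) :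
    IsQLaurentable p (egConj F b) ∧
      qLaurent p (egConj F b) = lsTwist (zetaC p ^ b) (qLaurent p (fun τ => F (S • τ))) := by
  have h := qLaurent_vadd hS (((b : ℤ) : ℝ))
  have e : (fun z : ℍ => (fun τ => F (S • τ)) ((((b : ℤ) : ℝ)) +ᵥ z)) = egConj F b := by
    funext z
    rw [egConj_apply]
  rw [e] at h
  refine ⟨h.1, ?_⟩
  ext m
  rw [h.2 m, lsTwist_coeff, Units.val_zpow_eq_zpow_val, zetaC_pow_val]
  congr 2

end Fermat.Agent.Eis
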