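import Fermat.Agent.Lib.Eis.Geom.OrbitPoly
import Fermat.Agent.Lib.Eis.Geom.Gamma0Orbit

/-!
# P11 (F): `Γ₀(p)`-invariant functions and the function field `ℚ(j, j_p)`

The orbit polynomial of a `Γ₀(p)`-invariant function `F` whose expansions at the two cusps have
coefficients in a subring `A ⊆ ℂ`: the expansion of `F` at `∞` is a root of a monic polynomial of
degree `p + 1` over `A[j]`.
-/

set_option autoImplicit false

open HahnSeries ModularCurve Polynomial UpperHalfPlane ModularGroup CongruenceSubgroup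
open Fermat.Agent.ES Fermat.Agent.S24Lib Fermat.Agent.Igusa
open scoped MatrixGroups Manifold

namespace Fermat.Agent.Eis

/-! ### The orbit of `j(p τ)` -/

/-- for `δ ∈ Γ₀(p)` the conjugate `diag(p,1) δ diag(p,1)⁻¹` -/
def efConjSL (p : ℕ) (δ : SL(2, ℤ)) (h : (p : ℤ) ∣ δ 1 0) : SL(2, ℤ) :=
  ⟨!![δ 0 0, (p : ℤ) * δ 0 1; δ 1 0 / (p : ℤ), δ 1 1], by
    obtain ⟨c, hc⟩ := h
    have hdet := δ.det_coe
    rw [Matrix.det_fin_two] at hdet
    rw [Matrix.det_fin_two_of, hc]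
    by_cases hp : (p : ℤ) = 0
    · rw [hp] at hc ⊢
      simp only [zero_mul] at hc ⊢
      rw [hc] at hdet
      simpa using hdet
    · rw [Int.mul_ediv_cancel_left _ hp]
      rw [hc] at hdet
      linear_combination hdet⟩

theorem phiInf_gamma0_invariant (p : ℕ) [NeZero p] (δ : SL(2, ℤ)) (hδ : δ ∈ Gamma0 p) (τ : ℍ) :
    phiInf p (δ • τ) = phiInf p τ := by
  have hdvd : (p : ℤ) ∣ δ 1 0 := by
    rw [Gamma0_mem] at hδ
    exact (ZMod.intCast_zmod_eq_zero_iff_dvd _ _).mp hδ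
  have hp : (p : ℤ) ≠ 0 := by exact_mod_cast NeZero.ne p
  rw [phiInf, ← jMat_mul_SL]
  have e : (!![((p : ℕ) : ℤ), 0; 0, 1] : Matrix (Fin 2) (Fin 2) ℤ) * (δ : Matrix (Fin 2) (Fin 2) ℤ) =
      ((efConjSL p δ hdvd : SL(2, ℤ)) : Matrix (Fin 2) (Fin 2) ℤ) * !![((p : ℕ) : ℤ), 0; 0, 1] := by
    obtain ⟨c, hc⟩ := hdvd
    have hdiv : (δ 1 0 : ℤ) / (p : ℤ) * (p : ℤ) = δ 1 0 := by
      rw [hc, Int.mul_ediv_cancel_left _ hp, mul_comm]
    ext i j
    fin_cases i <;> fin_cases j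
    · simp [efConjSL, Matrix.mul_apply, Fin.sum_univ_two, mul_comm]
    · simp [efConjSL, Matrix.mul_apply, Fin.sum_univ_two]
    · simp [efConjSL, Matrix.mul_apply, Fin.sum_univ_two, hdiv]
    · simp [efConjSL, Matrix.mul_apply, Fin.sum_univ_two]
  rw [jMat_congr e (det_mul_SL_pos (det_phiInf p) δ) (det_SL_mul_pos _ (det_phiInf p)),
    jMat_SL_mul]

theorem egConj_phiInf (p : ℕ) [NeZero p] (b : ℕ) : egConj (phiInf p) b = phiFin p b := by
  funext τ
  rw [egConj, phiInf, ← jMat_mul_SL, phiFin]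
  have e : (!![((p : ℕ) : ℤ), 0; 0, 1] : Matrix (Fin 2) (Fin 2) ℤ) *
      ((egRep b : SL(2, ℤ)) : Matrix (Fin 2) (Fin 2) ℤ) =
      ((S : SL(2, ℤ)) : Matrix (Fin 2) (Fin 2) ℤ) * !![1, (b : ℤ); 0, ((p : ℕ) : ℤ)] := by
    rw [egRep, Matrix.SpecialLinearGroup.coe_mul, coe_S, coe_T_zpow]
    ext i j
    fin_cases i <;> fin_cases j <;> simp [Matrix.mul_apply, Fin.sum_univ_two]
  rw [jMat_congr e (det_mul_SL_pos (det_phiInf p) _) (det_SL_mul_pos _ (det_phiFin p b)),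
    jMat_SL_mul]

/-! ### The orbit polynomial of a `Γ₀(p)`-invariant function -/

section Orbit

variable {A : Type*} [CommRing A] [Nontrivial A] (ι : A →+* ℂ)

/-- **Orbit polynomial.**  A `Γ₀(p)`-invariant holomorphic function `F` whose expansion at `∞` is
`g ∈ A((q))` and whose expansion at the cusp `0` (i.e. of `F ∘ S` in `T = q^{1/p}`) is `f ∈ A((T))`
with a nonzero coefficient of exponent prime to `p`: then `g` is a root of a monic polynomial of
degree `p + 1` with coefficients in `A[j]`. -/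
theorem ef_exists_orbit_polynomial (hι : Function.Injective ι) (p : ℕ) [Fact p.Prime] [NeZero p]
    (F : ℍ → ℂ) (hF : ∀ δ ∈ Gamma0 p, ∀ τ : ℍ, F (δ • τ) = F τ)
    (g f : LaurentSeries A)
    (hq : IsQLaurentable p F) (hqe : qLaurent p F = qExpand ℂ p (lsMapHom ι g))
    (hS : IsQLaurentable p (fun τ => F (S • τ)))
    (hSe : qLaurent p (fun τ => F (S • τ)) = lsMapHom ι f)
    {n₀ : ℤ} (hn₀ : ι (f.coeff n₀) ≠ 0) (hcop : IsCoprime n₀ (p : ℤ)) :
    ∃ Φ : Polynomial (Polynomial A), Φ.Monic ∧ Φ.natDegree = p + 1 ∧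
      Φ.map (evalJ A) = eoTilde p f g ∧ Φ.eval₂ (evalJ A) g = 0 := by
  have hp : p.Prime := Fact.out
  have hrn : ¬ (p : ℤ) ∣ n₀ := by
    intro hdvd
    have h1 : IsUnit (p : ℤ) := hcop.symm.isUnit_of_dvd' dvd_rfl hdvd
    rw [Int.isUnit_iff] at h1
    have := hp.two_le
    omega
  have hmod : ∀ k, ∃ P : Polynomial ℂ, lsMapHom ι ((eoTilde p f g).coeff k) = evalJ ℂ P := by
    intro k
    refine eo_exists_polynomial_of_orbit ι p (zetaC p) (zetaC_isPrimitiveRoot p) f g hn₀ hcop hrn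
      F (egConj F) hq (fun b _ => (eg_qLaurent_egConj p F hS b).1) hqe ?_
      (eg_orbit_perm p F hF) k
    intro b _
    rw [(eg_qLaurent_egConj p F hS b).2, hSe]
  obtain ⟨Φ, h1, h2, h3, h4, -⟩ := eo_exists_orbit_polynomial p ι hι f g hmod
  exact ⟨Φ, h1, h2, h3, h4⟩

/-- the same with the expansion at `∞` given in `q` (period `1`) -/
theorem ef_exists_orbit_polynomial_one (hι : Function.Injective ι) (p : ℕ) [Fact p.Prime]
    [NeZero p] (F : ℍ → ℂ) (hF : ∀ δ ∈ Gamma0 p, ∀ τ : ℍ, F (δ • τ) = F τ)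
    (g f : LaurentSeries A)
    (hq : IsQLaurentable 1 F) (hqe : qLaurent 1 F = lsMapHom ι g)
    (hS : IsQLaurentable p (fun τ => F (S • τ)))
    (hSe : qLaurent p (fun τ => F (S • τ)) = lsMapHom ι f)
    {n₀ : ℤ} (hn₀ : ι (f.coeff n₀) ≠ 0) (hcop : IsCoprime n₀ (p : ℤ)) :
    ∃ Φ : Polynomial (Polynomial A), Φ.Monic ∧ Φ.natDegree = p + 1 ∧
      Φ.map (evalJ A) = eoTilde p f g ∧ Φ.eval₂ (evalJ A) g = 0 := by
  have hqp := qLaurent_change_period p hq
  exact ef_exists_orbit_polynomial ι hι p F hF g f hqp.1 (by rw [hqp.2, hqe]) hS hSe hn₀ hcop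

/-- **Orbit polynomial of `j_p + s h`.**  For a `Γ₀(p)`-invariant `h` with expansions `g` (at `∞`)
and `f` (of `h ∘ S`, in `T = q^{1/p}`) over `A`, and `s ∈ A` with `1 + s f₋₁ ≠ 0`: the series
`j(q^p) + s g` is a root of a monic polynomial of degree `p + 1` over `A[j]`. -/
theorem ef_exists_orbit_polynomial_add (hι : Function.Injective ι) (p : ℕ) [Fact p.Prime]
    [NeZero p] (h : ℍ → ℂ) (hh : ∀ δ ∈ Gamma0 p, ∀ τ : ℍ, h (δ • τ) = h τ)
    (g f : LaurentSeries A)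
    (hq : IsQLaurentable p h) (hqe : qLaurent p h = qExpand ℂ p (lsMapHom ι g))
    (hS : IsQLaurentable p (fun τ => h (S • τ)))
    (hSe : qLaurent p (fun τ => h (S • τ)) = lsMapHom ι f)
    (s : A) (hs : ι (1 + s * f.coeff (-1)) ≠ 0) :
    ∃ Φ : Polynomial (Polynomial A), Φ.Monic ∧ Φ.natDegree = p + 1 ∧
      Φ.eval₂ (evalJ A) (qExpand A p (jqModC A) + HahnSeries.C s * g) = 0 := by
  set F : ℍ → ℂ := fun τ => phiInf p τ + ι s * h τ with hFdef
  have hF : ∀ δ ∈ Gamma0 p, ∀ τ : ℍ, F (δ • τ) = F τ := by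
    intro δ hδ τ
    simp only [hFdef]
    rw [phiInf_gamma0_invariant p δ hδ, hh δ hδ]
  have hphi := phiInf_qLaurent p
  have hc : IsQLaurentable p (fun _ : ℍ => ι s) := IsQLaurentable.const p (ι s)
  have hF1 : IsQLaurentable p F := hphi.1.add (hc.mul hq)
  have hF2 : qLaurent p F =
      qExpand ℂ p (lsMapHom ι (qExpand A p (jqModC A) + HahnSeries.C s * g)) := by
    have e : qLaurent p F = qLaurent p (phiInf p) + qLaurent p (fun τ => ι s * h τ) :=
      qLaurent_add hphi.1 (hc.mul hq)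
    rw [e, qLaurent_mul hc hq, qLaurent_const, hphi.2, hqe, map_add, map_add, map_mul, map_mul,
      lsMapHom_C, lsMapHom_qExpand, lsMapHom_jqModC, lsMapHom_qExpand, lsMapHom_jqModC]
    rw [qExpand_C]
  have hphiS := phiFin_qLaurent p 0
  have hSfun : (fun τ => F (S • τ)) = fun τ => phiFin p ((0 : ℕ) : ℤ) τ + ι s * h (S • τ) := by
    funext τ
    have h0 := congrFun (egConj_phiInf p 0) τ
    rw [egConj_apply] at h0
    have h1 : ((((0 : ℕ) : ℤ) : ℝ) +ᵥ τ) = τ := by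
      rw [Nat.cast_zero, Int.cast_zero, zero_vadd]
    rw [h1] at h0
    show phiInf p (S • τ) + ι s * h (S • τ) = phiFin p ((0 : ℕ) : ℤ) τ + ι s * h (S • τ)
    rw [h0]
  have hFS1 : IsQLaurentable p (fun τ => F (S • τ)) := by
    rw [hSfun]
    exact hphiS.1.add (hc.mul hS)
  have hFS2 : qLaurent p (fun τ => F (S • τ)) = lsMapHom ι (jqModC A + HahnSeries.C s * f) := by
    have e : qLaurent p (fun τ => phiFin p ((0 : ℕ) : ℤ) τ + ι s * h (S • τ)) =
        qLaurent p (phiFin p ((0 : ℕ) : ℤ)) + qLaurent p (fun τ => ι s * h (S • τ)) :=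
      qLaurent_add hphiS.1 (hc.mul hS)
    rw [hSfun, e, qLaurent_mul hc hS, qLaurent_const, hphiS.2, hSe, map_add, map_mul,
      lsMapHom_C, lsMapHom_jqModC, lsMapHom_jqModC]
    congr 1
    ext n
    rw [lsTwist_coeff]
    simp
  have hcoeff : ι ((jqModC A + HahnSeries.C s * f).coeff (-1)) ≠ 0 := by
    rw [HahnSeries.coeff_add, coeff_jqModC_neg_one, HahnSeries.C_mul_eq_smul,
      HahnSeries.coeff_smul, smul_eq_mul]
    exact hs
  have hcop : IsCoprime (-1 : ℤ) (p : ℤ) := (isCoprime_one_left).neg_left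
  obtain ⟨Φ, h1, h2, -, h4⟩ := ef_exists_orbit_polynomial ι hι p F hF
    (qExpand A p (jqModC A) + HahnSeries.C s * g) (jqModC A + HahnSeries.C s * f)
    hF1 hF2 hFS1 hFS2 hcoeff hcop
  exact ⟨Φ, h1, h2, h4⟩

end Orbit

end Fermat.Agent.Eis
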