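import Fermat.Agent.Lib.Eis.Eta.EtaQuotField
import Fermat.Agent.Lib.Igusa.DeltaQuot

/-!
# P11 (D2), formal part: characteristic `2` identities for Laurent series

Over a commutative ring `K` of characteristic `2`:

* `E₄ = 1`, hence `j = Δ⁻¹`, `u_∞ = j(q) / j(q^p)`, `u_fin = j(q^p) / j(q)` (`p` odd);
* `θ = q d/dq` kills squares; `θ j = j`, `θ Δ = Δ`, `θ v = k v` for `v = (η(q)/η(q^p))¹²`,
  `p = 2k + 1`.
-/

set_option autoImplicit false

open HahnSeries ModularCurve
open Fermat.Agent.Igusa Fermat.Agent.S23Lib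

namespace Fermat.Agent.Eis

section CharTwo

variable (K : Type*) [CommRing K] [CharP K 2]

theorem eg_two_eq_zero : (2 : K) = 0 := by
  have := CharP.cast_eq_zero K 2
  exact_mod_cast this

theorem eg_natCast_of_odd {p : ℕ} (hp : Odd p) : ((p : ℕ) : K) = 1 := by
  obtain ⟨m, rfl⟩ := hp
  push_cast
  rw [eg_two_eq_zero K, zero_mul, zero_add]

theorem eg_intCast_of_odd {n : ℤ} (hn : Odd n) : ((n : ℤ) : K) = 1 := by
  obtain ⟨m, rfl⟩ := hn
  push_cast
  rw [eg_two_eq_zero K, zero_mul, zero_add]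

theorem eg_intCast_of_even {n : ℤ} (hn : Even n) : ((n : ℤ) : K) = 0 := by
  obtain ⟨m, rfl⟩ := hn
  push_cast
  rw [← two_mul, eg_two_eq_zero K, zero_mul]

theorem eg_laurent_add_self (x : LaurentSeries K) : x + x = 0 := by
  ext n
  rw [HahnSeries.coeff_add, HahnSeries.coeff_zero, ← two_mul, eg_two_eq_zero K, zero_mul]

/-- `E₄ = 1` in characteristic `2` -/
theorem eg_eeE4LS_eq_one : eeE4LS K = 1 := by
  have h : eisenstein4.map (Int.castRingHom K) = 1 := by
    ext n
    rw [PowerSeries.coeff_map, eisenstein4, PowerSeries.coeff_mk, PowerSeries.coeff_one]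
    split_ifs with hn
    · simp
    · rw [map_mul]
      have : (Int.castRingHom K) 240 = 0 := by
        rw [show (240 : ℤ) = 2 * 120 by norm_num, map_mul]
        have h2 : (Int.castRingHom K) 2 = 0 := by
          simpa using eg_two_eq_zero K
        rw [h2, zero_mul]
      rw [this, zero_mul]
  rw [eeE4LS, h, map_one]

/-- `j = Δ⁻¹` in characteristic `2` -/
theorem eg_jqModC_eq_deltaInvLS : jqModC K = deltaInvLS K := by
  rw [jqModC_eq_eeE4LS, eg_eeE4LS_eq_one, one_pow, one_mul]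

theorem eg_jqModC_mul_deltaLS : jqModC K * deltaLS K = 1 := by
  rw [eg_jqModC_eq_deltaInvLS, deltaInvLS_mul_deltaLS]

theorem eg_deltaLS_mul_jqModC : deltaLS K * jqModC K = 1 := by
  rw [mul_comm, eg_jqModC_mul_deltaLS]

/-- `u_∞ = p¹² Δ(q^p)/Δ(q) = j(q) · j(q^p)⁻¹` for odd `p` in characteristic `2` -/
theorem eg_unitInfLS_mul (p : ℕ) [NeZero p] (hp : Odd p) :
    unitInfLS K p * qExpand K p (jqModC K) = jqModC K := by
  have h1 : qExpand K p (deltaLS K) * qExpand K p (jqModC K) = 1 := by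
    rw [← map_mul, eg_deltaLS_mul_jqModC, map_one]
  rw [unitInfLS, eg_natCast_of_odd K hp, one_pow, map_one, one_mul, ← eg_jqModC_eq_deltaInvLS]
  calc qExpand K p (deltaLS K) * jqModC K * qExpand K p (jqModC K)
      = (qExpand K p (deltaLS K) * qExpand K p (jqModC K)) * jqModC K := by ring
    _ = jqModC K := by rw [h1, one_mul]

/-- `u_fin = Δ(q)/Δ(q^p) = j(q^p) · j(q)⁻¹` in characteristic `2` -/
theorem eg_unitFinLS_mul (p : ℕ) [NeZero p] :
    unitFinLS K p * jqModC K = qExpand K p (jqModC K) := by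
  rw [unitFinLS, ← eg_jqModC_eq_deltaInvLS]
  calc deltaLS K * qExpand K p (jqModC K) * jqModC K
      = (deltaLS K * jqModC K) * qExpand K p (jqModC K) := by ring
    _ = _ := by rw [eg_deltaLS_mul_jqModC, one_mul]

/-! ### `θ` in characteristic `2` -/

theorem eg_qTheta_sq (x : LaurentSeries K) : qTheta (x ^ 2) = 0 := by
  rw [pow_two, qTheta_mul, mul_comm (qTheta x) x]
  exact eg_laurent_add_self K _

theorem eg_qTheta_single_mul_sq (n : ℤ) (x : LaurentSeries K) :
    qTheta (HahnSeries.single n (1 : K) * x ^ 2) =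
      HahnSeries.C (n : K) * (HahnSeries.single n (1 : K) * x ^ 2) := by
  rw [qTheta_mul, eg_qTheta_sq, mul_zero, add_zero, qTheta_single, mul_one, ← mul_assoc,
    HahnSeries.C_apply, HahnSeries.single_mul_single, zero_add, mul_one]

theorem eg_qTheta_deltaLS : qTheta (deltaLS K) = deltaLS K := by
  rw [deltaLS_eq_eeEtaLS, show (24 : ℕ) = 12 * 2 by norm_num, pow_mul, eg_qTheta_single_mul_sq,
    Int.cast_one, map_one, one_mul]

theorem eg_qTheta_jqModC : qTheta (jqModC K) = jqModC K := by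
  rw [eg_jqModC_eq_deltaInvLS, deltaInvLS_eq_eeEtaInvLS, show (24 : ℕ) = 12 * 2 by norm_num,
    pow_mul, eg_qTheta_single_mul_sq, eg_intCast_of_odd K (by decide : Odd (-1 : ℤ)), map_one,
    one_mul]

theorem eg_qTheta_eeVLS (p : ℕ) [NeZero p] (k : ℕ) :
    qTheta (eeVLS K p k) = HahnSeries.C ((k : ℕ) : K) * eeVLS K p k := by
  rw [eeVLS, show (12 : ℕ) = 6 * 2 by norm_num, pow_mul, eg_qTheta_single_mul_sq]
  congr 2
  rw [Int.cast_neg, Int.cast_natCast]
  have := eg_laurent_add_self K (HahnSeries.C ((k : ℕ) : K))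
  have h2 : ((k : ℕ) : K) + ((k : ℕ) : K) = 0 := by
    rw [← two_mul, eg_two_eq_zero K, zero_mul]
  exact neg_eq_of_add_eq_zero_left h2

/-- `θ v = v` when `k = (p - 1)/2` is odd -/
theorem eg_qTheta_eeVLS_of_odd (p : ℕ) [NeZero p] {k : ℕ} (hk : Odd k) :
    qTheta (eeVLS K p k) = eeVLS K p k := by
  rw [eg_qTheta_eeVLS, eg_natCast_of_odd K hk, map_one, one_mul]

end CharTwo

end Fermat.Agent.Eis
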