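import Fermat.Agent.Lib.Eis.Geom.FieldTwo

/-!
# P11 (D2): the Fricke involution of `F' = k(j̄, j̄_p)`

From `Φ_p(j̄_p, j̄) = 0 = Φ_p(j̄, j̄_p)` and `[F' : k(j̄)] = p + 1 = deg_X Φ_p`: the `k`-algebra
involution `σ` of `F'` exchanging `j̄` and `j̄_p`.
-/

set_option autoImplicit false

open HahnSeries ModularCurve IntermediateField Polynomial
open Fermat.Agent.Igusa

noncomputable section

namespace Fermat.Agent.Eis

section Construction

variable (k : Type*) [Field k] (p : ℕ) [NeZero p]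

/-- `k[X] → k(j̄) ⊆ F'`, `X ↦ j̄` -/
def ehEvalF : Polynomial k →+* ↥(k⟮ehX k p⟯) :=
  (Polynomial.aeval (AdjoinSimple.gen k (ehX k p))).toRingHom

/-- `Φ_p(X, j̄)` with coefficients in `k(j̄) ⊆ F'` -/
def ehPhiF (hp : p.Prime) : Polynomial ↥(k⟮ehX k p⟯) := (modPhiK p hp k).map (ehEvalF k p)

theorem ehPhiF_monic (hp : p.Prime) : (ehPhiF k p hp).Monic := (modPhiK_monic p hp k).map _

theorem ehPhiF_natDegree (hp : p.Prime) : (ehPhiF k p hp).natDegree = p + 1 := by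
  rw [ehPhiF, (modPhiK_monic p hp k).natDegree_map, modPhiK_natDegree]

theorem ehEmb_algebraMap (c : k) :
    ehEmb k p (algebraMap k (EhField k p) c) = HahnSeries.C c := by
  rw [AlgHom.commutes, LaurentSeries.algebraMap_apply]

/-- `k[X] → F' → k((q))`, `X ↦ j̄`, is `evalJ` -/
theorem ehEmb_comp_evalF :
    ((ehEmb k p).toRingHom.comp (algebraMap ↥(k⟮ehX k p⟯) (EhField k p))).comp (ehEvalF k p) =
      evalJ k := by
  apply Polynomial.ringHom_ext
  · intro c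
    rw [evalJ_C]
    simp only [ehEvalF, RingHom.comp_apply, AlgHom.toRingHom_eq_coe, RingHom.coe_coe, aeval_C]
    rw [← IsScalarTower.algebraMap_apply k ↥(k⟮ehX k p⟯) (EhField k p)]
    exact ehEmb_algebraMap k p c
  · rw [evalJ_X]
    simp only [ehEvalF, RingHom.comp_apply, AlgHom.toRingHom_eq_coe, RingHom.coe_coe, aeval_X]
    rfl

theorem ehPhiF_eval (hp : p.Prime) :
    (ehPhiF k p hp).eval₂ (algebraMap ↥(k⟮ehX k p⟯) (EhField k p)) (ehY k p) = 0 := by
  apply ehEmb_injective k p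
  have := Polynomial.hom_eval₂ (ehPhiF k p hp) (algebraMap ↥(k⟮ehX k p⟯) (EhField k p))
    (ehEmb k p).toRingHom (ehY k p)
  rw [map_zero]
  refine this.trans ?_
  rw [ehPhiF, Polynomial.eval₂_map, ehEmb_comp_evalF]
  exact modPhiK_eval_left p hp k

/-- the `k`-embedding `k(j̄) → F'`, `j̄ ↦ j̄_p` -/
def ehSwap₀ : ↥(k⟮ehX k p⟯) →ₐ[k] EhField k p :=
  (k⟮ehY k p⟯).val.comp
    (((RatFunc.algEquivOfTranscendental (ehY k p) (eh_transcendental_ehY k p)) :
        RatFunc k →ₐ[k] ↥(k⟮ehY k p⟯)).comp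
      ((RatFunc.algEquivOfTranscendental (ehX k p) (eh_transcendental_ehX k p)).symm :
        ↥(k⟮ehX k p⟯) →ₐ[k] RatFunc k))

theorem ehSwap₀_gen : ehSwap₀ k p (AdjoinSimple.gen k (ehX k p)) = ehY k p := by
  have h1 : (RatFunc.algEquivOfTranscendental (ehX k p) (eh_transcendental_ehX k p)).symm
      (AdjoinSimple.gen k (ehX k p)) = RatFunc.X :=
    RatFunc.algEquivOfTranscendental_symm_gen _ _
  have h2 : ((RatFunc.algEquivOfTranscendental (ehY k p) (eh_transcendental_ehY k p)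
      (RatFunc.X : RatFunc k) : ↥(k⟮ehY k p⟯)) : EhField k p) = ehY k p :=
    RatFunc.algEquivOfTranscendental_X _ _
  show ((RatFunc.algEquivOfTranscendental (ehY k p) (eh_transcendental_ehY k p)
    ((RatFunc.algEquivOfTranscendental (ehX k p) (eh_transcendental_ehX k p)).symm
      (AdjoinSimple.gen k (ehX k p))) : ↥(k⟮ehY k p⟯)) : EhField k p) = ehY k p
  rw [h1]
  exact h2

/-- `k[X] → k(j̄) → F'`, `X ↦ j̄ ↦ j̄_p` -/
theorem ehEmb_comp_swap₀ :
    ((ehEmb k p).toRingHom.comp (ehSwap₀ k p).toRingHom).comp (ehEvalF k p) =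
      (qExpand k p).comp (evalJ k) := by
  apply Polynomial.ringHom_ext
  · intro c
    simp only [ehEvalF, RingHom.comp_apply, AlgHom.toRingHom_eq_coe, RingHom.coe_coe, aeval_C,
      AlgHom.commutes]
    rw [evalJ_C, qExpand_C, LaurentSeries.algebraMap_apply]
  · simp only [ehEvalF, RingHom.comp_apply, AlgHom.toRingHom_eq_coe, RingHom.coe_coe, aeval_X]
    rw [ehSwap₀_gen, evalJ_X]
    rfl

theorem ehPhiF_eval_swap (hp : p.Prime) :
    (ehPhiF k p hp).eval₂ (ehSwap₀ k p).toRingHom (ehX k p) = 0 := by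
  apply ehEmb_injective k p
  have := Polynomial.hom_eval₂ (ehPhiF k p hp) (ehSwap₀ k p).toRingHom
    (ehEmb k p).toRingHom (ehX k p)
  rw [map_zero]
  refine this.trans ?_
  rw [ehPhiF, Polynomial.eval₂_map, ehEmb_comp_swap₀]
  exact modPhiK_eval_right p hp k

end Construction

section Involution

variable (k : Type*) [Field k] (p : ℕ) [NeZero p] [CharP k 2] [IsAlgClosed k]

omit [CharP k 2] [IsAlgClosed k] in
/-- `F' = k(j̄)(j̄_p)` -/
theorem eh_adjoin_ehY_eq_top : (k⟮ehX k p⟯)⟮ehY k p⟯ = ⊤ := by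
  rw [eq_top_iff]
  intro z _
  refine eh_mem_of_subfield k p ((k⟮ehX k p⟯)⟮ehY k p⟯).toSubfield (fun c => ?_) ?_ ?_ z
  · rw [IsScalarTower.algebraMap_apply k ↥(k⟮ehX k p⟯) (EhField k p)]
    exact IntermediateField.algebraMap_mem _ _
  · exact IntermediateField.algebraMap_mem ((k⟮ehX k p⟯)⟮ehY k p⟯) (AdjoinSimple.gen k (ehX k p))
  · exact IntermediateField.mem_adjoin_simple_self _ _

omit [CharP k 2] [IsAlgClosed k] in
theorem eh_isIntegral_ehY (hp : p.Prime) : IsIntegral ↥(k⟮ehX k p⟯) (ehY k p) :=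
  ⟨ehPhiF k p hp, ehPhiF_monic k p hp, ehPhiF_eval k p hp⟩

/-- `Φ_p(X, j̄)` is the minimal polynomial of `j̄_p` over `k(j̄)` (inside `F'`) -/
theorem eh_minpoly_ehY (hp : p.Prime) (hp2 : p ≠ 2) :
    minpoly ↥(k⟮ehX k p⟯) (ehY k p) = ehPhiF k p hp := by
  have hint := eh_isIntegral_ehY k p hp
  have hdvd : minpoly ↥(k⟮ehX k p⟯) (ehY k p) ∣ ehPhiF k p hp :=
    minpoly.dvd _ _ (by rw [Polynomial.aeval_def]; exact ehPhiF_eval k p hp)
  have hdeg : (ehPhiF k p hp).natDegree ≤ (minpoly ↥(k⟮ehX k p⟯) (ehY k p)).natDegree := by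
    rw [ehPhiF_natDegree, ← IntermediateField.adjoin.finrank hint, eh_adjoin_ehY_eq_top,
      IntermediateField.finrank_top', ehField_finrank k p hp hp2]
  exact (Polynomial.eq_of_monic_of_dvd_of_natDegree_le (minpoly.monic hint)
    (ehPhiF_monic k p hp) hdvd hdeg).symm

theorem ehPhiF_irreducible (hp : p.Prime) (hp2 : p ≠ 2) : Irreducible (ehPhiF k p hp) := by
  rw [← eh_minpoly_ehY k p hp hp2]
  exact minpoly.irreducible (eh_isIntegral_ehY k p hp)

/-- `k(j̄)[X]/(Φ_p(X, j̄)) → F'`, `X ↦ j̄_p` -/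
def ehPres (hp : p.Prime) : AdjoinRoot (ehPhiF k p hp) →+* EhField k p :=
  AdjoinRoot.lift (algebraMap ↥(k⟮ehX k p⟯) (EhField k p)) (ehY k p) (ehPhiF_eval k p hp)

omit [CharP k 2] [IsAlgClosed k] in
theorem ehPres_of (hp : p.Prime) (a : ↥(k⟮ehX k p⟯)) :
    ehPres k p hp (AdjoinRoot.of (ehPhiF k p hp) a) = algebraMap ↥(k⟮ehX k p⟯) (EhField k p) a :=
  AdjoinRoot.lift_of _

omit [CharP k 2] [IsAlgClosed k] in
theorem ehPres_root (hp : p.Prime) :
    ehPres k p hp (AdjoinRoot.root (ehPhiF k p hp)) = ehY k p :=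
  AdjoinRoot.lift_root _

theorem ehPres_bijective (hp : p.Prime) (hp2 : p ≠ 2) :
    Function.Bijective (ehPres k p hp) := by
  have : Fact (Irreducible (ehPhiF k p hp)) := ⟨ehPhiF_irreducible k p hp hp2⟩
  refine ⟨(ehPres k p hp).injective, fun z => ?_⟩
  refine eh_mem_of_subfield k p (ehPres k p hp).fieldRange (fun c => ?_) ?_ ?_ z
  · refine ⟨AdjoinRoot.of _ (algebraMap k ↥(k⟮ehX k p⟯) c), ?_⟩
    rw [ehPres_of, ← IsScalarTower.algebraMap_apply k ↥(k⟮ehX k p⟯) (EhField k p)]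
  · exact ⟨AdjoinRoot.of _ (AdjoinSimple.gen k (ehX k p)), ehPres_of k p hp _⟩
  · exact ⟨AdjoinRoot.root _, ehPres_root k p hp⟩

/-- the presentation `k(j̄)[X]/(Φ_p(X, j̄)) ≃ F'` -/
def ehPresEquiv (hp : p.Prime) (hp2 : p ≠ 2) : AdjoinRoot (ehPhiF k p hp) ≃+* EhField k p :=
  RingEquiv.ofBijective (ehPres k p hp) (ehPres_bijective k p hp hp2)

theorem ehPresEquiv_apply (hp : p.Prime) (hp2 : p ≠ 2) (a : AdjoinRoot (ehPhiF k p hp)) :
    ehPresEquiv k p hp hp2 a = ehPres k p hp a := rfl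

/-- `k(j̄)[X]/(Φ_p(X, j̄)) → F'`, `j̄ ↦ j̄_p`, `X ↦ j̄` -/
def ehSwap₁ (hp : p.Prime) : AdjoinRoot (ehPhiF k p hp) →+* EhField k p :=
  AdjoinRoot.lift (ehSwap₀ k p).toRingHom (ehX k p) (ehPhiF_eval_swap k p hp)

/-- the Fricke involution as a ring endomorphism of `F'` -/
def ehFrickeHom (hp : p.Prime) (hp2 : p ≠ 2) : EhField k p →+* EhField k p :=
  (ehSwap₁ k p hp).comp (ehPresEquiv k p hp hp2).symm.toRingHom

theorem ehFrickeHom_algebraMap (hp : p.Prime) (hp2 : p ≠ 2) (c : k) :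
    ehFrickeHom k p hp hp2 (algebraMap k (EhField k p) c) = algebraMap k (EhField k p) c := by
  have h1 : (ehPresEquiv k p hp hp2).symm (algebraMap k (EhField k p) c) =
      AdjoinRoot.of _ (algebraMap k ↥(k⟮ehX k p⟯) c) := by
    rw [RingEquiv.symm_apply_eq, ehPresEquiv_apply, ehPres_of,
      ← IsScalarTower.algebraMap_apply k ↥(k⟮ehX k p⟯) (EhField k p)]
  show ehSwap₁ k p hp ((ehPresEquiv k p hp hp2).symm (algebraMap k (EhField k p) c)) = _
  rw [h1, ehSwap₁, AdjoinRoot.lift_of]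
  exact (ehSwap₀ k p).commutes c

theorem ehFrickeHom_ehX (hp : p.Prime) (hp2 : p ≠ 2) :
    ehFrickeHom k p hp hp2 (ehX k p) = ehY k p := by
  have h1 : (ehPresEquiv k p hp hp2).symm (ehX k p) =
      AdjoinRoot.of _ (AdjoinSimple.gen k (ehX k p)) := by
    rw [RingEquiv.symm_apply_eq, ehPresEquiv_apply, ehPres_of]
    rfl
  show ehSwap₁ k p hp ((ehPresEquiv k p hp hp2).symm (ehX k p)) = _
  rw [h1, ehSwap₁, AdjoinRoot.lift_of]
  exact ehSwap₀_gen k p

theorem ehFrickeHom_ehY (hp : p.Prime) (hp2 : p ≠ 2) :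
    ehFrickeHom k p hp hp2 (ehY k p) = ehX k p := by
  have h1 : (ehPresEquiv k p hp hp2).symm (ehY k p) = AdjoinRoot.root _ := by
    rw [RingEquiv.symm_apply_eq, ehPresEquiv_apply, ehPres_root]
  show ehSwap₁ k p hp ((ehPresEquiv k p hp hp2).symm (ehY k p)) = _
  rw [h1, ehSwap₁, AdjoinRoot.lift_root]

theorem ehFrickeHom_involutive (hp : p.Prime) (hp2 : p ≠ 2) (z : EhField k p) :
    ehFrickeHom k p hp hp2 (ehFrickeHom k p hp hp2 z) = z := by
  have h : (ehFrickeHom k p hp hp2).comp (ehFrickeHom k p hp hp2) = RingHom.id _ := by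
    apply eh_ringHom_ext k p
    · intro c
      rw [RingHom.comp_apply, ehFrickeHom_algebraMap, ehFrickeHom_algebraMap, RingHom.id_apply]
    · rw [RingHom.comp_apply, ehFrickeHom_ehX, ehFrickeHom_ehY, RingHom.id_apply]
    · rw [RingHom.comp_apply, ehFrickeHom_ehY, ehFrickeHom_ehX, RingHom.id_apply]
  exact congrArg (fun f : EhField k p →+* EhField k p => f z) h

/-- **The Fricke involution** `σ` of `F' = k(j̄, j̄_p)`: the `k`-algebra automorphism exchanging
`j̄` and `j̄_p`. -/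
def ehFricke (hp : p.Prime) (hp2 : p ≠ 2) : EhField k p ≃ₐ[k] EhField k p where
  toFun := ehFrickeHom k p hp hp2
  invFun := ehFrickeHom k p hp hp2
  left_inv := ehFrickeHom_involutive k p hp hp2
  right_inv := ehFrickeHom_involutive k p hp hp2
  map_mul' := map_mul _
  map_add' := map_add _
  commutes' := ehFrickeHom_algebraMap k p hp hp2

@[simp] theorem ehFricke_ehX (hp : p.Prime) (hp2 : p ≠ 2) :
    ehFricke k p hp hp2 (ehX k p) = ehY k p := ehFrickeHom_ehX k p hp hp2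

@[simp] theorem ehFricke_ehY (hp : p.Prime) (hp2 : p ≠ 2) :
    ehFricke k p hp hp2 (ehY k p) = ehX k p := ehFrickeHom_ehY k p hp hp2

@[simp] theorem ehFricke_ehFricke (hp : p.Prime) (hp2 : p ≠ 2) (z : EhField k p) :
    ehFricke k p hp hp2 (ehFricke k p hp hp2 z) = z := ehFrickeHom_involutive k p hp hp2 z

theorem ehFricke_symm (hp : p.Prime) (hp2 : p ≠ 2) :
    (ehFricke k p hp hp2).symm = ehFricke k p hp hp2 := by
  ext z
  rw [AlgEquiv.symm_apply_eq, ehFricke_ehFricke]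

end Involution

end Fermat.Agent.Eis
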