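import Fermat.Agent.Lib.Eis.Geom.Bridge
import Fermat.Agent.Lib.Igusa.TowerBridge
import Fermat.Agent.Lib.Igusa.TowerMain
import Fermat.Agent.Lib.Igusa.DeltaQuotUnit
import Fermat.Agent.Lib.Igusa.PsiStep

/-!
# P11 (D0): `Γ₀(p)`-invariant functions with rational expansions lie in `ℚ(j, j_p)`

* `ef_mem_adjoin_simple_of_degree_le`: the primitive element argument with rational parameters;
* `ef_dedekindPsi_le_finrank`: `ψ(N) ≤ [ℚ(j)(X_d, U_r) : ℚ(j)]` (the Puiseux tower of P9 over `ℂ`);
* `ef_mem_full_of_gamma0_invariant`: a holomorphic `Γ₀(p)`-invariant function whose expansions at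
  the two cusps are Laurent series with rational coefficients has its `q`-expansion in
  `modularFunctionFieldFull p`.
-/

set_option autoImplicit false

open HahnSeries ModularCurve IntermediateField Polynomial UpperHalfPlane ModularGroup
  CongruenceSubgroup
open Fermat.Agent.ES Fermat.Agent.S24Lib Fermat.Agent.Igusa
open scoped MatrixGroups

namespace Fermat.Agent.Eis

/-! ### Primitive elements -/

/-- **Primitive elements `x + s g` with rational `s`.**  If `x + s g` is a root of a monic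
polynomial of degree `d ≤ [F(x) : F]` for infinitely many `s ∈ ℚ`, then `g ∈ F(x)`. -/
theorem ef_mem_adjoin_simple_of_degree_le {F L : Type*} [Field F] [Field L] [Algebra F L]
    [CharZero F] (x g : L) (hx : IsIntegral F x) (d : ℕ) (hd : d ≤ Module.finrank F F⟮x⟯)
    (S : Set ℚ) (hS : S.Infinite)
    (h : ∀ s ∈ S, ∃ P : Polynomial F, P.Monic ∧ P.natDegree = d ∧
      Polynomial.aeval (x + algebraMap F L (s : F) * g) P = 0) :
    g ∈ F⟮x⟯ := by
  classical
  -- integrality of `x + s g` and of `g`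
  have hθ : ∀ s ∈ S, IsIntegral F (x + algebraMap F L (s : F) * g) := by
    intro s hs
    obtain ⟨P, hP, -, hP0⟩ := h s hs
    exact ⟨P, hP, by rwa [Polynomial.aeval_def] at hP0⟩
  obtain ⟨s₁, hs₁, hs₁0⟩ : ∃ s ∈ S, s ≠ 0 := by
    by_contra hcon
    push Not at hcon
    exact hS ((Set.finite_singleton (0 : ℚ)).subset fun s hs => hcon s hs)
  have hg : IsIntegral F g := by
    have h1 : IsIntegral F (algebraMap F L (s₁ : F) * g) := by
      have := (hθ s₁ hs₁).sub hx
      rwa [add_sub_cancel_left] at this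
    have h2 : IsIntegral F (algebraMap F L ((s₁⁻¹ : ℚ) : F)) := isIntegral_algebraMap
    have h3 := h2.mul h1
    rwa [← mul_assoc, ← map_mul, ← Rat.cast_mul, inv_mul_cancel₀ hs₁0, Rat.cast_one, map_one,
      one_mul] at h3
  -- the field `E' = F(x, g)`
  set E' : IntermediateField F L := IntermediateField.adjoin F {x, g} with hE'
  have : FiniteDimensional F E' := by
    have : Finite ({x, g} : Set L) := ((Set.finite_singleton g).insert x).to_subtype
    refine IntermediateField.finiteDimensional_adjoin ?_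
    rintro y (rfl | rfl)
    · exact hx
    · exact hg
  have hxE : x ∈ E' := IntermediateField.subset_adjoin F _ (Set.mem_insert _ _)
  have hgE : g ∈ E' := IntermediateField.subset_adjoin F _ (Set.mem_insert_of_mem _ rfl)
  have : Finite (IntermediateField F E') :=
    Field.finite_intermediateField_of_exists_primitive_element F E'
      (Field.exists_primitive_element F E')
  have hθE : ∀ s : ℚ, x + algebraMap F L (s : F) * g ∈ E' := fun s =>
    E'.add_mem hxE (E'.mul_mem (E'.algebraMap_mem _) hgE)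
  obtain ⟨s, hs, s', hs', hne, heq⟩ := hS.exists_ne_map_eq_of_mapsTo
    (f := fun s : ℚ => F⟮(⟨x + algebraMap F L (s : F) * g, hθE s⟩ : E')⟯)
    (t := Set.univ) (fun _ _ => Set.mem_univ _) Set.finite_univ
  -- push to `L`
  have heq' : F⟮x + algebraMap F L (s : F) * g⟯ = F⟮x + algebraMap F L (s' : F) * g⟯ := by
    have := congrArg IntermediateField.lift heq
    simpa only [IntermediateField.lift_adjoin_simple] using this
  set M : IntermediateField F L := F⟮x + algebraMap F L (s : F) * g⟯ with hM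
  have h1 : x + algebraMap F L (s : F) * g ∈ M := IntermediateField.mem_adjoin_simple_self F _
  have h2 : x + algebraMap F L (s' : F) * g ∈ M := by
    rw [heq']
    exact IntermediateField.mem_adjoin_simple_self F _
  have hgM : g ∈ M := by
    have h3 : algebraMap F L ((s - s' : ℚ) : F) * g ∈ M := by
      have := M.sub_mem h1 h2
      rw [Rat.cast_sub, map_sub, sub_mul]
      convert this using 1
      ring
    have h4 : algebraMap F L (((s - s')⁻¹ : ℚ) : F) ∈ M := M.algebraMap_mem _
    have h5 := M.mul_mem h4 h3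
    rwa [← mul_assoc, ← map_mul, ← Rat.cast_mul, inv_mul_cancel₀ (sub_ne_zero.mpr hne),
      Rat.cast_one, map_one, one_mul] at h5
  have hxM : x ∈ M := by
    have := M.sub_mem h1 (M.mul_mem (M.algebraMap_mem (s : F)) hgM)
    rwa [add_sub_cancel_right] at this
  -- degrees
  have hfinM : FiniteDimensional F M := IntermediateField.adjoin.finiteDimensional (hθ s hs)
  have hdegM : Module.finrank F M ≤ d := by
    obtain ⟨P, hP, hPd, hP0⟩ := h s hs
    rw [hM, IntermediateField.adjoin.finrank (hθ s hs), ← hPd]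
    exact Polynomial.natDegree_le_of_dvd (minpoly.dvd F _ hP0) hP.ne_zero
  have hle : F⟮x⟯ ≤ M := by
    rw [IntermediateField.adjoin_simple_le_iff]
    exact hxM
  have := IntermediateField.eq_of_le_of_finrank_le hle (hdegM.trans hd)
  rw [this]
  exact hgM

/-! ### The degree of `ℚ(X₀(p))` over `ℚ(j)` -/

/-- `ψ(N) ≤ [ℚ(j)(X_d, U_r) : ℚ(j)]` in characteristic zero (the Puiseux tower over `ℂ`) -/
theorem ef_dedekindPsi_le_finrank (N : ℕ) [NeZero N] :
    dedekindPsi N ≤
      Module.finrank ↥(kappaJ ℚ) ↥(IntermediateField.adjoin ↥(kappaJ ℚ) (igGenSet ℚ N)) := by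
  have hNC : ((N : ℕ) : ℂ) ≠ 0 := Nat.cast_ne_zero.mpr (NeZero.ne N)
  have h1 := ig_tower_bound_of_relfinrank ℂ N hNC ((pzTowerData ℂ N hNC).dedekindPsi_le)
  have := finiteDimensional_adjoin_igGenSet (K := ℚ) N
  have h2 := bcd_finrank_lsMapHom_le (algebraMap ℚ ℂ) (igGenSet ℚ N)
  rw [image_lsMapHom_igGenSet] at h2
  exact h1.trans h2

theorem ef_kappaJ_le_full (N : ℕ) [NeZero N] : kappaJ ℚ ≤ modularFunctionFieldFull N := by
  rw [IntermediateField.adjoin_simple_le_iff]
  have h := jqd_mem_full N (one_dvd N)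
  rwa [qExpand_one_apply] at h

theorem ef_igGenSet_subset_full (N : ℕ) [NeZero N] :
    igGenSet ℚ N ⊆ (modularFunctionFieldFull N : Set (LaurentSeries ℚ)) := by
  rintro x (⟨d, hd0, hd, rfl⟩ | ⟨r, hr0, hr, hd, rfl⟩)
  · exact jqd_mem_full N hd
  · exact unitInfLS_mem_full N hd

/-- for `p` prime, `ℚ(X₀(p)) = ℚ(j)(j_p)` (one inclusion) -/
theorem ef_full_le_adjoin_simple (p : ℕ) [NeZero p] (hp : p.Prime) {x : LaurentSeries ℚ}
    (hx : x ∈ modularFunctionFieldFull p) : x ∈ (kappaJ ℚ)⟮qExpand ℚ p jq⟯ := by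
  have h : Subfield.closure (Set.range (algebraMap ℚ (LaurentSeries ℚ)) ∪ divisorExpansions p) ≤
      ((kappaJ ℚ)⟮qExpand ℚ p jq⟯).toSubfield := by
    rw [Subfield.closure_le]
    rintro y (⟨c, rfl⟩ | ⟨d, hd0, hd, rfl⟩)
    · exact IntermediateField.algebraMap_mem _
        (⟨algebraMap ℚ _ c, (kappaJ ℚ).algebraMap_mem c⟩ : ↥(kappaJ ℚ))
    · rcases (Nat.dvd_prime hp).mp hd with rfl | rfl
      · rw [qExpand_one_apply]
        exact IntermediateField.algebraMap_mem _
          (⟨jq, IntermediateField.mem_adjoin_simple_self ℚ jq⟩ : ↥(kappaJ ℚ))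
      · exact IntermediateField.mem_adjoin_simple_self _ _
  exact h hx

theorem ef_adjoin_igGenSet_le (p : ℕ) [NeZero p] (hp : p.Prime) :
    IntermediateField.adjoin ↥(kappaJ ℚ) (igGenSet ℚ p) ≤ (kappaJ ℚ)⟮qExpand ℚ p jq⟯ := by
  rw [IntermediateField.adjoin_le_iff]
  intro x hx
  exact ef_full_le_adjoin_simple p hp (ef_igGenSet_subset_full p hx)

theorem ef_adjoin_simple_le_full (p : ℕ) [NeZero p] {x : LaurentSeries ℚ}
    (hx : x ∈ (kappaJ ℚ)⟮qExpand ℚ p jq⟯) : x ∈ modularFunctionFieldFull p := by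
  have h : (kappaJ ℚ)⟮qExpand ℚ p jq⟯ ≤ IntermediateField.extendScalars (ef_kappaJ_le_full p) := by
    rw [IntermediateField.adjoin_simple_le_iff, IntermediateField.mem_extendScalars]
    exact jqd_mem_full p dvd_rfl
  exact (IntermediateField.mem_extendScalars _).mp (h hx)


/-! ### Membership -/

/-- **(D0), membership.**  A holomorphic `Γ₀(p)`-invariant function `h` whose expansion at `∞` is
`g ∈ ℚ((q))` and whose expansion at the cusp `0` (of `h ∘ S`, in `q^{1/p}`) is `f ∈ ℚ((q^{1/p}))`: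
then `g ∈ ℚ(j, j_p)`. -/
theorem ef_mem_full_of_gamma0_invariant (p : ℕ) [Fact p.Prime] [NeZero p] (h : ℍ → ℂ)
    (hh : ∀ δ ∈ Gamma0 p, ∀ τ : ℍ, h (δ • τ) = h τ) (g f : LaurentSeries ℚ)
    (hq : IsQLaurentable p h)
    (hqe : qLaurent p h = qExpand ℂ p (lsMapHom (algebraMap ℚ ℂ) g))
    (hS : IsQLaurentable p (fun τ => h (S • τ)))
    (hSe : qLaurent p (fun τ => h (S • τ)) = lsMapHom (algebraMap ℚ ℂ) f) :
    g ∈ modularFunctionFieldFull p := by
  have hp : p.Prime := Fact.out
  apply ef_adjoin_simple_le_full p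
  have hx : IsIntegral ↥(kappaJ ℚ) (qExpand ℚ p jq) :=
    isIntegral_kappaJ_of_mem_igGenSet (N := p) (qExpand_jqModC_mem_igGenSet dvd_rfl)
  have hfin : FiniteDimensional ↥(kappaJ ℚ) ↥(kappaJ ℚ)⟮qExpand ℚ p jq⟯ :=
    IntermediateField.adjoin.finiteDimensional hx
  have hd : p + 1 ≤ Module.finrank ↥(kappaJ ℚ) ↥(kappaJ ℚ)⟮qExpand ℚ p jq⟯ := by
    rw [← igPsi_prime hp]
    exact (ef_dedekindPsi_le_finrank p).trans
      (IntermediateField.finrank_le_of_le_right (ef_adjoin_igGenSet_le p hp))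
  set c : ℚ := f.coeff (-1) with hc
  set S₀ : Set ℚ := {s | 1 + s * c ≠ 0} with hS₀
  have hS₀inf : S₀.Infinite := by
    have hfin : S₀ᶜ.Finite := by
      refine (Set.finite_singleton (-c⁻¹)).subset ?_
      intro s hs
      rw [hS₀, Set.mem_compl_iff, Set.mem_ofPred_eq, not_not] at hs
      rw [Set.mem_singleton_iff]
      have hc0 : c ≠ 0 := by
        rintro h0
        rw [h0, mul_zero, add_zero] at hs
        exact one_ne_zero hs
      field_simp
      linear_combination hs
    have := hfin.infinite_compl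
    rwa [compl_compl] at this
  refine ef_mem_adjoin_simple_of_degree_le (qExpand ℚ p jq) g hx (p + 1) hd S₀ hS₀inf ?_
  intro s hs
  have hs' : (algebraMap ℚ ℂ) (1 + s * f.coeff (-1)) ≠ 0 := by
    rw [Ne, map_eq_zero]
    exact hs
  obtain ⟨Φ, hΦ, hdeg, hroot⟩ := ef_exists_orbit_polynomial_add (algebraMap ℚ ℂ)
    (algebraMap ℚ ℂ).injective p h hh g f hq hqe hS hSe s hs'
  refine ⟨Φ.map evalJKappa, hΦ.map _, ?_, ?_⟩
  · rw [hΦ.natDegree_map, hdeg]
  · rw [Polynomial.aeval_def, Polynomial.eval₂_map, algebraMap_comp_evalJKappa]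
    have e : algebraMap ↥(kappaJ ℚ) (LaurentSeries ℚ) ((s : ℚ) : ↥(kappaJ ℚ)) = HahnSeries.C s := by
      rw [IntermediateField.algebraMap_apply, SubfieldClass.coe_ratCast]
      have := map_ratCast (HahnSeries.C : ℚ →+* LaurentSeries ℚ) s
      rw [Rat.cast_id] at this
      exact this.symm
    rw [e]
    exact hroot

end Fermat.Agent.Eis
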