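import Fermat.Agent.Lib.Eis.Geom.GenusBoundAux
import Fermat.Agent.Lib.Eis.Geom.D3.Echelon

/-!
# P11 (D3), final: `12 g(F') ≤ p + 1` and the case `p ≡ 23 mod 24` of (D)
-/

set_option autoImplicit false

open ModularCurve ModularCurve.IgusaScheme CongruenceSubgroup
open Fermat.Agent.Igusa

noncomputable section

namespace Fermat.Agent.Eis

/-- **(D3)**: `12 g(F') ≤ p + 1` for `p ≡ 11 mod 12`, `F' = k(j̄, j̄_p)` over an algebraically
closed field `k` of characteristic `2` -/
theorem eh_twelve_mul_genus_le (k : Type*) [Field k] [CharP k 2] [IsAlgClosed k] (p : ℕ)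
    [hpF : Fact p.Prime] [NeZero p] (hp : p % 12 = 11) :
    12 * Fermat.Agent.CurveP.genusR k (EhField k p) ≤ p + 1 := by
  have hpp := hpF.out
  have hp2 : p ≠ 2 := by omega
  exact eo_twelve_mul_genus_le_of_reduced k p hp
    (fun d v hv => ed3_exists_reduced_family p hpp hp2 v hv)

/-- **(D), case `p ≡ 23 mod 24`**: no weight-`2` cusp form on `Γ₀(p)` is congruent to the
Eisenstein series modulo `2`. -/
theorem not_eisCong_two_of_mod_eq_twentythree (p : ℕ) [hpF : Fact p.Prime] (hp : p % 24 = 23)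
    (f : CuspForm (Gamma0 p) 2) : ¬ EisCong p 2 f := by
  have : NeZero p := ⟨hpF.out.ne_zero⟩
  have : CharP (AlgebraicClosure (ZMod 2)) 2 := by infer_instance
  exact eh_not_eisCong_two_of_genus_le (AlgebraicClosure (ZMod 2)) p hp
    (eh_twelve_mul_genus_le (AlgebraicClosure (ZMod 2)) p (by omega)) f

end Fermat.Agent.Eis
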