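import Mathlib
import Fermat.Prelude.Def_ModularCurve_GenusNumerics

/-!
# P11 (D3): the genus formula for `X₀(p)`, `p ≡ 11 mod 12`

`g(X₀(p)) = (p + 1)/12` for a prime `p ≡ 11 mod 12`: `ψ(p) = p + 1`, `ν₂ = ν₃ = 0`, two cusps.
-/

set_option autoImplicit false

open ModularCurve

namespace Fermat.Agent.Eis

theorem eo_dedekindPsi_prime {p : ℕ} (hp : p.Prime) : dedekindPsi p = p + 1 := by
  rw [dedekindPsi, Nat.Prime.divisors hp]
  have h1 : (1 : ℕ) ≠ p := hp.one_lt.ne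
  rw [Finset.filter_true_of_mem, Finset.sum_pair h1, Nat.div_one, Nat.div_self hp.pos]
  intro d hd
  rw [Finset.mem_insert, Finset.mem_singleton] at hd
  rcases hd with rfl | rfl
  · exact squarefree_one
  · exact hp.prime.squarefree

theorem eo_cuspCount_prime {p : ℕ} (hp : p.Prime) : cuspCount p = 2 := by
  rw [cuspCount, Nat.Prime.divisors hp]
  have h1 : (1 : ℕ) ≠ p := hp.one_lt.ne
  rw [Finset.sum_pair h1, Nat.div_one, Nat.div_self hp.pos, Nat.gcd_one_left, Nat.gcd_one_right,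
    Nat.totient_one]

theorem eo_nuTwo_eq_zero {p : ℕ} [Fact p.Prime] (hp : p % 4 = 3) : nuTwo p = 0 := by
  rw [nuTwo, Nat.card_eq_zero]
  left
  refine ⟨fun ⟨x, hx⟩ => ?_⟩
  have h1 : IsSquare (-1 : ZMod p) := ⟨x, by linear_combination -hx⟩
  exact (ZMod.exists_sq_eq_neg_one_iff.mp h1) hp

theorem eo_nuThree_eq_zero {p : ℕ} [hpF : Fact p.Prime] (hp : p % 3 = 2) : nuThree p = 0 := by
  have hpp := hpF.out
  rw [nuThree, Nat.card_eq_zero]
  left
  refine ⟨fun ⟨x, hx⟩ => ?_⟩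
  -- `x ^ 3 = 1`
  have h3 : x ^ 3 = 1 := by linear_combination (x - 1) * hx
  have hx0 : x ≠ 0 := by
    intro h0
    rw [h0] at h3
    simp at h3
  have hp1 : x ^ (p - 1) = 1 := ZMod.pow_card_sub_one_eq_one hx0
  -- `p - 1 = 3 m + 1`
  obtain ⟨m, hm⟩ : ∃ m, p - 1 = 3 * m + 1 := ⟨(p - 1) / 3, by omega⟩
  rw [hm, pow_succ, pow_mul, h3, one_pow, one_mul] at hp1
  -- `x = 1` gives `3 = 0`
  rw [hp1] at hx
  have h30 : (3 : ZMod p) = 0 := by linear_combination hx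
  have h31 : ((3 : ℕ) : ZMod p) = 0 := by exact_mod_cast h30
  rw [ZMod.natCast_eq_zero_iff] at h31
  have := (Nat.prime_dvd_prime_iff_eq hpp Nat.prime_three).mp h31
  omega

/-- `g(X₀(p)) = (p + 1)/12` for `p ≡ 11 mod 12` -/
theorem eo_genusFormula_prime {p : ℕ} [hpF : Fact p.Prime] (hp : p % 12 = 11) :
    (((p + 1) / 12 : ℕ) : ℚ) = genusFormula p := by
  have hpp := hpF.out
  rw [genusFormula, eo_dedekindPsi_prime hpp, eo_cuspCount_prime hpp,
    eo_nuTwo_eq_zero (by omega), eo_nuThree_eq_zero (by omega)]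
  obtain ⟨m, hm⟩ : ∃ m, p + 1 = 12 * m := ⟨(p + 1) / 12, by omega⟩
  rw [hm, Nat.mul_div_cancel_left _ (by norm_num : 0 < 12)]
  push_cast
  ring

end Fermat.Agent.Eis
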