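import Fermat.Agent.Lib.Eis.Geom.ReduceRR
import Fermat.Agent.Lib.Eis.Geom.GenusNumerics
import Fermat.Agent.Lib.Eis.Geom.NotEisCongTwo
import Fermat.Agent.Lib.Eis.Semi.RatFamily

/-!
# P11 (D3): the genus bound `g(F') ≤ (p + 1)/12` and the case `p ≡ 23 mod 24` of (D),
from the two inputs `EoRatFamily` (char `0` count over `ℚ`) and `EoReducedFamily` (saturation)

`F' = k(j̄, j̄_p)` over an algebraically closed field `k` of characteristic `2`.  The spaces
`L(n (j)_∞)` of `X₀(p)` over `ℚ` reduce injectively (after saturation) into `L(n (j̄)_∞)` of `F'`,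
hence `ℓ_{F'}(n (j̄)_∞) ≥ n (p + 1) + 1 - g(X₀(p))`; Riemann–Roch for `F'` gives
`g(F') ≤ g(X₀(p)) = (p + 1)/12`.
-/

set_option autoImplicit false
set_option linter.unusedSectionVars false
set_option linter.style.haveILetI false

open HahnSeries ModularCurve ModularCurve.IgusaScheme Polynomial AlgebraicCurve
open Fermat.Agent.Igusa Fermat.Agent.Curve

noncomputable section

namespace Fermat.Agent.Eis

section Bound

variable (k : Type*) [Field k] [CharP k 2] [IsAlgClosed k] (p : ℕ) [NeZero p]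

set_option quotPrecheck false in
local notation "F" => ↥(modularFunctionFieldFull p)

/-- the `ℚ`-subspace of `ℚ(X₀(p))` cut out by the two integrality conditions -/
def eoIntSpace (n : ℕ) : Submodule ℚ F where
  carrier := {f | IsIntegral ↥(Algebra.adjoin ℚ {jFull p}) f ∧
    IsIntegral ↥(Algebra.adjoin ℚ {(jFull p)⁻¹}) ((jFull p)⁻¹ ^ n * f)}
  zero_mem' := ⟨isIntegral_zero, by rw [mul_zero]; exact isIntegral_zero⟩
  add_mem' := by
    rintro a b ⟨ha1, ha2⟩ ⟨hb1, hb2⟩
    exact ⟨ha1.add hb1, by rw [mul_add]; exact ha2.add hb2⟩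
  smul_mem' := by
    rintro c a ⟨ha1, ha2⟩
    refine ⟨?_, ?_⟩
    · rw [Algebra.smul_def]
      exact (isIntegral_algebraMap (R := ↥(Algebra.adjoin ℚ {jFull p}))
        (x := algebraMap ℚ ↥(Algebra.adjoin ℚ {jFull p}) c)).mul ha1
    · rw [Algebra.smul_def, mul_left_comm]
      exact (isIntegral_algebraMap (R := ↥(Algebra.adjoin ℚ {(jFull p)⁻¹}))
        (x := algebraMap ℚ ↥(Algebra.adjoin ℚ {(jFull p)⁻¹}) c)).mul ha2

/-- input (P1): for every `n` there are `n (p + 1) + 1 - g` linearly independent elements of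
`ℚ(X₀(p))` integral over `ℚ[j]` with `j⁻ⁿ f` integral over `ℚ[1/j]` -/
def EoRatFamily (g : ℕ) : Prop :=
  ∀ n : ℕ, ∃ v : Fin (n * (p + 1) + 1 - g) → F, LinearIndependent ℚ v ∧
    (∀ i, IsIntegral ↥(Algebra.adjoin ℚ {jFull p}) (v i)) ∧
    (∀ i, IsIntegral ↥(Algebra.adjoin ℚ {(jFull p)⁻¹}) ((jFull p)⁻¹ ^ n * v i))

/-- input (C): every finite `ℚ`-independent family in `ℚ(X₀(p))` spans a space containing a family
of the same size of elements of the Gauss ring with `𝔽₂`-independent reductions -/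
def EoReducedFamily : Prop :=
  ∀ (d : ℕ) (v : Fin d → F), LinearIndependent ℚ v →
    ∃ w : Fin d → F, (∀ i, w i ∈ Submodule.span ℚ (Set.range v)) ∧
      ∃ hw : ∀ i, w i ∈ gaussRing 2 p,
        LinearIndependent (ZMod 2) (fun i => gaussRho 2 p ⟨w i, hw i⟩)

/-- **(K)**: `ℓ_{F'}(n (j̄)_∞) ≥ n (p + 1) + 1 - g(X₀(p))` -/
theorem eo_le_finrank_riemannRochSpace (hp : p.Prime) (hp2 : p ≠ 2) (g : ℕ)
    (hfam : EoRatFamily p g) (hred : EoReducedFamily p) (n : ℕ) (D : Divisor k (EhField k p))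
    (hD : ∀ v : Place k (EhField k p), D v = (n : ℤ) * max 0 (-(v.ord (ehX k p)))) :
    n * (p + 1) + 1 - g ≤ Module.finrank k ↥(riemannRochSpace D) := by
  have hgen := ehField_isFunctionFieldGen k p hp hp2
  have := ehField_isSeparable k p hp hp2
  have hfd := Fermat.Agent.CurveP.finiteDimensional_riemannRochSpace hgen D
  obtain ⟨v, hv, hv1, hv2⟩ := hfam n
  obtain ⟨w, hwspan, hwO, hwli⟩ := hred _ v hv
  -- the `w i` satisfy the integrality conditions
  have hle : Submodule.span ℚ (Set.range v) ≤ eoIntSpace p n := by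
    rw [Submodule.span_le]
    rintro _ ⟨i, rfl⟩
    exact ⟨hv1 i, hv2 i⟩
  have hw12 : ∀ i, w i ∈ eoIntSpace p n := fun i => hle (hwspan i)
  -- the reductions
  set z : Fin (n * (p + 1) + 1 - g) → EhField k p :=
    fun i => eoRed k p hp hp2 ⟨w i, hwO i⟩ with hz
  have hzmem : ∀ i, z i ∈ riemannRochSpace D := fun i =>
    eoRed_mem_riemannRochSpace k p hp hp2 n D hD ⟨w i, hwO i⟩ (hw12 i).1 (hw12 i).2
  have hzli : LinearIndependent k z := by
    have h0 := eo_linearIndependent_lsMapHom k _ hwli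
    rw [linearIndependent_iff'] at h0 ⊢
    intro t c hc i hi
    refine h0 t c ?_ i hi
    have h1 := congrArg (ehEmb k p) hc
    rw [map_sum, map_zero] at h1
    rw [← h1]
    refine Finset.sum_congr rfl fun j _ => ?_
    rw [ehEmb_smul, HahnSeries.C_mul_eq_smul]
    rfl
  have hzli' : LinearIndependent k
      (fun i => (⟨z i, hzmem i⟩ : ↥(riemannRochSpace D))) := by
    apply LinearIndependent.of_comp (riemannRochSpace D).subtype
    exact hzli
  have := hzli'.fintype_card_le_finrank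
  rwa [Fintype.card_fin] at this

/-- **(D3)**: `g(F') ≤ g(X₀(p))` -/
theorem eo_genusR_le (hp : p.Prime) (hp2 : p ≠ 2) (g : ℕ) (hfam : EoRatFamily p g)
    (hred : EoReducedFamily p) : Fermat.Agent.CurveP.genusR k (EhField k p) ≤ g := by
  have hgen := ehField_isFunctionFieldGen k p hp hp2
  have := ehField_isSeparable k p hp hp2
  set g' := Fermat.Agent.CurveP.genusR k (EhField k p) with hg'
  set n : ℕ := 2 * g' + g with hn
  set D : Divisor k (EhField k p) :=
    (n : ℤ) • Fermat.Agent.CurveP.RRAux.poleDiv hgen (ehX k p) with hDdef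
  have hD : ∀ v : Place k (EhField k p), D v = (n : ℤ) * max 0 (-(v.ord (ehX k p))) := by
    intro v
    rw [hDdef, Finsupp.smul_apply, Fermat.Agent.CurveP.RRAux.poleDiv_apply, smul_eq_mul]
  have hdeg : Divisor.degree D = (n : ℤ) * ((p : ℤ) + 1) := by
    rw [hDdef, map_zsmul, Fermat.Agent.CurveP.RRAux.degree_poleDiv_gen hgen,
      ehField_finrank k p hp hp2, smul_eq_mul]
    push_cast
    ring
  have hK := eo_le_finrank_riemannRochSpace k p hp hp2 g hfam hred n D hD
  have hRR := Fermat.Agent.CurveP.ell_eq_of_degree_gt hgen (E := D) (by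
    rw [hdeg, ← hg']
    have h1 : (2 * (g' : ℤ) + g) * 1 ≤ (n : ℤ) * ((p : ℤ) + 1) := by
      rw [hn]
      push_cast
      apply mul_le_mul_of_nonneg_left _ (by positivity)
      have : (0 : ℤ) ≤ p := Nat.cast_nonneg _
      linarith
    have h2 : (0 : ℤ) ≤ g := Nat.cast_nonneg _
    linarith)
  rw [hdeg, ← hg'] at hRR
  rw [Fermat.Agent.CurveP.ell] at hRR
  -- arithmetic
  have h3 : ((n * (p + 1) + 1 - g : ℕ) : ℤ) ≤
      (Module.finrank k ↥(riemannRochSpace D) : ℤ) := by exact_mod_cast hK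
  have h4 : g ≤ n * (p + 1) + 1 := by
    have : n ≤ n * (p + 1) := Nat.le_mul_of_pos_right n (Nat.succ_pos p)
    omega
  rw [Nat.cast_sub h4] at h3
  push_cast at h3
  have h5 : (g' : ℤ) ≤ g := by linarith
  exact_mod_cast h5

end Bound

section Final

open CongruenceSubgroup

/-- **(D3)**: `12 g(F') ≤ p + 1` for `p ≡ 11 mod 12`, from the two inputs -/
theorem eo_twelve_mul_genus_le (k : Type*) [Field k] [CharP k 2] [IsAlgClosed k] (p : ℕ)
    [hpF : Fact p.Prime] [NeZero p] (hp : p % 12 = 11)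
    (hfam : EoRatFamily p ((p + 1) / 12)) (hred : EoReducedFamily p) :
    12 * Fermat.Agent.CurveP.genusR k (EhField k p) ≤ p + 1 := by
  have hpp := hpF.out
  have hp2 : p ≠ 2 := by omega
  have h1 := eo_genusR_le k p hpp hp2 ((p + 1) / 12) hfam hred
  omega

/-- **(D3)**: `12 g(F') ≤ p + 1` for `p ≡ 11 mod 12`, from the saturation input (C) -/
theorem eo_twelve_mul_genus_le_of_reduced (k : Type*) [Field k] [CharP k 2] [IsAlgClosed k]
    (p : ℕ) [hpF : Fact p.Prime] [NeZero p] (hp : p % 12 = 11) (hred : EoReducedFamily p) :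
    12 * Fermat.Agent.CurveP.genusR k (EhField k p) ≤ p + 1 :=
  eo_twelve_mul_genus_le k p hp
    (fun n => es_exists_rat_family p hpF.out ((p + 1) / 12) (eo_genusFormula_prime hp) n) hred

/-- **(D), case `p ≡ 23 mod 24`**, from the two inputs -/
theorem eo_not_eisCong_two_of_mod_eq_twentythree (p : ℕ) [hpF : Fact p.Prime] [NeZero p]
    (hp : p % 24 = 23) (hfam : EoRatFamily p ((p + 1) / 12)) (hred : EoReducedFamily p)
    (f : CuspForm (Gamma0 p) 2) : ¬ EisCong p 2 f := by
  haveI : CharP (AlgebraicClosure (ZMod 2)) 2 := by infer_instance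
  exact eh_not_eisCong_two_of_genus_le (AlgebraicClosure (ZMod 2)) p hp
    (eo_twelve_mul_genus_le (AlgebraicClosure (ZMod 2)) p (by omega) hfam hred) f

end Final

end Fermat.Agent.Eis
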