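import Fermat.Agent.Lib.Eis.Geom.ResidueGen

/-!
# P11 (D3): `2`-integral elements of `ℚ(X₀(N))` integral over `ℚ[x]` are integral over `ℤ_(ℓ)[x]`

For `ℓ ∤ N` and `x = j` or `x = 1/j`: an element `y` of the Gauss valuation ring of `ℚ(X₀(N))` which
is integral over `ℚ[x]` is integral over `ℤ_(ℓ)[x]` (clear denominators, then divide by `ℓ`
repeatedly: the kernel of `ρ` on the integral closure of `ℤ_(ℓ)[x]` is generated by `ℓ`, by Igusa's
degree bound).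
-/

set_option autoImplicit false
set_option linter.unusedSectionVars false
set_option linter.style.haveILetI false

open HahnSeries ModularCurve ModularCurve.IgusaScheme Polynomial
open Fermat.Agent.Igusa

noncomputable section

namespace Fermat.Agent.Eis

variable (ℓ : ℕ) [Fact ℓ.Prime] (N : ℕ) [NeZero N]

set_option quotPrecheck false in
local notation "ℤℓ" => ↥(GaloisRep.ratLocalizedAt ℓ)

set_option quotPrecheck false in
local notation "F" => ↥(modularFunctionFieldFull N)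

/-- every rational number becomes `ℓ`-integral after multiplication by a power of `ℓ` -/
theorem eo_exists_pow_mul_mem (q : ℚ) :
    ∃ m : ℕ, ((ℓ : ℕ) : ℚ) ^ m * q ∈ GaloisRep.ratLocalizedAt ℓ := by
  have hp : ℓ.Prime := Fact.out
  obtain ⟨m, d, hd, hqd⟩ := Nat.exists_eq_pow_mul_and_not_dvd q.den_ne_zero ℓ hp.ne_one
  refine ⟨m, ?_⟩
  have hd0 : (d : ℚ) ≠ 0 := by
    intro h
    have : d = 0 := by exact_mod_cast h
    rw [this, mul_zero] at hqd
    exact q.den_ne_zero hqd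
  have hl0 : ((ℓ : ℕ) : ℚ) ≠ 0 := by exact_mod_cast hp.ne_zero
  have h1 : ((ℓ : ℕ) : ℚ) ^ m * q = (q.num : ℚ) / (d : ℚ) := by
    conv_lhs => rw [← Rat.num_div_den q, hqd]
    push_cast
    field_simp
  rw [h1, mem_ratLocalizedAt_iff]
  have h2 : ((q.num : ℚ) / (d : ℚ)).den ∣ d := by
    have h := Rat.den_dvd q.num (d : ℤ)
    rw [Rat.divInt_eq_div, Int.cast_natCast] at h
    exact Int.natCast_dvd_natCast.mp h
  exact Nat.Coprime.coprime_dvd_left h2 ((Nat.Prime.coprime_iff_not_dvd hp).mpr hd).symm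

variable {N}

/-- every element of `ℚ[x]` lies in `ℤ_(ℓ)[x]` after multiplication by a power of `ℓ` -/
theorem eo_exists_pow_mul_mem_adjoin (x : F) (b : F) (hb : b ∈ Algebra.adjoin ℚ {x}) :
    ∃ m : ℕ, ((ℓ : ℕ) : F) ^ m * b ∈ Algebra.adjoin ℤℓ {x} := by
  induction hb using Algebra.adjoin_induction with
  | mem y hy =>
    rw [Set.mem_singleton_iff] at hy
    refine ⟨0, ?_⟩
    rw [pow_zero, one_mul, hy]
    exact Algebra.self_mem_adjoin_singleton ℤℓ x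
  | algebraMap q =>
    obtain ⟨m, hm⟩ := eo_exists_pow_mul_mem ℓ q
    refine ⟨m, ?_⟩
    have h1 : ((ℓ : ℕ) : F) ^ m * algebraMap ℚ F q =
        algebraMap ℤℓ F ⟨((ℓ : ℕ) : ℚ) ^ m * q, hm⟩ := by
      show _ = algebraMap ℚ F (((ℓ : ℕ) : ℚ) ^ m * q)
      rw [map_mul, map_pow, map_natCast]
    rw [h1]
    exact Subalgebra.algebraMap_mem _ _
  | add b₁ b₂ _ _ h₁ h₂ =>
    obtain ⟨m₁, hm₁⟩ := h₁
    obtain ⟨m₂, hm₂⟩ := h₂
    refine ⟨m₁ + m₂, ?_⟩
    have hl : ((ℓ : ℕ) : F) ∈ Algebra.adjoin ℤℓ {x} := natCast_mem _ _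
    have h1 : ((ℓ : ℕ) : F) ^ (m₁ + m₂) * (b₁ + b₂) =
        ((ℓ : ℕ) : F) ^ m₂ * (((ℓ : ℕ) : F) ^ m₁ * b₁) +
          ((ℓ : ℕ) : F) ^ m₁ * (((ℓ : ℕ) : F) ^ m₂ * b₂) := by
      rw [_root_.pow_add]; ring
    rw [h1]
    exact add_mem (mul_mem (pow_mem hl _) hm₁) (mul_mem (pow_mem hl _) hm₂)
  | mul b₁ b₂ _ _ h₁ h₂ =>
    obtain ⟨m₁, hm₁⟩ := h₁
    obtain ⟨m₂, hm₂⟩ := h₂
    refine ⟨m₁ + m₂, ?_⟩
    have h1 : ((ℓ : ℕ) : F) ^ (m₁ + m₂) * (b₁ * b₂) =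
        (((ℓ : ℕ) : F) ^ m₁ * b₁) * (((ℓ : ℕ) : F) ^ m₂ * b₂) := by
      rw [_root_.pow_add]; ring
    rw [h1]
    exact mul_mem hm₁ hm₂

/-- the inclusion `ℤ_(ℓ)[x] → ℚ[x]` -/
def eoAdjoinIncl (x : F) : ↥(Algebra.adjoin ℤℓ {x}) →+* ↥(Algebra.adjoin ℚ {x}) where
  toFun a := ⟨(a : F), by
    have hle : Algebra.adjoin ℤℓ {x} ≤ (Algebra.adjoin ℚ {x}).restrictScalars ℤℓ :=
      Algebra.adjoin_le (by
        intro y hy
        rw [Set.mem_singleton_iff] at hy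
        rw [hy]
        exact Algebra.self_mem_adjoin_singleton ℚ x)
    exact hle a.2⟩
  map_one' := rfl
  map_mul' _ _ := rfl
  map_zero' := rfl
  map_add' _ _ := rfl

/-- clearing denominators: if `y` is integral over `ℚ[x]` then `ℓ ^ m y` is integral over
`ℤ_(ℓ)[x]` for some `m` -/
theorem eo_isIntegral_pow_mul (x y : F) (hy : IsIntegral ↥(Algebra.adjoin ℚ {x}) y) :
    ∃ m : ℕ, IsIntegral ↥(Algebra.adjoin ℤℓ {x}) (((ℓ : ℕ) : F) ^ m * y) := by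
  classical
  obtain ⟨P, hP, hPy⟩ := hy
  -- a common exponent for the coefficients
  obtain ⟨m, hm⟩ : ∃ m : ℕ, ∀ i, ((ℓ : ℕ) : F) ^ m * ((P.coeff i : ↥(Algebra.adjoin ℚ {x})) : F) ∈
      Algebra.adjoin ℤℓ {x} := by
    choose f hf using fun i =>
      eo_exists_pow_mul_mem_adjoin ℓ x ((P.coeff i : ↥(Algebra.adjoin ℚ {x})) : F) (P.coeff i).2
    refine ⟨P.support.sup f, fun i => ?_⟩
    by_cases hi : i ∈ P.support
    · have hle : f i ≤ P.support.sup f := Finset.le_sup hi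
      obtain ⟨c, hc⟩ := Nat.exists_eq_add_of_le hle
      rw [hc, _root_.pow_add, mul_comm (_ ^ f i), mul_assoc]
      exact mul_mem (pow_mem (natCast_mem _ _) _) (hf i)
    · rw [Polynomial.notMem_support_iff.mp hi]
      simp
  refine ⟨m, ?_⟩
  set s : ↥(Algebra.adjoin ℚ {x}) := ((ℓ : ℕ) : ↥(Algebra.adjoin ℚ {x})) ^ m with hs
  have hsF : ((s : ↥(Algebra.adjoin ℚ {x})) : F) = ((ℓ : ℕ) : F) ^ m := by
    rw [hs]; push_cast; rfl
  have hsA : ((s : ↥(Algebra.adjoin ℚ {x})) : F) ∈ Algebra.adjoin ℤℓ {x} := by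
    rw [hsF]
    exact pow_mem (natCast_mem _ _) _
  -- the scaled polynomial has coefficients in `ℤ_(ℓ)[x]`
  have hlift : P.scaleRoots s ∈ Polynomial.lifts (eoAdjoinIncl ℓ x) := by
    rw [Polynomial.lifts_iff_coeff_lifts]
    intro i
    rw [Polynomial.coeff_scaleRoots]
    rcases lt_trichotomy i P.natDegree with hi | hi | hi
    · -- `i < d`
      obtain ⟨c, hc⟩ := Nat.exists_eq_add_of_lt hi
      have hc' : P.natDegree - i = (c + 1) := by omega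
      rw [hc', pow_succ]
      have h1 : ((P.coeff i * (s ^ c * s) : ↥(Algebra.adjoin ℚ {x})) : F) ∈
          Algebra.adjoin ℤℓ {x} := by
        have h2 : ((P.coeff i * (s ^ c * s) : ↥(Algebra.adjoin ℚ {x})) : F) =
            ((s : ↥(Algebra.adjoin ℚ {x})) : F) ^ c *
              (((ℓ : ℕ) : F) ^ m * ((P.coeff i : ↥(Algebra.adjoin ℚ {x})) : F)) := by
          push_cast
          rw [hsF]
          ring
        rw [h2]
        exact mul_mem (pow_mem hsA _) (hm i)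
      exact ⟨⟨_, h1⟩, Subtype.ext rfl⟩
    · rw [hi, Nat.sub_self, pow_zero, mul_one, Polynomial.coeff_natDegree, hP.leadingCoeff]
      exact ⟨1, map_one _⟩
    · rw [Polynomial.coeff_eq_zero_of_natDegree_lt hi, zero_mul]
      exact ⟨0, map_zero _⟩
  obtain ⟨Q, hQmap, -, hQmonic⟩ :=
    Polynomial.lifts_and_natDegree_eq_and_monic hlift ((Polynomial.monic_scaleRoots_iff s).mpr hP)
  refine ⟨Q, hQmonic, ?_⟩
  have hcomp : (algebraMap ↥(Algebra.adjoin ℤℓ {x}) F) =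
      (algebraMap ↥(Algebra.adjoin ℚ {x}) F).comp (eoAdjoinIncl ℓ x) := rfl
  rw [hcomp, ← Polynomial.eval₂_map, hQmap, ← hsF]
  have h3 := Polynomial.scaleRoots_eval₂_mul (p := P) (algebraMap ↥(Algebra.adjoin ℚ {x}) F)
    y s
  have h4 : algebraMap ↥(Algebra.adjoin ℚ {x}) F s = ((s : ↥(Algebra.adjoin ℚ {x})) : F) := rfl
  rw [h4] at h3
  rw [h3, hPy, mul_zero]

variable (N)

/-- **(Int), general chart.**  For `ℓ ∤ N` and `x ∈ ℚ(j)` a generator as in P9 (`x = j` or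
`x = 1/j`): an element of the Gauss ring which is integral over `ℚ[x]` is integral over
`ℤ_(ℓ)[x]`. -/
theorem eo_isIntegral_zl_of_isIntegral_rat (hℓN : ¬ ℓ ∣ N) {x : F} (hx : Transcendental ℤℓ x)
    (hxO : x ∈ gaussRing ℓ N) (hρx : Transcendental (ZMod ℓ) (gaussRho ℓ N ⟨x, hxO⟩))
    (hρκ : gaussRho ℓ N ⟨x, hxO⟩ ∈ kappa ℓ)
    (hxK : x ∈ IntermediateField.adjoin ℚ {jFull N})
    (hjx : jFull N ∈ Subfield.closure ((Algebra.adjoin ℤℓ {x} : Subalgebra ℤℓ F) : Set F))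
    (y : F) (hyO : y ∈ gaussRing ℓ N) (hy : IsIntegral ↥(Algebra.adjoin ℚ {x}) y) :
    IsIntegral ↥(Algebra.adjoin ℤℓ {x}) y := by
  classical
  have hp : ℓ.Prime := Fact.out
  have hκ := gaussRho_coreOf_incl_mem_kappa ℓ N hx hxO hρx hρκ
  obtain ⟨b, -, hb⟩ := ResidueCore.exists_indep_of_le_finrank_field (D := coreOf ℓ hx hxO hρx)
    (κ := ↥(kappa ℓ)) hκ (igGaussGens ℓ N) (eg_dedekindPsi_le_finrank_residue ℓ N hℓN)
  have hn := finrank_adjoin_jFull_le N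
  obtain ⟨m, hm⟩ := eo_isIntegral_pow_mul ℓ x y hy
  induction m with
  | zero => simpa using hm
  | succ m ih =>
    apply ih
    have hlO : ((ℓ : ℕ) : F) ∈ gaussRing ℓ N := natCast_mem _ _
    have hmem : ((ℓ : ℕ) : F) ^ m * y ∈ gaussRing ℓ N := mul_mem (pow_mem hlO _) hyO
    have hρ : gaussRho ℓ N ⟨((ℓ : ℕ) : F) ^ (m + 1) * y,
        mem_gaussRing_of_isIntegral ℓ N (igInst_adjoin_le_gaussAlg ℓ hxO) hm⟩ = 0 := by
      rw [gaussRho_eq_zero_iff]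
      refine ⟨⟨((ℓ : ℕ) : F) ^ m * y, hmem⟩, Subtype.ext ?_⟩
      push_cast
      rw [pow_succ]
      ring
    obtain ⟨z, hz, hzz⟩ := exists_isIntegral_of_gaussRho_eq_zero ℓ hx hxO hρx hxK hjx hb hn
      (((ℓ : ℕ) : F) ^ (m + 1) * y) hm hρ
    have hl0 : ((ℓ : ℕ) : F) ≠ 0 := by exact_mod_cast hp.ne_zero
    have hzeq : z = ((ℓ : ℕ) : F) ^ m * y := by
      apply mul_left_cancel₀ hl0
      rw [← hzz, pow_succ]
      ring
    rwa [hzeq] at hz

/-- **(Int), finite chart**: integral over `ℚ[j]` and `ℓ`-integral implies integral over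
`ℤ_(ℓ)[j]` -/
theorem eo_isIntegral_zl_jFull (hℓN : ¬ ℓ ∣ N) (y : F) (hyO : y ∈ gaussRing ℓ N)
    (hy : IsIntegral ↥(Algebra.adjoin ℚ {jFull N}) y) :
    IsIntegral ↥(Algebra.adjoin ℤℓ {jFull N}) y :=
  eo_isIntegral_zl_of_isIntegral_rat ℓ N hℓN (transcendental_zl_jFull ℓ N)
    (jFull_mem_gaussRing ℓ N) (igInst_transcendental_gaussRho_jFull ℓ N)
    (gaussRho_jFull_mem_kappa ℓ N)
    (IntermediateField.mem_adjoin_simple_self ℚ (jFull N))
    (Subfield.subset_closure (Algebra.self_mem_adjoin_singleton ℤℓ (jFull N))) y hyO hy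

/-- **(Int), chart at infinity**: integral over `ℚ[1/j]` and `ℓ`-integral implies integral over
`ℤ_(ℓ)[1/j]` -/
theorem eo_isIntegral_zl_jFull_inv (hℓN : ¬ ℓ ∣ N) (y : F) (hyO : y ∈ gaussRing ℓ N)
    (hy : IsIntegral ↥(Algebra.adjoin ℚ {(jFull N)⁻¹}) y) :
    IsIntegral ↥(Algebra.adjoin ℤℓ {(jFull N)⁻¹}) y := by
  have hjK : (jFull N)⁻¹ ∈ IntermediateField.adjoin ℚ {jFull N} :=
    inv_mem (IntermediateField.mem_adjoin_simple_self ℚ (jFull N))
  have hjx : jFull N ∈ Subfield.closure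
      ((Algebra.adjoin ℤℓ {(jFull N)⁻¹} : Subalgebra ℤℓ F) : Set F) := by
    have h1 : (jFull N)⁻¹ ∈ Subfield.closure
        ((Algebra.adjoin ℤℓ {(jFull N)⁻¹} : Subalgebra ℤℓ F) : Set F) :=
      Subfield.subset_closure (Algebra.self_mem_adjoin_singleton ℤℓ (jFull N)⁻¹)
    have h2 := inv_mem h1
    rwa [inv_inv] at h2
  exact eo_isIntegral_zl_of_isIntegral_rat ℓ N hℓN (transcendental_zl_jFull_inv ℓ N)
    (jFull_inv_mem_gaussRing ℓ N) (igInst_transcendental_gaussRho_jFull_inv ℓ N)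
    (gaussRho_jFull_inv_mem_kappa ℓ N) hjK hjx y hyO hy

end Fermat.Agent.Eis
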