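import Fermat.Agent.Lib.Eis.Geom.CuspUnits
import Fermat.Agent.Lib.CurveP.RiemannRoch
import Fermat.Agent.Lib.CurveP.Hurwitz

/-!
# P11 (D5, geometric core): the local argument on `F' = k(j̄, j̄_p)` in characteristic `2`

`p ≡ 23 mod 24`.  Let `ω₀ = dj̄/j̄ = dv̄/v̄`.  If `ḡ₁ = (1 + v̄)⁶ j̄ / j̄_p³` is regular away from the
cusps, then at every zero `x` of `j̄` of order `e`:  `n := ord_x(1 + v̄) ≥ e/3 > 0`, and
`d(1 + v̄) = v̄ ω₀` forces `e` even (else `ord_x ω₀ = -1`), `6 ∣ e` and `ord_x ω₀ ≥ e/3`.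
Since `ω₀` has exactly two simple poles (the cusps) and `∑ e_x = p + 1`:
`2g' - 2 = deg div ω₀ ≥ -2 + (p + 1)/3`, which contradicts `g' ≤ (p + 1)/12`.
-/

set_option autoImplicit false

open HahnSeries ModularCurve IntermediateField AlgebraicCurve KaehlerDifferential
open Fermat.Agent.Igusa Fermat.Agent.Curve Fermat.Agent.S23Lib

noncomputable section

namespace Fermat.Agent.Eis

section LocalArg

variable (k : Type*) [Field k] [CharP k 2] [IsAlgClosed k] (p : ℕ) [NeZero p]

/-- `ω₀ = dj̄/j̄` -/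
def ehOmega : Ω[EhField k p⁄k] := (ehX k p)⁻¹ • D k (EhField k p) (ehX k p)

theorem ehOmega_ne_zero (hp : p.Prime) (hp2 : p ≠ 2) : ehOmega k p ≠ 0 := by
  have h1 := eh_D_ehX_ne_zero k p hp hp2
  intro h
  apply h1
  have : ehX k p • ehOmega k p = D k (EhField k p) (ehX k p) := by
    rw [ehOmega, smul_smul, mul_inv_cancel₀ (ehX_ne_zero k p), one_smul]
  rw [← this, h, smul_zero]

/-- `dv̄ = v̄ ω₀` when `(p - 1)/2` is odd -/
theorem eh_D_ehV_eq_smul_omega (hp : p.Prime) (hp2 : p ≠ 2) {m : ℕ} (hm : p = 2 * m + 1)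
    (hodd : Odd m) :
    D k (EhField k p) (ehV k p hp hp2 hm) = ehV k p hp hp2 hm • ehOmega k p := by
  rw [eh_D_ehV k p hp hp2 hm hodd, ehOmega, smul_smul, div_eq_mul_inv]

/-- `ord_x ω₀ = ord_x(dj̄) - ord_x(j̄)` -/
theorem eh_ordDifferential_omega (hp : p.Prime) (hp2 : p ≠ 2) (v : Place k (EhField k p)) :
    v.ordDifferential (ehOmega k p) =
      v.ordDifferential (D k (EhField k p) (ehX k p)) - v.ord (ehX k p) := by
  have hgen := ehField_isFunctionFieldGen k p hp hp2
  have := ehField_isSeparable k p hp hp2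
  rw [ehOmega, Fermat.Agent.CurveP.ordDifferential_smul' hgen v (inv_ne_zero (ehX_ne_zero k p))
    (eh_D_ehX_ne_zero k p hp hp2), Place.ord_inv]
  ring

/-- `ω₀` has a simple pole at each of the two cusps -/
theorem eh_ordDifferential_omega_of_neg (hp : p.Prime) (hp2 : p ≠ 2) (v : Place k (EhField k p))
    (hv : v.ord (ehX k p) < 0) : v.ordDifferential (ehOmega k p) = -1 := by
  have hgen := ehField_isFunctionFieldGen k p hp hp2
  have := ehField_isSeparable k p hp hp2
  have hodd : Odd p := hp.odd_of_ne_two hp2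
  have hchar : ((((-v.ord (ehX k p)).toNat : ℕ)) : k) ≠ 0 := by
    rcases eh_eq_of_ord_ehX_neg k p hp hp2 v hv with rfl | rfl
    · rw [ehPlaceInf_ord_ehX]
      simp
    · rw [ehPlaceZero_ord_ehX, neg_neg, Int.toNat_natCast, eg_natCast_of_odd k hodd]
      exact one_ne_zero
  rw [eh_ordDifferential_omega k p hp hp2,
    Fermat.Agent.CurveP.ordDifferential_D_of_neg hgen v (ehX k p) hv hchar]
  ring

/-- `ω₀` is regular where `j̄` is a unit -/
theorem eh_ordDifferential_omega_of_zero (hp : p.Prime) (hp2 : p ≠ 2)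
    (v : Place k (EhField k p)) (hv : v.ord (ehX k p) = 0) :
    0 ≤ v.ordDifferential (ehOmega k p) := by
  have hgen := ehField_isFunctionFieldGen k p hp hp2
  have := ehField_isSeparable k p hp hp2
  rw [eh_ordDifferential_omega k p hp hp2, hv, sub_zero]
  exact Fermat.Agent.CurveP.ordDifferential_D_gen_nonneg hgen v (by omega)

omit [IsAlgClosed k] in
theorem eh_one_add_ehV_ne_zero (hp : p.Prime) (hp2 : p ≠ 2) {m : ℕ} (hm : p = 2 * m + 1) :
    1 + ehV k p hp hp2 hm ≠ 0 := by
  intro h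
  have h2 : (2 : EhField k p) = 0 := by
    rw [← map_ofNat (algebraMap k (EhField k p)) 2, eg_two_eq_zero k, map_zero]
  have hv : ehV k p hp hp2 hm = 1 := by
    have : ehV k p hp hp2 hm = (1 + ehV k p hp hp2 hm) - 1 := by ring
    rw [this, h, zero_sub]
    have : (-1 : EhField k p) = 1 - 2 := by ring
    rw [this, h2, sub_zero]
  have h1 := ehV_sq_mul k p hp hp2 hm
  rw [hv, one_pow, one_mul] at h1
  have h4 := ehPlaceInf_ord_ehX k p
  have h5 := ehPlaceInf_ord_ehY k p
  rw [h1, h5] at h4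
  have : 2 ≤ p := hp.two_le
  omega

omit [IsAlgClosed k] in
/-- `1 + v̄ = v̄ - 1` in characteristic `2` -/
theorem eh_one_add_eq_sub (z : EhField k p) : 1 + z = z - algebraMap k (EhField k p) 1 := by
  have h2 : (2 : EhField k p) = 0 := by
    rw [← map_ofNat (algebraMap k (EhField k p)) 2, eg_two_eq_zero k, map_zero]
  rw [map_one]
  have : z - 1 = 1 + z - 2 := by ring
  rw [this, h2, sub_zero]

/-- **the local estimate** at a zero of `j̄`: `ord_x(j̄) ≤ 3 ord_x(ω₀)` -/
theorem eh_ord_le_three_ordDifferential_omega (hp : p.Prime) (hp2 : p ≠ 2) {m : ℕ}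
    (hm : p = 2 * m + 1) (hodd : Odd m) {m' : ℕ} (hm' : p + 1 = 3 * m')
    (hreg : ∀ v : Place k (EhField k p), 0 ≤ v.ord (ehX k p) →
      0 ≤ v.ord ((1 + ehV k p hp hp2 hm) ^ 6 * ehX k p / ehY k p ^ 3))
    (v : Place k (EhField k p)) (he : 0 < v.ord (ehX k p)) :
    v.ord (ehX k p) ≤ 3 * v.ordDifferential (ehOmega k p) := by
  have hgen := ehField_isFunctionFieldGen k p hp hp2
  have := ehField_isSeparable k p hp hp2
  have hne1 := eh_one_add_ehV_ne_zero k p hp hp2 hm
  have hV0 := ehV_ne_zero k p hp hp2 hm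
  have hω0 := ehOmega_ne_zero k p hp hp2
  -- `6 n + e - 3 e ≥ 0`
  have h6 := hreg v he.le
  rw [div_eq_mul_inv, Place.ord_mul v (mul_ne_zero (pow_ne_zero 6 hne1) (ehX_ne_zero k p))
    (inv_ne_zero (pow_ne_zero 3 (ehY_ne_zero k p))),
    Place.ord_mul v (pow_ne_zero 6 hne1) (ehX_ne_zero k p), Place.ord_inv,
    ← zpow_natCast, Place.ord_zpow, ← zpow_natCast, Place.ord_zpow,
    eh_ord_ehY_eq k p hp hp2 v he.le] at h6
  push_cast at h6
  -- `ord_x(dv̄) = ord_x ω₀`
  have hDV : v.ordDifferential (D k (EhField k p) (ehV k p hp hp2 hm)) =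
      v.ordDifferential (ehOmega k p) := by
    rw [eh_D_ehV_eq_smul_omega k p hp hp2 hm hodd,
      Fermat.Agent.CurveP.ordDifferential_smul' hgen v hV0 hω0,
      eh_ord_ehV k p hp hp2 hm v he.le, zero_add]
  have hDVne : D k (EhField k p) (ehV k p hp hp2 hm) ≠ 0 := by
    rw [eh_D_ehV_eq_smul_omega k p hp hp2 hm hodd]
    exact smul_ne_zero hV0 hω0
  -- the order of `d(1 + v̄)`
  have hsub := eh_one_add_eq_sub k p (ehV k p hp hp2 hm)
  have hn0 : 0 ≤ v.ord (ehV k p hp hp2 hm - algebraMap k (EhField k p) 1) := by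
    rw [← hsub]; omega
  have hne1' : ehV k p hp hp2 hm - algebraMap k (EhField k p) 1 ≠ 0 := by
    rw [← hsub]; exact hne1
  have hloc := Fermat.Agent.CurveP.le_ord_differentialCoeff_D hgen v (ehV k p hp hp2 hm) 1 hn0 hne1'
  rw [← hsub] at hloc
  rcases hloc with h0 | ⟨hl1, hl2⟩
  · exact absurd h0 (Fermat.Agent.CurveP.differentialCoeff_ne_zero hgen v hDVne)
  have hl1' : v.ord (1 + ehV k p hp hp2 hm) - 1 ≤ v.ordDifferential (ehOmega k p) := by
    rw [← hDV]; exact hl1
  -- parity of `e`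
  rcases Int.even_or_odd (v.ord (ehX k p)) with heven | hoddE
  · -- `e` even: `6 ∣ e`
    have h3 := eh_three_dvd_ord_ehX k p hp hp2 hm' v he.le
    rcases Int.even_or_odd (v.ord (1 + ehV k p hp hp2 hm)) with hne | hno
    · -- `n` even: `ord ω₀ ≥ n`
      have hchar : (((v.ord (1 + ehV k p hp hp2 hm)).toNat : ℕ) : k) = 0 := by
        obtain ⟨r, hr⟩ := hne
        have hr0 : 0 ≤ r := by omega
        have : (v.ord (1 + ehV k p hp hp2 hm)).toNat = 2 * r.toNat := by omega
        rw [this]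
        push_cast
        rw [eg_two_eq_zero k, zero_mul]
      have hl2' : v.ord (1 + ehV k p hp hp2 hm) ≤ v.ordDifferential (ehOmega k p) := by
        rw [← hDV]; exact hl2 hchar
      omega
    · obtain ⟨r, hr⟩ := hno
      obtain ⟨s, hs⟩ := heven
      obtain ⟨t, ht⟩ := h3
      omega
  · -- `e` odd: `ord ω₀ = -1`, contradiction
    exfalso
    have hchar : (((v.ord (ehX k p - algebraMap k (EhField k p) 0)).toNat : ℕ) : k) ≠ 0 := by
      rw [map_zero, sub_zero]
      have : Odd (v.ord (ehX k p)).toNat := by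
        obtain ⟨r, hr⟩ := hoddE
        refine ⟨r.toNat, ?_⟩
        omega
      rw [eg_natCast_of_odd k this]
      exact one_ne_zero
    have h1 := Fermat.Agent.CurveP.ordDifferential_D_of_pos hgen v (ehX k p) 0
      (by rw [map_zero, sub_zero]; exact he) hchar
    rw [map_zero, sub_zero] at h1
    have h2 := eh_ordDifferential_omega k p hp hp2 v
    omega

/-- **the geometric core of (D5)**: if `ḡ₁ = (1 + v̄)⁶ j̄ / j̄_p³` is regular away from the cusps
(`p ≡ 3 mod 4`, `p ≡ 2 mod 3`), then `p + 1 ≤ 6 g(F')` -/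
theorem eh_succ_le_six_mul_genus (hp : p.Prime) (hp2 : p ≠ 2) {m : ℕ}
    (hm : p = 2 * m + 1) (hodd : Odd m) {m' : ℕ} (hm' : p + 1 = 3 * m')
    (hreg : ∀ v : Place k (EhField k p), 0 ≤ v.ord (ehX k p) →
      0 ≤ v.ord ((1 + ehV k p hp hp2 hm) ^ 6 * ehX k p / ehY k p ^ 3)) :
    p + 1 ≤ 6 * Fermat.Agent.CurveP.genusR k (EhField k p) := by
  classical
  have hgen := ehField_isFunctionFieldGen k p hp hp2
  have := ehField_isSeparable k p hp hp2
  have hω0 := ehOmega_ne_zero k p hp hp2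
  have hE : 0 ≤ (3 : ℤ) • Fermat.Agent.CurveP.divDiff hgen (ehOmega k p) +
      (3 : ℤ) • (Finsupp.single (ehPlaceInf k p) (1 : ℤ) +
        Finsupp.single (ehPlaceZero k p hp hp2) (1 : ℤ)) -
      (Fermat.Agent.CurveP.divOf hgen (ehX k p) +
        Fermat.Agent.CurveP.RRAux.poleDiv hgen (ehX k p)) := by
    intro v
    simp only [Finsupp.zero_apply, Finsupp.sub_apply, Finsupp.add_apply, Finsupp.smul_apply,
      Finsupp.single_apply, smul_eq_mul]
    rw [Fermat.Agent.CurveP.divDiff_apply hgen hω0,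
      Fermat.Agent.CurveP.divOf_apply hgen (ehX_ne_zero k p),
      Fermat.Agent.CurveP.RRAux.poleDiv_apply]
    rcases lt_trichotomy (v.ord (ehX k p)) 0 with hneg | hzero | hpos
    · have h1 := eh_ordDifferential_omega_of_neg k p hp hp2 v hneg
      have h2 : (1 : ℤ) ≤ (if ehPlaceInf k p = v then 1 else 0) +
          (if ehPlaceZero k p hp hp2 = v then 1 else 0) := by
        rcases eh_eq_of_ord_ehX_neg k p hp hp2 v hneg with rfl | rfl
        · rw [if_pos rfl]
          split_ifs <;> omega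
        · rw [if_pos rfl]
          split_ifs <;> omega
      rw [h1, max_eq_right (by omega)]
      omega
    · have h1 := eh_ordDifferential_omega_of_zero k p hp hp2 v hzero
      have h2 : (0 : ℤ) ≤ (if ehPlaceInf k p = v then 1 else 0) +
          (if ehPlaceZero k p hp hp2 = v then 1 else 0) := by
        split_ifs <;> omega
      rw [hzero, neg_zero, max_self]
      omega
    · have h1 := eh_ord_le_three_ordDifferential_omega k p hp hp2 hm hodd hm' hreg v hpos
      have h2 : (0 : ℤ) ≤ (if ehPlaceInf k p = v then 1 else 0) +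
          (if ehPlaceZero k p hp hp2 = v then 1 else 0) := by
        split_ifs <;> omega
      rw [max_eq_left (by omega)]
      omega
  have hdeg := Fermat.Agent.CurveP.RRAux.degree_nonneg_of_nonneg hE
  simp only [map_sub, map_add, map_zsmul, Divisor.degree_single] at hdeg
  rw [Fermat.Agent.CurveP.degree_divDiff hgen hω0,
    Fermat.Agent.CurveP.degree_divOf, Fermat.Agent.CurveP.RRAux.degree_poleDiv_gen,
    ehField_finrank k p hp hp2,
    Fermat.Agent.Curve.PlaceAux.deg_eq_one hgen, Fermat.Agent.Curve.PlaceAux.deg_eq_one hgen]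
    at hdeg
  push_cast at hdeg
  simp only [smul_eq_mul] at hdeg
  omega

/-- **(D5), geometric core**: regularity of `ḡ₁` away from the cusps is incompatible with the genus
bound (II) `g(F') ≤ (p + 1)/12` -/
theorem eh_false_of_regular_of_genus_le (hp : p.Prime) (hp2 : p ≠ 2) {m : ℕ}
    (hm : p = 2 * m + 1) (hodd : Odd m) {m' : ℕ} (hm' : p + 1 = 3 * m')
    (hreg : ∀ v : Place k (EhField k p), 0 ≤ v.ord (ehX k p) →
      0 ≤ v.ord ((1 + ehV k p hp hp2 hm) ^ 6 * ehX k p / ehY k p ^ 3))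
    (hg : 12 * Fermat.Agent.CurveP.genusR k (EhField k p) ≤ p + 1) : False := by
  have h := eh_succ_le_six_mul_genus k p hp hp2 hm hodd hm' hreg
  omega

end LocalArg

end Fermat.Agent.Eis
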