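import Mathlib
import Fermat.Agent.Lib.Eis.ResTest.EtaProdBridge
import Fermat.Agent.Lib.Eis.Level.EisForm

/-!
# P11 (D5), formal part: `s² + s = Δ` modulo `2`

In `𝔽₂⟦X⟧`:

* `f ^ (2^n) = f(X^(2^n))`;
* `Δ̄ = X ∏ (1 - Xⁿ)²⁴ = ∑_{m} X^((2m+1)²)`  (Jacobi's identity + Frobenius);
* `s̄ = ∑ σ(n) Xⁿ` satisfies `s̄² + s̄ = Δ̄`  (`σ(n) ≡ #{odd divisors of n}`);
* `φ̄ = ∑ σ'(n) Xⁿ = s̄(X) + s̄(X^p)` for an odd prime `p`, hence `φ̄² + φ̄ = Δ̄(X) + Δ̄(X^p)`.
-/

set_option autoImplicit false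

open PowerSeries

namespace Fermat.Agent.Eis

/-! ### Frobenius on `𝔽₂⟦X⟧` -/

theorem eh_iterateFrobenius_zmod_two (n : ℕ) : iterateFrobenius (ZMod 2) 2 n = RingHom.id _ := by
  ext x
  rw [iterateFrobenius_def, RingHom.id_apply]
  induction n with
  | zero => simp
  | succ k ih => rw [pow_succ, pow_mul, ih, ZMod.pow_card]

/-- in `𝔽₂⟦X⟧`, `f ^ (2^n) = f(X^(2^n))` -/
theorem eh_pow_two_pow (f : PowerSeries (ZMod 2)) (n : ℕ) :
    f ^ 2 ^ n = f.expand (2 ^ n) (pow_ne_zero n two_ne_zero) := by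
  have h := MvPowerSeries.map_iterateFrobenius_expand (σ := Unit) (R := ZMod 2) 2 two_ne_zero f n
  rw [eh_iterateFrobenius_zmod_two] at h
  rw [← h]
  simp [PowerSeries.expand]

theorem eh_coeff_pow_two_pow (f : PowerSeries (ZMod 2)) (n N : ℕ) :
    coeff N (f ^ 2 ^ n) = if 2 ^ n ∣ N then coeff (N / 2 ^ n) f else 0 := by
  rw [eh_pow_two_pow, PowerSeries.coeff_expand]

theorem eh_coeff_sq (f : PowerSeries (ZMod 2)) (N : ℕ) :
    coeff N (f ^ 2) = if 2 ∣ N then coeff (N / 2) f else 0 := by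
  have := eh_coeff_pow_two_pow f 1 N
  rwa [pow_one] at this

/-! ### `Δ` modulo `2` -/

/-- the triangular numbers are injective -/
theorem eh_tri_injective {m m' : ℕ} (h : m * (m + 1) / 2 = m' * (m' + 1) / 2) : m = m' := by
  have h1 : m * (m + 1) = 2 * (m * (m + 1) / 2) :=
    (Nat.mul_div_cancel' (Nat.even_mul_succ_self m).two_dvd).symm
  have h2 : m' * (m' + 1) = 2 * (m' * (m' + 1) / 2) :=
    (Nat.mul_div_cancel' (Nat.even_mul_succ_self m').two_dvd).symm
  have h3 : m * (m + 1) = m' * (m' + 1) := by rw [h1, h2, h]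
  rcases lt_trichotomy m m' with hlt | heq | hgt
  · exfalso; nlinarith
  · exact heq
  · exfalso; nlinarith

/-- Jacobi's series modulo `2` -/
noncomputable def ehJbar : PowerSeries (ZMod 2) := map (Int.castRingHom (ZMod 2)) rtJ

open Classical in
theorem coeff_ehJbar (j : ℕ) :
    coeff j ehJbar = if ∃ m : ℕ, m * (m + 1) / 2 = j then 1 else 0 := by
  classical
  rw [ehJbar, coeff_map, coeff_rtJ, map_sum]
  have hterm : ∀ m : ℕ, (Int.castRingHom (ZMod 2))
      (if m * (m + 1) / 2 = j then (-1) ^ m * (2 * (m : ℤ) + 1) else 0) =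
      if m * (m + 1) / 2 = j then 1 else 0 := by
    intro m
    split_ifs
    · rw [map_mul, map_pow, map_add, map_mul, map_neg, map_one]
      have h2 : (Int.castRingHom (ZMod 2)) 2 = 0 := by
        rw [map_ofNat]; rfl
      have hneg : (-1 : ZMod 2) = 1 := by decide
      rw [h2, zero_mul, zero_add, hneg, one_pow, one_mul]
    · exact map_zero _
  simp only [hterm]
  split_ifs with hex
  · obtain ⟨m0, hm0⟩ := hex
    have hmem : m0 ∈ Finset.range (j + 1) := by
      rw [Finset.mem_range]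
      have := rt_le_tri m0
      omega
    rw [Finset.sum_eq_single_of_mem m0 hmem, if_pos hm0]
    intro m _ hne
    rw [if_neg]
    intro hm
    exact hne (eh_tri_injective (hm.trans hm0.symm))
  · apply Finset.sum_eq_zero
    intro m _
    rw [if_neg]
    intro hm
    exact hex ⟨m, hm⟩

/-- `Δ̄ = X ∏ (1 - Xⁿ)²⁴` in `𝔽₂⟦X⟧` -/
noncomputable def ehDbar : PowerSeries (ZMod 2) :=
  X * (map (Int.castRingHom (ZMod 2)) ModularCurve.etaProd) ^ 24

theorem ehDbar_eq : ehDbar = X * ehJbar ^ 2 ^ 3 := by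
  rw [ehDbar, ehJbar, ← rt_etaProd_pow_three, map_pow, ← pow_mul,
    show (3 * 2 ^ 3 : ℕ) = 24 by norm_num]

open Classical in
/-- `Δ̄ = ∑_m X^((2m+1)²)` -/
theorem coeff_ehDbar (N : ℕ) :
    coeff N ehDbar = if ∃ m : ℕ, N = (2 * m + 1) ^ 2 then 1 else 0 := by
  rw [ehDbar_eq]
  rcases N with _ | n
  · rw [coeff_zero_eq_constantCoeff, map_mul, constantCoeff_X, zero_mul, if_neg]
    rintro ⟨m, hm⟩
    have : 0 < (2 * m + 1) ^ 2 := by positivity
    omega
  · rw [coeff_succ_X_mul, eh_coeff_pow_two_pow]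
    by_cases h8 : 2 ^ 3 ∣ n
    · rw [if_pos h8, coeff_ehJbar]
      obtain ⟨c, rfl⟩ := h8
      rw [Nat.mul_div_cancel_left _ (by norm_num : 0 < 2 ^ 3)]
      have hiff : (∃ m : ℕ, m * (m + 1) / 2 = c) ↔ ∃ m : ℕ, 2 ^ 3 * c + 1 = (2 * m + 1) ^ 2 := by
        constructor
        · rintro ⟨m, rfl⟩
          refine ⟨m, ?_⟩
          have h1 : m * (m + 1) = 2 * (m * (m + 1) / 2) :=
            (Nat.mul_div_cancel' (Nat.even_mul_succ_self m).two_dvd).symm
          nlinarith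
        · rintro ⟨m, hm⟩
          refine ⟨m, ?_⟩
          have h1 : m * (m + 1) = 2 * c := by nlinarith
          rw [h1, Nat.mul_div_cancel_left _ (by norm_num : 0 < 2)]
      simp only [hiff]
    · rw [if_neg h8, if_neg]
      rintro ⟨m, hm⟩
      apply h8
      have h1 : m * (m + 1) = 2 * (m * (m + 1) / 2) :=
        (Nat.mul_div_cancel' (Nat.even_mul_succ_self m).two_dvd).symm
      refine ⟨m * (m + 1) / 2, ?_⟩
      nlinarith

/-! ### `σ` modulo `2` -/

theorem eh_natCast_zmod_two (d : ℕ) : ((d : ℕ) : ZMod 2) = if Odd d then 1 else 0 := by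
  split_ifs with h
  · obtain ⟨c, rfl⟩ := h
    push_cast
    have : (2 : ZMod 2) = 0 := rfl
    rw [this, zero_mul, zero_add]
  · rw [Nat.not_odd_iff_even] at h
    obtain ⟨c, rfl⟩ := h
    push_cast
    rw [← two_mul]
    have : (2 : ZMod 2) = 0 := rfl
    rw [this, zero_mul]

/-- `σ(N) ≡ #{odd divisors of N}` -/
theorem eh_sigma_cast (N : ℕ) :
    ((ArithmeticFunction.sigma 1 N : ℕ) : ZMod 2) = ∑ d ∈ N.divisors, if Odd d then 1 else 0 := by
  rw [ArithmeticFunction.sigma_one_apply, Nat.cast_sum]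
  exact Finset.sum_congr rfl fun d _ => eh_natCast_zmod_two d

/-- `σ(2M) ≡ σ(M)` -/
theorem eh_sigma_two_mul (M : ℕ) (hM : M ≠ 0) :
    ((ArithmeticFunction.sigma 1 (2 * M) : ℕ) : ZMod 2) =
      ((ArithmeticFunction.sigma 1 M : ℕ) : ZMod 2) := by
  rw [eh_sigma_cast, eh_sigma_cast, ← Finset.sum_filter, ← Finset.sum_filter]
  congr 1
  ext d
  simp only [Finset.mem_filter, Nat.mem_divisors]
  constructor
  · rintro ⟨⟨h1, _⟩, h2⟩
    refine ⟨⟨?_, hM⟩, h2⟩
    have hc : Nat.Coprime d 2 := Nat.coprime_two_right.mpr h2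
    exact hc.dvd_of_dvd_mul_left h1
  · rintro ⟨⟨h1, _⟩, h2⟩
    exact ⟨⟨Dvd.dvd.mul_left h1 2, by omega⟩, h2⟩

/-- the number of divisors of `N` is odd iff `N` is a square -/
theorem eh_card_divisors_cast (N : ℕ) (hN : N ≠ 0) :
    (∑ _d ∈ N.divisors, (1 : ZMod 2)) = if IsSquare N then 1 else 0 := by
  classical
  split_ifs with hsq
  · obtain ⟨r, rfl⟩ := hsq
    have hr : r ≠ 0 := by rintro rfl; simp at hN
    have hmem : r ∈ (r * r).divisors := Nat.mem_divisors.mpr ⟨Dvd.intro _ rfl, hN⟩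
    rw [← Finset.add_sum_erase _ _ hmem]
    have h0 : ∑ _d ∈ (r * r).divisors.erase r, (1 : ZMod 2) = 0 := by
      refine Finset.sum_involution (fun d _ => r * r / d) ?_ ?_ ?_ ?_
      · intro d _
        decide
      · intro d hd _ hfix
        rw [Finset.mem_erase, Nat.mem_divisors] at hd
        obtain ⟨c, hc⟩ := hd.2.1
        have hd0 : d ≠ 0 := ne_zero_of_dvd_ne_zero hN hd.2.1
        rw [hc, Nat.mul_div_cancel_left _ (Nat.pos_of_ne_zero hd0)] at hfix
        rw [hfix] at hc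
        exact hd.1 (Nat.mul_self_inj.mp hc).symm
      · intro d hd
        rw [Finset.mem_erase, Nat.mem_divisors] at hd ⊢
        obtain ⟨c, hc⟩ := hd.2.1
        have hd0 : d ≠ 0 := ne_zero_of_dvd_ne_zero hN hd.2.1
        rw [hc, Nat.mul_div_cancel_left _ (Nat.pos_of_ne_zero hd0)]
        refine ⟨?_, ⟨Dvd.intro_left d rfl, by rw [← hc]; exact hN⟩⟩
        intro hcr
        rw [hcr] at hc
        have : d = r := by
          have := Nat.eq_of_mul_eq_mul_right (Nat.pos_of_ne_zero hr) (hc.symm)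
          exact this
        exact hd.1 this
      · intro d hd
        rw [Finset.mem_erase, Nat.mem_divisors] at hd
        obtain ⟨c, hc⟩ := hd.2.1
        have hd0 : d ≠ 0 := ne_zero_of_dvd_ne_zero hN hd.2.1
        have hc0 : c ≠ 0 := by rintro rfl; rw [mul_zero] at hc; exact hN hc
        rw [hc, Nat.mul_div_cancel_left _ (Nat.pos_of_ne_zero hd0),
          Nat.mul_div_cancel _ (Nat.pos_of_ne_zero hc0)]
    rw [h0, add_zero]
  · refine Finset.sum_involution (fun d _ => N / d) ?_ ?_ ?_ ?_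
    · intro d _
      decide
    · intro d hd _ hfix
      rw [Nat.mem_divisors] at hd
      obtain ⟨c, hc⟩ := hd.1
      have hd0 : d ≠ 0 := ne_zero_of_dvd_ne_zero hN hd.1
      rw [hc, Nat.mul_div_cancel_left _ (Nat.pos_of_ne_zero hd0)] at hfix
      exact hsq ⟨d, by rw [hc, hfix]⟩
    · intro d hd
      rw [Nat.mem_divisors] at hd ⊢
      obtain ⟨c, hc⟩ := hd.1
      have hd0 : d ≠ 0 := ne_zero_of_dvd_ne_zero hN hd.1
      rw [hc, Nat.mul_div_cancel_left _ (Nat.pos_of_ne_zero hd0)]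
      exact ⟨Dvd.intro_left d rfl, by rw [← hc]; exact hN⟩
    · intro d hd
      rw [Nat.mem_divisors] at hd
      obtain ⟨c, hc⟩ := hd.1
      have hd0 : d ≠ 0 := ne_zero_of_dvd_ne_zero hN hd.1
      have hc0 : c ≠ 0 := by rintro rfl; rw [mul_zero] at hc; exact hN hc
      rw [hc, Nat.mul_div_cancel_left _ (Nat.pos_of_ne_zero hd0),
        Nat.mul_div_cancel _ (Nat.pos_of_ne_zero hc0)]

/-- for odd `N`, `σ(N)` is odd iff `N` is a square -/
theorem eh_sigma_of_odd (N : ℕ) (hN : Odd N) :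
    ((ArithmeticFunction.sigma 1 N : ℕ) : ZMod 2) = if IsSquare N then 1 else 0 := by
  have hN0 : N ≠ 0 := by rintro rfl; exact (by decide : ¬ Odd 0) hN
  rw [eh_sigma_cast, ← eh_card_divisors_cast N hN0]
  refine Finset.sum_congr rfl fun d hd => ?_
  rw [if_pos]
  exact Odd.of_dvd_nat hN (Nat.mem_divisors.mp hd).1

/-- `s̄ = ∑ σ(n) Xⁿ` in `𝔽₂⟦X⟧` -/
noncomputable def ehSg : PowerSeries (ZMod 2) :=
  PowerSeries.mk fun n => ((ArithmeticFunction.sigma 1 n : ℕ) : ZMod 2)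

theorem coeff_ehSg (n : ℕ) :
    coeff n ehSg = ((ArithmeticFunction.sigma 1 n : ℕ) : ZMod 2) := by
  rw [ehSg, coeff_mk]

/-- **`s̄² + s̄ = Δ̄`** -/
theorem ehSg_sq_add : ehSg ^ 2 + ehSg = ehDbar := by
  ext N
  rw [map_add, eh_coeff_sq, coeff_ehDbar]
  simp only [coeff_ehSg]
  rcases Nat.even_or_odd N with heven | hodd
  · obtain ⟨M, rfl⟩ := heven
    rw [← two_mul, if_pos (Dvd.intro _ rfl), Nat.mul_div_cancel_left _ (by norm_num : 0 < 2)]
    rw [if_neg]
    · by_cases hM : M = 0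
      · subst hM
        simp
      · rw [eh_sigma_two_mul M hM]
        exact CharTwo.add_self_eq_zero _
    · rintro ⟨m, hm⟩
      have : (2 * m + 1) ^ 2 = 2 * (2 * m * m + 2 * m) + 1 := by ring
      omega
  · rw [if_neg (by rw [← even_iff_two_dvd, Nat.not_even_iff_odd]; exact hodd), zero_add,
      eh_sigma_of_odd N hodd]
    have hiff : IsSquare N ↔ ∃ m : ℕ, N = (2 * m + 1) ^ 2 := by
      constructor
      · rintro ⟨r, rfl⟩
        have hr : Odd r := by
          by_contra h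
          rw [Nat.not_odd_iff_even] at h
          exact (Nat.not_odd_iff_even.mpr (h.mul_right r)) hodd
        obtain ⟨m, rfl⟩ := hr
        exact ⟨m, by ring⟩
      · rintro ⟨m, rfl⟩
        exact ⟨2 * m + 1, by ring⟩
    by_cases hsq : IsSquare N
    · rw [if_pos hsq, if_pos (hiff.mp hsq)]
    · rw [if_neg hsq, if_neg (fun h => hsq (hiff.mpr h))]

/-! ### Level `p` -/

/-- `φ̄ = ∑ σ'(n) Xⁿ` in `𝔽₂⟦X⟧` -/
noncomputable def ehPhiBar (p : ℕ) : PowerSeries (ZMod 2) :=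
  PowerSeries.mk fun n => ((eisCoeff p n : ℤ) : ZMod 2)

/-- `φ̄ = s̄(X) + s̄(X^p)` for an odd prime `p` -/
theorem ehPhiBar_eq {p : ℕ} (hp : p.Prime) (hp2 : p ≠ 2) :
    ehPhiBar p = ehSg + ehSg.expand p hp.ne_zero := by
  ext N
  rw [map_add, PowerSeries.coeff_expand, ehPhiBar, ehSg, coeff_mk, coeff_mk]
  by_cases hN : N = 0
  · subst hN
    simp
  · rw [eisCoeff_eq_sigma_sub hp N hN]
    have hodd : Odd p := hp.odd_of_ne_two hp2
    have hp1 : ((p : ℤ) : ZMod 2) = 1 := by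
      rw [Int.cast_natCast, eh_natCast_zmod_two, if_pos hodd]
    split_ifs with hdvd
    · rw [coeff_mk]
      push_cast
      have := hp1
      push_cast at this
      rw [this, one_mul, sub_eq_add_neg]
      congr 1
      exact CharTwo.neg_eq _
    · simp

/-- **`φ̄² + φ̄ = Δ̄(X) + Δ̄(X^p)`** -/
theorem ehPhiBar_sq_add {p : ℕ} (hp : p.Prime) (hp2 : p ≠ 2) :
    ehPhiBar p ^ 2 + ehPhiBar p = ehDbar + ehDbar.expand p hp.ne_zero := by
  rw [ehPhiBar_eq hp hp2, ← ehSg_sq_add, map_add, map_pow, add_pow_two]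
  have h2 : (2 : PowerSeries (ZMod 2)) = 0 := by
    rw [← map_ofNat (PowerSeries.C (R := ZMod 2)) 2]
    have : (2 : ZMod 2) = 0 := rfl
    rw [show (OfNat.ofNat 2 : ZMod 2) = 0 from this, map_zero]
  rw [h2]
  ring

end Fermat.Agent.Eis
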