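import Fermat.Agent.Lib.Igusa.ModPolyAnalytic

/-!
# P11 (F): orbit polynomials with coefficients in a subring of `ℂ`

Generalisation of helper2's `exists_polynomial_of_orbit` / `exists_modular_polynomial`
(`Lib/Igusa/ModPolyAnalytic`, `ModPolyAssembly`) from `ℤ`-coefficients to an arbitrary commutative
ring `A` with an injective ring hom `ι : A →+* ℂ` (e.g. `ℚ`, `ℤ_(ℓ)`).

If `r + 1` holomorphic functions `G∞, G_0, …, G_{r-1}` on `ℍ` are permuted by `SL(2, ℤ)` and have
`q_r`-expansions `g(T ^ r)` and `f(ζ^b T)` with `f, g ∈ A((T))`, then `(X - g) · lsChar r f` has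
coefficients `P_k(j)` with `P_k ∈ A[Y]`; in particular `g` is a root of a monic polynomial of degree
`r + 1` over `A[j]`.
-/

set_option autoImplicit false

open HahnSeries ModularCurve Polynomial UpperHalfPlane
open Fermat.Agent.ES Fermat.Agent.S24Lib Fermat.Agent.Igusa
open scoped MatrixGroups Manifold

namespace Fermat.Agent.Eis

/-! ### Invariant functions are polynomials in `j` -/

/-- an `SL(2, ℤ)`-invariant function with a `q_r`-Laurent expansion is a polynomial in `j` -/
theorem eo_exists_polynomial_of_invariant (r : ℕ) [NeZero r] (c : ℍ → ℂ)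
    (hcq : IsQLaurentable r c) (hcinv : ∀ (γ : SL(2, ℤ)) (τ : ℍ), c (γ • τ) = c τ) :
    ∃ P : Polynomial ℂ, (∀ τ, c τ = P.eval (jFun τ)) ∧
      qLaurent r c = qExpand ℂ r (evalJ ℂ P) := by
  have hper : ∀ z : ℍ, c (((1 : ℕ) : ℝ) +ᵥ z) = c z := by
    intro z
    rw [Nat.cast_one, ← UpperHalfPlane.modular_T_smul, hcinv]
  have hq1 : IsQLaurentable 1 c := ⟨hcq.mdiff, hper, hcq.mero⟩
  obtain ⟨m, hm⟩ := hcq.mero
  obtain ⟨P, -, -, hP⟩ := exists_polynomial_jFun c hcq.mdiff hcinv m hm ⊤ (fun _ => trivial)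
  refine ⟨P, hP, ?_⟩
  have hcP : c = fun τ => P.eval (jFun τ) := funext hP
  have e1 : qLaurent 1 c = evalJ ℂ P := by
    rw [hcP]
    exact (qLaurent_eval_jFun P).2
  rw [(qLaurent_change_period r hq1).2, e1]

/-! ### Descent of the coefficients -/

section Descent

variable {A K : Type*} [CommRing A] [CommRing K]

/-- If `P(j)` has coefficients in (the image of) `A` as a Laurent series, then `P` has
coefficients in `A`. -/
theorem eo_exists_polynomial_of_evalJ (ι : A →+* K) (hι : Function.Injective ι)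
    (P : Polynomial K) (g : LaurentSeries A) (h : evalJ K P = lsMapHom ι g) :
    ∃ Q : Polynomial A, Q.map ι = P ∧ evalJ A Q = g := by
  induction' hd : P.natDegree using Nat.strong_induction_on with d ih generalizing P g
  by_cases hP : P = 0
  · refine ⟨0, by rw [hP, Polynomial.map_zero], ?_⟩
    rw [hP, map_zero] at h
    rw [map_zero]
    apply lsMapHom_injective hι
    rw [← h, map_zero]
  have hlead : P.leadingCoeff = ι (g.coeff (-(P.natDegree : ℤ))) := by
    rw [← coeff_evalJ, h, lsMapHom_coeff]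
  set a : A := g.coeff (-(P.natDegree : ℤ)) with ha
  have hJ : lsMapHom ι (jqModC A) = jqModC K := map_jqModC ι
  have h' : evalJ K P.eraseLead =
      lsMapHom ι (g - HahnSeries.C a * jqModC A ^ P.natDegree) := by
    have e1 : P.eraseLead = P - Polynomial.monomial P.natDegree P.leadingCoeff := by
      rw [← Polynomial.self_sub_monomial_natDegree_leadingCoeff]
    rw [e1, map_sub, h, map_sub, evalJ_monomial, hlead, map_mul, map_pow, hJ, lsMapHom_C]
  have hsplit : P = P.eraseLead + Polynomial.monomial P.natDegree (ι a) := by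
    rw [← hlead, Polynomial.eraseLead_add_monomial_natDegree_leadingCoeff]
  rcases Polynomial.eraseLead_natDegree_lt_or_eraseLead_eq_zero P with hlt | hzero
  · obtain ⟨Q', hQ'1, hQ'2⟩ := ih _ (hd ▸ hlt) P.eraseLead _ h' rfl
    refine ⟨Q' + Polynomial.monomial P.natDegree a, ?_, ?_⟩
    · rw [Polynomial.map_add, hQ'1, Polynomial.map_monomial]
      exact hsplit.symm
    · rw [map_add, hQ'2, evalJ_monomial, sub_add_cancel]
  · refine ⟨Polynomial.monomial P.natDegree a, ?_, ?_⟩
    · rw [Polynomial.map_monomial]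
      rw [hzero, zero_add] at hsplit
      exact hsplit.symm
    · rw [hzero, map_zero] at h'
      have h0 : g - HahnSeries.C a * jqModC A ^ P.natDegree = 0 := by
        apply lsMapHom_injective hι
        rw [← h', map_zero]
      rw [evalJ_monomial]
      exact (sub_eq_zero.mp h0).symm

end Descent

/-! ### The formal orbit polynomial -/

section Formal

variable {A : Type*} [CommRing A] (r : ℕ) [NeZero r]

/-- the formal orbit polynomial `(X - g) · χ_f` -/
noncomputable def eoTilde (f g : LaurentSeries A) : Polynomial (LaurentSeries A) :=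
  (Polynomial.X - Polynomial.C g) * lsChar r f

theorem eoTilde_monic (f g : LaurentSeries A) : (eoTilde r f g).Monic :=
  (Polynomial.monic_X_sub_C g).mul (lsChar_monic r f)

theorem eoTilde_natDegree [Nontrivial A] (f g : LaurentSeries A) :
    (eoTilde r f g).natDegree = r + 1 := by
  rw [eoTilde, (Polynomial.monic_X_sub_C g).natDegree_mul (lsChar_monic r f),
    Polynomial.natDegree_X_sub_C, lsChar_natDegree, add_comm]

theorem eoTilde_eval_left (f g : LaurentSeries A) : (eoTilde r f g).eval g = 0 := by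
  rw [eoTilde, Polynomial.eval_mul, Polynomial.eval_sub, Polynomial.eval_X, Polynomial.eval_C,
    sub_self, zero_mul]

theorem eoTilde_eval_right (f g : LaurentSeries A) :
    ((eoTilde r f g).map (qExpand A r)).eval f = 0 := by
  rw [eoTilde, Polynomial.map_mul, Polynomial.eval_mul, lsChar_eval_self, mul_zero]

theorem eoTilde_map {B : Type*} [CommRing B] (φ : A →+* B) (f g : LaurentSeries A) :
    (eoTilde r f g).map (lsMapHom φ) = eoTilde r (lsMapHom φ f) (lsMapHom φ g) := by
  rw [eoTilde, eoTilde, Polynomial.map_mul, Polynomial.map_sub, Polynomial.map_X,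
    Polynomial.map_C, lsChar_map]

/-- **Formal assembly** over `A`. -/
theorem eo_exists_orbit_polynomial [Nontrivial A] {K : Type*} [CommRing K] (ι : A →+* K)
    (hι : Function.Injective ι) (f g : LaurentSeries A)
    (hmod : ∀ k, ∃ P : Polynomial K, lsMapHom ι ((eoTilde r f g).coeff k) = evalJ K P) :
    ∃ Φ : Polynomial (Polynomial A), Φ.Monic ∧ Φ.natDegree = r + 1 ∧
      Φ.map (evalJ A) = eoTilde r f g ∧
      Φ.eval₂ (evalJ A) g = 0 ∧
      Φ.eval₂ ((qExpand A r).comp (evalJ A)) f = 0 := by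
  classical
  have hcoef : ∀ k, ∃ Q : Polynomial A, evalJ A Q = (eoTilde r f g).coeff k := by
    intro k
    obtain ⟨P, hP⟩ := hmod k
    obtain ⟨Q, -, hQ⟩ := eo_exists_polynomial_of_evalJ ι hι P _ hP.symm
    exact ⟨Q, hQ⟩
  choose Q hQ using hcoef
  set Φ : Polynomial (Polynomial A) :=
    Polynomial.X ^ (r + 1) + ∑ k ∈ Finset.range (r + 1), Polynomial.C (Q k) * Polynomial.X ^ k
    with hΦ
  have hlow : (∑ k ∈ Finset.range (r + 1),
      Polynomial.C (Q k) * Polynomial.X ^ k : Polynomial (Polynomial A)).degree <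
        ((r + 1 : ℕ) : WithBot ℕ) := by
    refine (Polynomial.degree_sum_le _ _).trans_lt ?_
    rw [Finset.sup_lt_iff (WithBot.bot_lt_coe _)]
    intro k hk
    refine (Polynomial.degree_C_mul_X_pow_le _ _).trans_lt ?_
    exact_mod_cast Finset.mem_range.mp hk
  have hmonic : Φ.Monic := Polynomial.monic_X_pow_add hlow
  have hdeg : Φ.natDegree = r + 1 := by
    rw [hΦ, Polynomial.natDegree_add_eq_left_of_degree_lt]
    · exact Polynomial.natDegree_X_pow _
    · rw [Polynomial.degree_X_pow]
      exact hlow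
  have hmap : Φ.map (evalJ A) = eoTilde r f g := by
    have h1 : eoTilde r f g = Polynomial.X ^ (r + 1) +
        ∑ k ∈ Finset.range (r + 1), Polynomial.C ((eoTilde r f g).coeff k) * Polynomial.X ^ k := by
      conv_lhs => rw [(eoTilde_monic r f g).as_sum, eoTilde_natDegree]
    rw [h1, hΦ, Polynomial.map_add, Polynomial.map_pow, Polynomial.map_X, Polynomial.map_sum]
    congr 1
    refine Finset.sum_congr rfl fun k _ => ?_
    rw [Polynomial.map_mul, Polynomial.map_C, Polynomial.map_pow, Polynomial.map_X, hQ]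
  refine ⟨Φ, hmonic, hdeg, hmap, ?_, ?_⟩
  · rw [Polynomial.eval₂_eq_eval_map, hmap, eoTilde_eval_left]
  · rw [Polynomial.eval₂_eq_eval_map, ← Polynomial.map_map, hmap, eoTilde_eval_right]

end Formal

/-! ### The analytic input over `A` -/

/-- **The analytic input**, coefficients in `A ⊆ ℂ`. -/
theorem eo_exists_polynomial_of_orbit {A : Type*} [CommRing A] (ι : A →+* ℂ)
    (r : ℕ) [NeZero r] (ζ : ℂˣ) (hζ : IsPrimitiveRoot ζ r)
    (f g : LaurentSeries A) {n₀ : ℤ} (hn₀ : ι (f.coeff n₀) ≠ 0) (hcop : IsCoprime n₀ (r : ℤ))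
    (hrn : ¬ (r : ℤ) ∣ n₀)
    (Ginf : ℍ → ℂ) (G : ℕ → ℍ → ℂ)
    (hGinf : IsQLaurentable r Ginf) (hG : ∀ b, b < r → IsQLaurentable r (G b))
    (hqinf : qLaurent r Ginf = qExpand ℂ r (lsMapHom ι g))
    (hqG : ∀ b, b < r → qLaurent r (G b) = lsTwist (ζ ^ b) (lsMapHom ι f))
    (hperm : ∀ (γ : SL(2, ℤ)) (x : ℍ → ℂ), (x = Ginf ∨ ∃ b, b < r ∧ x = G b) →
      ((fun τ => x (γ • τ)) = Ginf ∨ ∃ b, b < r ∧ (fun τ => x (γ • τ)) = G b)) (k : ℕ) :
    ∃ P : Polynomial ℂ, lsMapHom ι ((eoTilde r f g).coeff k) = evalJ ℂ P := by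
  classical
  set fC := lsMapHom ι f with hfC
  set gC := lsMapHom ι g with hgC
  have hn₀' : fC.coeff n₀ ≠ 0 := by
    rw [hfC, lsMapHom_coeff]
    exact hn₀
  have hinj := lsTwist_injOn r hζ fC hn₀' hcop
  -- distinctness
  have hGinj : Set.InjOn G (Finset.range r : Set ℕ) := by
    intro b hb b' hb' h
    apply hinj hb hb'
    show lsTwist (ζ ^ b) fC = lsTwist (ζ ^ b') fC
    rw [← hqG b (Finset.mem_range.mp hb), ← hqG b' (Finset.mem_range.mp hb'), h]
  have hnot : Ginf ∉ (Finset.range r).image G := by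
    intro hmem
    obtain ⟨b, hb, hbe⟩ := Finset.mem_image.mp hmem
    have h1 : qExpand ℂ r gC = lsTwist (ζ ^ b) fC := by
      rw [← hqinf, ← hqG b (Finset.mem_range.mp hb), hbe]
    have h2 := congrArg (fun x : LaurentSeries ℂ => x.coeff n₀) h1
    simp only [lsTwist_coeff] at h2
    rw [qExpand_coeff_of_not_dvd r _ hrn] at h2
    exact (mul_ne_zero (Units.ne_zero _) hn₀') h2.symm
  set S : Finset (ℍ → ℂ) := insert Ginf ((Finset.range r).image G) with hS
  have hSmem : ∀ x, x ∈ S ↔ (x = Ginf ∨ ∃ b, b < r ∧ x = G b) := by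
    intro x
    rw [hS, Finset.mem_insert, Finset.mem_image]
    constructor
    · rintro (h | ⟨b, hb, rfl⟩)
      · exact Or.inl h
      · exact Or.inr ⟨b, Finset.mem_range.mp hb, rfl⟩
    · rintro (h | ⟨b, hb, rfl⟩)
      · exact Or.inl h
      · exact Or.inr ⟨b, Finset.mem_range.mpr hb, rfl⟩
  set F0 : Polynomial (ℍ → ℂ) := ∏ x ∈ S, (Polynomial.X - Polynomial.C x) with hF0
  have hF0' : F0 = (Polynomial.X - Polynomial.C Ginf) *
      ∏ b ∈ Finset.range r, (Polynomial.X - Polynomial.C (G b)) := by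
    rw [hF0, hS, Finset.prod_insert hnot, Finset.prod_image (fun a ha b hb h => hGinj ha hb h)]
  -- invariance
  have hinvF : ∀ γ : SL(2, ℤ), F0.map (compSL γ) = F0 := by
    intro γ
    have himg : S.image (compSL γ) = S := by
      apply Finset.eq_of_subset_of_card_le
      · intro y hy
        obtain ⟨x, hx, rfl⟩ := Finset.mem_image.mp hy
        exact (hSmem _).mpr (hperm γ x ((hSmem x).mp hx))
      · rw [Finset.card_image_of_injective _ (compSL_injective γ)]
    rw [hF0, Polynomial.map_prod]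
    conv_rhs => rw [← himg, Finset.prod_image (fun a _ b _ h => compSL_injective γ h)]
    refine Finset.prod_congr rfl fun x _ => ?_
    rw [Polynomial.map_sub, Polynomial.map_X, Polynomial.map_C]
  -- lift to the ring of Laurentable functions
  set xinf : qLaurentSubring r := ⟨Ginf, hGinf⟩ with hxinf
  set xb : ℕ → qLaurentSubring r := fun b => if h : b < r then ⟨G b, hG b h⟩ else 0 with hxb
  set F1 : Polynomial (qLaurentSubring r) := (Polynomial.X - Polynomial.C xinf) *
      ∏ b ∈ Finset.range r, (Polynomial.X - Polynomial.C (xb b)) with hF1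
  have hF10 : F1.map (qLaurentSubring r).subtype = F0 := by
    rw [hF0', hF1, Polynomial.map_mul, Polynomial.map_sub, Polynomial.map_X, Polynomial.map_C,
      Polynomial.map_prod]
    congr 1
    refine Finset.prod_congr rfl fun b hb => ?_
    rw [Polynomial.map_sub, Polynomial.map_X, Polynomial.map_C, hxb]
    simp only [dif_pos (Finset.mem_range.mp hb)]
    rfl
  have hF1q : F1.map (qLaurentHom r) =
      ((eoTilde r f g).map (lsMapHom ι)).map (qExpand ℂ r) := by
    rw [hF1, Polynomial.map_mul, Polynomial.map_sub, Polynomial.map_X, Polynomial.map_C,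
      Polynomial.map_prod]
    rw [eoTilde, Polynomial.map_mul, Polynomial.map_mul, Polynomial.map_sub, Polynomial.map_sub,
      Polynomial.map_X, Polynomial.map_X, Polynomial.map_C, Polynomial.map_C, lsChar_map,
      lsChar_eq_prod r (hζ.pow_eq_one) fC hinj]
    congr 1
    · rw [qLaurentHom_apply]
      show Polynomial.X - Polynomial.C (qLaurent r Ginf) = _
      rw [hqinf]
    · refine Finset.prod_congr rfl fun b hb => ?_
      rw [Polynomial.map_sub, Polynomial.map_X, Polynomial.map_C, qLaurentHom_apply, hxb]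
      simp only [dif_pos (Finset.mem_range.mp hb)]
      rw [hqG b (Finset.mem_range.mp hb)]
  -- the coefficient function
  set c : ℍ → ℂ := F0.coeff k with hc
  have hc1 : c = (F1.coeff k).1 := by
    rw [hc, ← hF10, Polynomial.coeff_map]
    rfl
  have hcq : IsQLaurentable r c := by
    rw [hc1]
    exact (F1.coeff k).2
  have hcinv : ∀ (γ : SL(2, ℤ)) (τ : ℍ), c (γ • τ) = c τ := by
    intro γ τ
    have h1 : compSL γ c = c := by
      rw [hc, ← Polynomial.coeff_map, hinvF γ]
    exact congrFun h1 τ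
  obtain ⟨P, -, e2⟩ := eo_exists_polynomial_of_invariant r c hcq hcinv
  refine ⟨P, ?_⟩
  have e3 : qLaurent r c = qExpand ℂ r (lsMapHom ι ((eoTilde r f g).coeff k)) := by
    have : qLaurent r c = qLaurentHom r (F1.coeff k) := by
      rw [qLaurentHom_apply, ← hc1]
    rw [this, ← Polynomial.coeff_map, hF1q, Polynomial.coeff_map, Polynomial.coeff_map]
  exact qExpand_injective r (e3.symm.trans e2)

end Fermat.Agent.Eis
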