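import Fermat.Agent.Lib.Eis.Geom.IntClosure
import Fermat.Agent.Lib.Eis.Geom.CuspUnits

/-!
# P11 (D3): reduction of integrality

* `eoEvalAt K t : K[X] →+* K((q))`, `X ↦ t`;
* `eo_isIntegralElem_gaussRho`: if `y` is integral over `ℤ_(ℓ)[x]` (`x` in the Gauss ring) then
  `ρ y` is integral over `𝔽_ℓ[ρ x]`;
* `eo_isIntegralElem_lsMapHom`: integrality over `A[t]` is preserved by coefficient maps;
* `eo_ord_nonneg_of_isIntegralElem`: an element of `F' = k(j̄, j̄_p)` integral over `k[t]`,
  `t ∈ F'`, is regular at every place where `t` is regular.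
-/

set_option autoImplicit false
set_option linter.unusedSectionVars false
set_option linter.style.haveILetI false

open HahnSeries ModularCurve ModularCurve.IgusaScheme Polynomial AlgebraicCurve
open Fermat.Agent.Igusa Fermat.Agent.Curve

noncomputable section

namespace Fermat.Agent.Eis

section EvalAt

/-- evaluation of polynomials at a Laurent series `t` -/
def eoEvalAt (K : Type*) [CommRing K] (t : LaurentSeries K) : Polynomial K →+* LaurentSeries K :=
  Polynomial.eval₂RingHom (HahnSeries.C : K →+* LaurentSeries K) t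

@[simp] theorem eoEvalAt_X (K : Type*) [CommRing K] (t : LaurentSeries K) :
    eoEvalAt K t Polynomial.X = t := by
  rw [eoEvalAt, Polynomial.coe_eval₂RingHom, Polynomial.eval₂_X]

@[simp] theorem eoEvalAt_C (K : Type*) [CommRing K] (t : LaurentSeries K) (c : K) :
    eoEvalAt K t (Polynomial.C c) = HahnSeries.C c := by
  rw [eoEvalAt, Polynomial.coe_eval₂RingHom, Polynomial.eval₂_C]

theorem eoEvalAt_jqModC (K : Type*) [CommRing K] : eoEvalAt K (jqModC K) = evalJ K := rfl

/-- integrality over `A[t]` is preserved by coefficient maps -/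
theorem eo_isIntegralElem_lsMapHom {A B : Type*} [CommRing A] [CommRing B] (φ : A →+* B)
    {t g : LaurentSeries A} (hg : (eoEvalAt A t).IsIntegralElem g) :
    (eoEvalAt B (lsMapHom φ t)).IsIntegralElem (lsMapHom φ g) := by
  obtain ⟨P, hP, hP0⟩ := hg
  refine ⟨P.map (Polynomial.mapRingHom φ), hP.map _, ?_⟩
  have h1 := congrArg (lsMapHom φ) hP0
  rw [map_zero, Polynomial.hom_eval₂] at h1
  rw [Polynomial.eval₂_map]
  have h2 : (lsMapHom φ).comp (eoEvalAt A t) =
      (eoEvalAt B (lsMapHom φ t)).comp (Polynomial.mapRingHom φ) := by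
    apply Polynomial.ringHom_ext
    · intro a
      simp only [RingHom.comp_apply, eoEvalAt_C, Polynomial.coe_mapRingHom, Polynomial.map_C]
      exact lsMapHom_C φ a
    · simp only [RingHom.comp_apply, eoEvalAt_X, Polynomial.coe_mapRingHom, Polynomial.map_X]
  rw [← h2]
  exact h1

end EvalAt

section Rho

variable (ℓ : ℕ) [Fact ℓ.Prime] (N : ℕ) [NeZero N]

set_option quotPrecheck false in
local notation "ℤℓ" => ↥(GaloisRep.ratLocalizedAt ℓ)

set_option quotPrecheck false in
local notation "F" => ↥(modularFunctionFieldFull N)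

variable {N}

/-- **reduction of integrality**: if `y` is integral over `ℤ_(ℓ)[x]`, `x ∈ O`, then `ρ y` is
integral over `𝔽_ℓ[ρ x]` -/
theorem eo_isIntegralElem_gaussRho {x : F} (hxO : x ∈ gaussRing ℓ N) (y : ↥(gaussRing ℓ N))
    (hy : IsIntegral ↥(Algebra.adjoin ℤℓ {x}) (y : F)) :
    (eoEvalAt (ZMod ℓ) (gaussRho ℓ N ⟨x, hxO⟩)).IsIntegralElem (gaussRho ℓ N y) := by
  obtain ⟨Q, hQ, hQy⟩ := hy
  -- the surjection `ℤ_(ℓ)[X] → ℤ_(ℓ)[x]`
  set ψ : ℤℓ[X] →+* ↥(Algebra.adjoin ℤℓ {x}) :=
    (aeval (⟨x, Algebra.self_mem_adjoin_singleton ℤℓ x⟩ : ↥(Algebra.adjoin ℤℓ {x}))).toRingHom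
    with hψ
  have hψsurj : Function.Surjective ψ := by
    intro a
    have h1 : (a : F) ∈ (aeval x : ℤℓ[X] →ₐ[ℤℓ] F).range := by
      rw [← Algebra.adjoin_singleton_eq_range_aeval]
      exact a.2
    obtain ⟨P, hP⟩ := h1
    refine ⟨P, Subtype.ext ?_⟩
    rw [← hP]
    exact Polynomial.aeval_subalgebra_coe P _ _
  have hlift : Q ∈ Polynomial.lifts ψ := by
    obtain ⟨Q', hQ'⟩ := Polynomial.map_surjective ψ hψsurj Q
    exact ⟨Q', hQ'⟩
  obtain ⟨Q', hQ'map, -, hQ'monic⟩ := Polynomial.lifts_and_natDegree_eq_and_monic hlift hQ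
  refine ⟨Q'.map (Polynomial.mapRingHom (zlRed ℓ)), hQ'monic.map _, ?_⟩
  rw [Polynomial.eval₂_map]
  -- compatibility of the two evaluation maps
  have hcomp : (eoEvalAt (ZMod ℓ) (gaussRho ℓ N ⟨x, hxO⟩)).comp
      (Polynomial.mapRingHom (zlRed ℓ)) =
      ((gaussRho ℓ N).comp (adjoinToGauss ℓ hxO)).comp ψ := by
    apply Polynomial.ringHom_ext
    · intro a
      simp only [RingHom.comp_apply, Polynomial.coe_mapRingHom, Polynomial.map_C, eoEvalAt_C]
      have h1 := gaussRho_adjoinToGauss_aeval ℓ hxO (Polynomial.C a)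
      rw [hψ]
      simp only [AlgHom.toRingHom_eq_coe, RingHom.coe_coe]
      rw [h1, Polynomial.map_C, Polynomial.aeval_C, algebraMap_laurentSeries_eq_single]
      rfl
    · simp only [RingHom.comp_apply, Polynomial.coe_mapRingHom, Polynomial.map_X, eoEvalAt_X]
      have h1 := gaussRho_adjoinToGauss_aeval ℓ hxO (Polynomial.X)
      rw [hψ]
      simp only [AlgHom.toRingHom_eq_coe, RingHom.coe_coe]
      rw [h1, Polynomial.map_X, Polynomial.aeval_X]
  rw [hcomp, ← Polynomial.eval₂_map, hQ'map, ← Polynomial.hom_eval₂]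
  -- the evaluation inside `O` vanishes
  have h0 : Polynomial.eval₂ (adjoinToGauss ℓ hxO) y Q = 0 := by
    apply Subtype.ext
    have h1 := Polynomial.hom_eval₂ Q (adjoinToGauss ℓ hxO) (gaussRing ℓ N).subtype y
    rw [ZeroMemClass.coe_zero]
    refine Eq.trans ?_ hQy
    exact h1
  rw [h0, map_zero]

end Rho

section Place

variable (k : Type*) [Field k] (p : ℕ) [NeZero p]

/-- `k[X] → F'`, `X ↦ t` -/
def eoEvalF (t : EhField k p) : Polynomial k →+* EhField k p := (Polynomial.aeval t).toRingHom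

theorem ehEmb_comp_eoEvalF (t : EhField k p) :
    (ehEmb k p).toRingHom.comp (eoEvalF k p t) = eoEvalAt k (ehEmb k p t) := by
  apply Polynomial.ringHom_ext
  · intro c
    rw [eoEvalAt_C]
    simp only [eoEvalF, RingHom.comp_apply, AlgHom.toRingHom_eq_coe, RingHom.coe_coe,
      Polynomial.aeval_C]
    exact ehEmb_algebraMap k p c
  · rw [eoEvalAt_X]
    simp only [eoEvalF, RingHom.comp_apply, AlgHom.toRingHom_eq_coe, RingHom.coe_coe,
      Polynomial.aeval_X]

theorem eoEvalF_mem (v : Place k (EhField k p)) (t : EhField k p) (hv : 0 ≤ v.ord t)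
    (P : Polynomial k) : eoEvalF k p t P ∈ v.toValuationSubring := by
  have hx : t ∈ v.toValuationSubring := PlaceAux.mem_of_ord_nonneg v hv
  show Polynomial.aeval t P ∈ v.toValuationSubring
  rw [Polynomial.aeval_eq_sum_range]
  refine sum_mem fun i _ => ?_
  rw [Algebra.smul_def]
  exact mul_mem (v.algebraMap_mem' _) (pow_mem hx i)

/-- **regularity**: an element of `F'` whose `q`-expansion is integral over `k[t]`, `t ∈ F'`, is
regular at every place where `t` is regular -/
theorem eo_ord_nonneg_of_isIntegralElem (v : Place k (EhField k p)) (t : EhField k p)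
    (hv : 0 ≤ v.ord t) (z : EhField k p)
    (hz : (eoEvalAt k (ehEmb k p t)).IsIntegralElem (ehEmb k p z)) : 0 ≤ v.ord z := by
  obtain ⟨P, hP, hP0⟩ := hz
  let _ : Algebra (Polynomial k) (EhField k p) := (eoEvalF k p t).toAlgebra
  have hint : IsIntegral (Polynomial k) z := by
    refine ⟨P, hP, ?_⟩
    apply ehEmb_injective k p
    rw [map_zero]
    have := Polynomial.hom_eval₂ P (eoEvalF k p t) (ehEmb k p).toRingHom z
    refine this.trans ?_
    rw [ehEmb_comp_eoEvalF]
    exact hP0
  exact PlaceAux.ord_nonneg_of_mem v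
    (Fermat.Agent.CurveP.PlaceAux.mem_of_isIntegral_of_algebraMap_mem v
      (fun r => eoEvalF_mem k p v t hv r) hint)

end Place

end Fermat.Agent.Eis
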