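import Fermat.Agent.Lib.Eis.Geom.ResidueGen
import Fermat.Agent.Lib.Eis.Geom.FieldTwo
import Fermat.Agent.Lib.Eis.Geom.BridgeIntegral

/-!
# P11 (D2): reductions mod `2` of `2`-integral elements of `ℚ(X₀(p))` lie in `F' = k(j̄, j̄_p)`

If `s ∈ ℤ_(2)((q))` is the `q`-expansion of an element of `ℚ(X₀(p)) = ℚ(j, j_p)`, then its
coefficientwise reduction, with coefficients extended to a field `k` of characteristic `2`, lies in
`k(j̄, j̄_p)`.  Examples: `v̄ = (η(q)/η(q^p))¹²` and `t̄ = E₄²/(η(q)η(q^p))⁸`.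
-/

set_option autoImplicit false

open HahnSeries ModularCurve ModularCurve.IgusaScheme IntermediateField
open Fermat.Agent.Igusa

noncomputable section

namespace Fermat.Agent.Eis

section Reduce

variable (k : Type*) [Field k] [CharP k 2]

set_option quotPrecheck false in
local notation "ℤ₂" => ↥(GaloisRep.ratLocalizedAt 2)

/-- `ℤ_(2) → 𝔽₂ → k` -/
def ehRed : ℤ₂ →+* k := (ZMod.castHom (dvd_refl 2) k).comp (zlRed 2)

theorem eh_lsMapHom_comp {A B C : Type*} [CommRing A] [CommRing B] [CommRing C] (f : A →+* B)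
    (g : B →+* C) (s : LaurentSeries A) :
    lsMapHom (g.comp f) s = lsMapHom g (lsMapHom f s) := by
  ext n
  simp only [lsMapHom_coeff, RingHom.comp_apply]

theorem eh_lsMapHom_kappa_mem (x : LaurentSeries (ZMod 2)) (hx : x ∈ kappa 2) :
    lsMapHom (ZMod.castHom (dvd_refl 2) k) x ∈ kappaJ k := by
  have h := bcd_map_mem_adjoin (K0 := ZMod 2) (K := k) (lsMapHom (ZMod.castHom (dvd_refl 2) k))
    (fun c => ⟨ZMod.castHom (dvd_refl 2) k c, (bcd_lsMapHom_algebraMap _ c).symm⟩)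
    {jqModC (ZMod 2)} hx
  rwa [Set.image_singleton, lsMapHom_jqModC] at h

variable (p : ℕ) [NeZero p]

/-- the base change `𝔽₂(j̄)(X̄_d, Ū_r) → k(j̄, j̄_p)` -/
theorem eh_lsMapHom_mem_of_mem_adjoin (hp : p.Prime) (hp2 : p ≠ 2) (x : LaurentSeries (ZMod 2))
    (hx : x ∈ IntermediateField.adjoin ↥(kappa 2) (igGenSet (ZMod 2) p)) :
    lsMapHom (ZMod.castHom (dvd_refl 2) k) x ∈ ehF k p := by
  have h := bcd_map_mem_adjoin (K0 := ↥(kappa 2)) (K := ↥(kappaJ k))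
    (lsMapHom (ZMod.castHom (dvd_refl 2) k))
    (fun a => ⟨⟨_, eh_lsMapHom_kappa_mem k (a : LaurentSeries (ZMod 2)) a.2⟩, rfl⟩)
    (igGenSet (ZMod 2) p) hx
  rw [image_lsMapHom_igGenSet] at h
  rw [mem_ehF_iff]
  have hle : IntermediateField.adjoin ↥(kappaJ k) (igGenSet k p) ≤ (kappaJ k)⟮ehJpLS k p⟯ := by
    rw [IntermediateField.adjoin_le_iff]
    exact eh_igGenSet_subset k p hp hp2
  exact hle h

/-- **Reduction into `F'`.**  If `s ∈ ℤ_(2)((q))` is the expansion of an element of `ℚ(X₀(p))`,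
then its reduction (with coefficients in `k ⊇ 𝔽₂`) lies in `F' = k(j̄, j̄_p)`. -/
theorem eh_lsMapHom_mem_ehF (hp : p.Prime) (hp2 : p ≠ 2) (s : LaurentSeries ℤ₂)
    (hs : inclL 2 s ∈ modularFunctionFieldFull p) :
    lsMapHom (ehRed k) s ∈ ehF k p := by
  have h2p : ¬ 2 ∣ p := fun h => hp2 ((Nat.prime_dvd_prime_iff_eq Nat.prime_two hp).mp h).symm
  have hmem : (⟨inclL 2 s, hs⟩ : ↥(modularFunctionFieldFull p)) ∈ gaussRing 2 p :=
    mem_gaussRing_of_eq_inclL 2 p (s := s) rfl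
  have hrho : gaussRho 2 p ⟨⟨inclL 2 s, hs⟩, hmem⟩ = redL 2 s :=
    gaussRho_of_eq_inclL 2 p (s := s) rfl
  have h1 := eg_gaussRho_mem_adjoin 2 p h2p ⟨⟨inclL 2 s, hs⟩, hmem⟩
  rw [hrho] at h1
  have h2 := eh_lsMapHom_mem_of_mem_adjoin k p hp hp2 _ h1
  rwa [redL_eq_lsMapHom, ← eh_lsMapHom_comp] at h2

/-- `v̄ = (η(q)/η(q^p))¹² ∈ F'` -/
theorem eeVLS_mem_ehF (hp : p.Prime) (hp2 : p ≠ 2) {m : ℕ} (hm : p = 2 * m + 1) :
    eeVLS k p m ∈ ehF k p := by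
  have : Fact p.Prime := ⟨hp⟩
  have h := eh_lsMapHom_mem_ehF k p hp hp2 (eeVLS ℤ₂ p m) (by
    rw [inclL_eq_lsMapHom, lsMapHom_eeVLS]
    exact eeVLS_mem_full p hm)
  rwa [lsMapHom_eeVLS] at h

/-- `t̄ = E₄²/(η(q)η(q^p))⁸ ∈ F'` -/
theorem eeTLS_mem_ehF (hp : p.Prime) (hp2 : p ≠ 2) {m : ℕ} (hm : p + 1 = 3 * m) :
    eeTLS k p m ∈ ehF k p := by
  have : Fact p.Prime := ⟨hp⟩
  have h := eh_lsMapHom_mem_ehF k p hp hp2 (eeTLS ℤ₂ p m) (by
    rw [inclL_eq_lsMapHom, lsMapHom_eeTLS]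
    exact eeTLS_mem_full p hm)
  rwa [lsMapHom_eeTLS] at h

end Reduce

end Fermat.Agent.Eis
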