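import Fermat.Agent.Lib.Eis.Geom.ReduceIntegral
import Fermat.Agent.Lib.CurveP.RiemannRoch

/-!
# P11 (D3): reduction of `L(n (j)_∞)` into `L(n (j̄)_∞)`

* `eoRed : O → F'`, the reduction map from the Gauss ring of `ℚ(X₀(p))` to `F' = k(j̄, j̄_p)`;
* `eoRed_mem_riemannRochSpace`: if `y ∈ O` is integral over `ℚ[j]` and `j⁻ⁿ y` is integral over
  `ℚ[1/j]`, then `eoRed y ∈ L(n (j̄)_∞)`;
* `eo_linearIndependent_lsMapHom`: `𝔽₂`-linearly independent Laurent series stay linearly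
  independent over `k`.
-/

set_option autoImplicit false
set_option linter.unusedSectionVars false
set_option linter.style.haveILetI false

open HahnSeries ModularCurve ModularCurve.IgusaScheme Polynomial AlgebraicCurve
open Fermat.Agent.Igusa Fermat.Agent.Curve

noncomputable section

namespace Fermat.Agent.Eis

section Red

variable (k : Type*) [Field k] [CharP k 2] (p : ℕ) [NeZero p]

set_option quotPrecheck false in
local notation "F" => ↥(modularFunctionFieldFull p)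

theorem eo_two_not_dvd (hp : p.Prime) (hp2 : p ≠ 2) : ¬ 2 ∣ p := fun h =>
  hp2 ((Nat.prime_dvd_prime_iff_eq Nat.prime_two hp).mp h).symm

/-- the reduction map `O → F'` -/
def eoRed (hp : p.Prime) (hp2 : p ≠ 2) : ↥(gaussRing 2 p) →+* EhField k p :=
  RingHom.codRestrict ((lsMapHom (ZMod.castHom (dvd_refl 2) k)).comp (gaussRho 2 p)) (ehF k p)
    (fun y => eh_lsMapHom_mem_of_mem_adjoin k p hp hp2 _
      (eg_gaussRho_mem_adjoin 2 p (eo_two_not_dvd p hp hp2) y))

theorem ehEmb_eoRed (hp : p.Prime) (hp2 : p ≠ 2) (y : ↥(gaussRing 2 p)) :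
    ehEmb k p (eoRed k p hp hp2 y) =
      lsMapHom (ZMod.castHom (dvd_refl 2) k) (gaussRho 2 p y) := rfl

theorem eoRed_jFull (hp : p.Prime) (hp2 : p ≠ 2) :
    eoRed k p hp hp2 ⟨jFull p, jFull_mem_gaussRing 2 p⟩ = ehX k p := by
  apply ehEmb_injective k p
  rw [ehEmb_eoRed, gaussRho_jFull, lsMapHom_jqModC, ehEmb_ehX]

theorem eoRed_jFull_inv (hp : p.Prime) (hp2 : p ≠ 2) :
    eoRed k p hp hp2 ⟨(jFull p)⁻¹, jFull_inv_mem_gaussRing 2 p⟩ = (ehX k p)⁻¹ := by
  have h1 : eoRed k p hp hp2 ⟨jFull p, jFull_mem_gaussRing 2 p⟩ *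
      eoRed k p hp hp2 ⟨(jFull p)⁻¹, jFull_inv_mem_gaussRing 2 p⟩ = 1 := by
    rw [← map_mul]
    have : (⟨jFull p, jFull_mem_gaussRing 2 p⟩ : ↥(gaussRing 2 p)) *
        ⟨(jFull p)⁻¹, jFull_inv_mem_gaussRing 2 p⟩ = 1 :=
      Subtype.ext (mul_inv_cancel₀ (jFull_ne_zero p))
    rw [this, map_one]
  rw [eoRed_jFull] at h1
  exact (DivisionMonoid.inv_eq_of_mul _ _ h1).symm

variable [IsAlgClosed k]

/-- **reduction of `L(n (j)_∞)`**: if `y ∈ O` is integral over `ℚ[j]` and `j⁻ⁿ y` is integral over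
`ℚ[1/j]`, then `ȳ ∈ L(n (j̄)_∞)` -/
theorem eoRed_mem_riemannRochSpace (hp : p.Prime) (hp2 : p ≠ 2) (n : ℕ)
    (D : Divisor k (EhField k p))
    (hD : ∀ v : Place k (EhField k p), D v = (n : ℤ) * max 0 (-(v.ord (ehX k p))))
    (y : ↥(gaussRing 2 p))
    (h1 : IsIntegral ↥(Algebra.adjoin ℚ {jFull p}) (y : F))
    (h2 : IsIntegral ↥(Algebra.adjoin ℚ {(jFull p)⁻¹}) ((jFull p)⁻¹ ^ n * (y : F))) :
    eoRed k p hp hp2 y ∈ riemannRochSpace D := by
  have h2p := eo_two_not_dvd p hp hp2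
  rw [mem_riemannRochSpace_iff]
  intro v
  by_cases hz : eoRed k p hp hp2 y = 0
  · exact Or.inl hz
  right
  rw [hD v]
  rcases le_or_gt 0 (v.ord (ehX k p)) with hv | hv
  · -- `j̄` regular at `v`
    rw [max_eq_left (by omega), mul_zero, neg_zero]
    apply eo_ord_nonneg_of_isIntegralElem k p v (ehX k p) hv
    rw [ehEmb_eoRed, ehEmb_ehX]
    have h3 := eo_isIntegralElem_gaussRho 2 (jFull_mem_gaussRing 2 p) y
      (eo_isIntegral_zl_jFull 2 p h2p y y.2 h1)
    have h4 := eo_isIntegralElem_lsMapHom (ZMod.castHom (dvd_refl 2) k) h3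
    rwa [gaussRho_jFull, lsMapHom_jqModC] at h4
  · -- `j̄` has a pole at `v`
    rw [max_eq_right (by omega)]
    have hmem : (jFull p)⁻¹ ^ n * (y : F) ∈ gaussRing 2 p :=
      mul_mem (pow_mem (jFull_inv_mem_gaussRing 2 p) n) y.2
    set y' : ↥(gaussRing 2 p) := ⟨(jFull p)⁻¹ ^ n * (y : F), hmem⟩ with hy'
    have hy'eq : y' = ⟨(jFull p)⁻¹, jFull_inv_mem_gaussRing 2 p⟩ ^ n * y := Subtype.ext rfl
    have hred : eoRed k p hp hp2 y' = (ehX k p)⁻¹ ^ n * eoRed k p hp hp2 y := by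
      rw [hy'eq, map_mul, map_pow, eoRed_jFull_inv]
    have hvt : 0 ≤ v.ord (ehX k p)⁻¹ := by
      rw [Place.ord_inv]; omega
    have h5 : 0 ≤ v.ord (eoRed k p hp hp2 y') := by
      apply eo_ord_nonneg_of_isIntegralElem k p v (ehX k p)⁻¹ hvt
      rw [ehEmb_eoRed, map_inv₀, ehEmb_ehX]
      have h3 := eo_isIntegralElem_gaussRho 2 (jFull_inv_mem_gaussRing 2 p) y'
        (eo_isIntegral_zl_jFull_inv 2 p h2p _ hmem h2)
      have h4 := eo_isIntegralElem_lsMapHom (ZMod.castHom (dvd_refl 2) k) h3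
      rwa [gaussRho_jFull_inv, map_inv₀, lsMapHom_jqModC] at h4
    have hx0 : (ehX k p)⁻¹ ^ n ≠ 0 := pow_ne_zero _ (inv_ne_zero (ehX_ne_zero k p))
    rw [hred, Place.ord_mul v hx0 hz, ← zpow_natCast, Place.ord_zpow, Place.ord_inv] at h5
    linarith

end Red

section Indep

variable (k : Type*) [Field k] [CharP k 2]

/-- `𝔽₂`-linearly independent Laurent series stay linearly independent over `k` -/
theorem eo_linearIndependent_lsMapHom {ι : Type*} (s : ι → LaurentSeries (ZMod 2))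
    (hs : LinearIndependent (ZMod 2) s) :
    LinearIndependent k (fun i => lsMapHom (ZMod.castHom (dvd_refl 2) k) (s i)) := by
  classical
  letI : Module (ZMod 2) k := Module.compHom k (ZMod.castHom (dvd_refl 2) k)
  have hsmul : ∀ (a : ZMod 2) (c : k), a • c = ZMod.castHom (dvd_refl 2) k a * c := fun _ _ => rfl
  rw [linearIndependent_iff']
  intro t c hc i hi
  have key : ∀ φ : Module.Dual (ZMod 2) k, ∑ i ∈ t, φ (c i) • s i = 0 := by
    intro φ
    ext m
    have h1 := congrArg (fun z : LaurentSeries k => φ (z.coeff m)) hc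
    simp only [HahnSeries.coeff_sum, HahnSeries.coeff_smul, lsMapHom_coeff, map_sum,
      HahnSeries.coeff_zero, map_zero, smul_eq_mul] at h1
    rw [HahnSeries.coeff_sum, HahnSeries.coeff_zero, ← h1]
    refine Finset.sum_congr rfl fun j _ => ?_
    rw [HahnSeries.coeff_smul, smul_eq_mul, mul_comm (c j), ← hsmul, map_smul, smul_eq_mul,
      mul_comm]
  have h2 : ∀ φ : Module.Dual (ZMod 2) k, φ (c i) = 0 := fun φ =>
    linearIndependent_iff'.mp hs t (fun i => φ (c i)) (key φ) i hi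
  exact (Module.forall_dual_apply_eq_zero_iff (ZMod 2) (c i)).mp h2

end Indep

end Fermat.Agent.Eis
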