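import Fermat.Agent.Lib.Igusa.ResidueDegree
import Fermat.Agent.Lib.Igusa.TowerBridge
import Fermat.Agent.Lib.Igusa.TowerMain

/-!
# P11 (D2): the residue field of the Gauss valuation is generated by the Igusa generators

For `ℓ ∤ N`, every element of the Gauss valuation ring of `ℚ(X₀(N))` reduces into the field
`𝔽_ℓ(j̄)(X̄_d, Ū_r) ⊆ 𝔽_ℓ((q))` (Igusa: the residue degree is the full degree `ψ(N)`).
-/

set_option autoImplicit false
set_option linter.unusedSectionVars false
set_option linter.style.haveILetI false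

open HahnSeries ModularCurve ModularCurve.IgusaScheme Polynomial
open Fermat.Agent.Igusa

noncomputable section

namespace Fermat.Agent.Eis

variable (ℓ : ℕ) [Fact ℓ.Prime] (N : ℕ) [NeZero N]

set_option quotPrecheck false in
local notation "ℤℓ" => ↥(GaloisRep.ratLocalizedAt ℓ)

set_option quotPrecheck false in
local notation "F" => ↥(modularFunctionFieldFull N)

/-- the Igusa degree bound over `𝔽_ℓ(j̄)` -/
theorem eg_dedekindPsi_le_finrank_residue (hℓN : ¬ ℓ ∣ N) :
    dedekindPsi N ≤ Module.finrank ↥(kappa ℓ)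
      ↥(IntermediateField.adjoin ↥(kappa ℓ) (gaussRho ℓ N '' igGaussGens ℓ N)) :=
  ig_le_finrank_residue_of_tower ℓ N
    (ig_tower_bound_of_relfinrank (AlgebraicClosure (ZMod ℓ)) N
      (ig_natCast_ne_zero_algebraicClosure ℓ N hℓN)
      (TowerData.dedekindPsi_le
        (pzTowerData (AlgebraicClosure (ZMod ℓ)) N
          (ig_natCast_ne_zero_algebraicClosure ℓ N hℓN))))

set_option synthInstance.maxHeartbeats 400000 in
set_option maxHeartbeats 1000000 in
/-- **The residue field of the Gauss valuation.**  For `ℓ ∤ N`, the residue of every element of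
the Gauss valuation ring of `ℚ(X₀(N))` lies in `𝔽_ℓ(j̄)(X̄_d, Ū_r)`. -/
theorem eg_gaussRho_mem_adjoin (hℓN : ¬ ℓ ∣ N) (x : ↥(gaussRing ℓ N)) :
    gaussRho ℓ N x ∈ IntermediateField.adjoin ↥(kappa ℓ) (igGenSet (ZMod ℓ) N) := by
  classical
  have hκ := gaussRho_coreOf_incl_mem_kappa ℓ N (transcendental_zl_jFull ℓ N)
    (jFull_mem_gaussRing ℓ N) (igInst_transcendental_gaussRho_jFull ℓ N)
    (gaussRho_jFull_mem_kappa ℓ N)
  obtain ⟨b, hbG, hb⟩ := ResidueCore.exists_indep_of_le_finrank_field (D := coreFin ℓ N)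
    (κ := ↥(kappa ℓ)) hκ (igGaussGens ℓ N) (eg_dedekindPsi_le_finrank_residue ℓ N hℓN)
  have hn := finrank_adjoin_jFull_le N
  have hxK : jFull N ∈ IntermediateField.adjoin ℚ {jFull N} :=
    IntermediateField.mem_adjoin_simple_self ℚ (jFull N)
  have hjx : jFull N ∈ Subfield.closure
      ((Algebra.adjoin ℤℓ {jFull N} : Subalgebra ℤℓ F) : Set F) :=
    Subfield.subset_closure (Algebra.self_mem_adjoin_singleton ℤℓ (jFull N))
  letI : Algebra ↥(Algebra.adjoin ℤℓ {jFull N}) ↥(IntermediateField.adjoin ℚ {jFull N}) :=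
    (adjoinToQj ℓ hxK).toAlgebra
  haveI : IsScalarTower ↥(Algebra.adjoin ℤℓ {jFull N})
      ↥(IntermediateField.adjoin ℚ {jFull N}) F :=
    IsScalarTower.of_algebraMap_eq (fun a => rfl)
  haveI : FaithfulSMul ↥(Algebra.adjoin ℤℓ {jFull N})
      ↥(IntermediateField.adjoin ℚ {jFull N}) := by
    rw [faithfulSMul_iff_algebraMap_injective]
    intro a a' h
    apply Subtype.ext
    exact congrArg (fun z : ↥(IntermediateField.adjoin ℚ {jFull N}) => (z : F)) h
  haveI : IsFractionRing ↥(Algebra.adjoin ℤℓ {jFull N})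
      ↥(IntermediateField.adjoin ℚ {jFull N}) := by
    apply IsFractionRing.of_field
    intro z
    obtain ⟨a, s, h⟩ := exists_div_of_mem_adjoin_jFull ℓ hjx z.2
    exact ⟨a, s, Subtype.ext h⟩
  haveI : UniqueFactorizationMonoid ↥(Algebra.adjoin ℤℓ {jFull N}) :=
    ufm_adjoin ℓ (transcendental_zl_jFull ℓ N)
  haveI : FiniteDimensional ↥(IntermediateField.adjoin ℚ {jFull N}) F :=
    finiteDimensional_adjoin_jFull N
  set x' : ↥(coreFin ℓ N).O := x with hx'def
  obtain ⟨s, a, hs, hsa⟩ := ResidueCore.exists_mul_eq_sum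
    (K := ↥(IntermediateField.adjoin ℚ {jFull N})) (D := coreFin ℓ N) hb hn x'
  -- the relation inside `O`
  have h3 : (coreFin ℓ N).incl s * x' = ∑ i, (coreFin ℓ N).incl (a i) * b i := by
    apply Subtype.ext
    rw [AddSubmonoidClass.coe_finsetSum]
    simp only [Subring.coe_mul, ResidueCore.coe_incl]
    exact hsa
  have h4 := congrArg (coreFin ℓ N).ρ h3
  rw [map_mul, map_sum] at h4
  have hs0 : (coreFin ℓ N).ρ ((coreFin ℓ N).incl s) ≠ 0 := fun h0 =>
    hs ((coreFin ℓ N).dvd_of_ρ_incl_eq_zero h0)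
  set E := IntermediateField.adjoin ↥(kappa ℓ) (igGenSet (ZMod ℓ) N) with hE
  have hmemA : ∀ c : ↥(Algebra.adjoin ℤℓ {jFull N}),
      (coreFin ℓ N).ρ ((coreFin ℓ N).incl c) ∈ E := by
    intro c
    obtain ⟨z, hz⟩ := hκ c
    have hz' : (coreFin ℓ N).ρ ((coreFin ℓ N).incl c) =
        algebraMap ↥(kappa ℓ) (LaurentSeries (ZMod ℓ)) z := hz.symm
    rw [hz']
    exact E.algebraMap_mem z
  have hmemG : ∀ g ∈ Submonoid.closure (igGaussGens ℓ N), gaussRho ℓ N g ∈ E := by
    intro g hg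
    induction hg using Submonoid.closure_induction with
    | mem y hy => exact IntermediateField.subset_adjoin _ _ hy
    | one => rw [map_one]; exact E.one_mem
    | mul y z _ _ hy hz => rw [map_mul]; exact E.mul_mem hy hz
  have hsum : ∑ i, (coreFin ℓ N).ρ ((coreFin ℓ N).incl (a i) * b i) ∈ E := by
    refine E.sum_mem fun i _ => ?_
    rw [map_mul]
    exact E.mul_mem (hmemA _) (hmemG _ (hbG i))
  have hx : (coreFin ℓ N).ρ x' =
      ((coreFin ℓ N).ρ ((coreFin ℓ N).incl s))⁻¹ *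
        ∑ i, (coreFin ℓ N).ρ ((coreFin ℓ N).incl (a i) * b i) := by
    rw [← h4, ← mul_assoc, inv_mul_cancel₀ hs0, one_mul]
  have hx'' : gaussRho ℓ N x = (coreFin ℓ N).ρ x' := rfl
  rw [hx'', hx]
  exact E.mul_mem (E.inv_mem (hmemA s)) hsum

end Fermat.Agent.Eis
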