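import Fermat.Agent.Lib.Eis.Geom.ReduceMem
import Fermat.Agent.Lib.Eis.Geom.CuspPlaces
import Fermat.Agent.Lib.CurveP.ResidueGlobal

/-!
# P11 (D2): the derivation `θ = q d/dq` on `F' = k(j̄, j̄_p)` and `ω₀ = dj̄/j̄ = dv̄/v̄`

`θ` gives a `k`-derivation `F' → k((q))`; since `Ω[F'/k]` is spanned by `dj̄` (`j̄` is separating) and
`θ j̄ = j̄` in characteristic `2`:  `θ f = h · θ j̄` implies `df = h dj̄`.  For
`v̄ = (η(q)/η(q^p))¹²` with `(p - 1)/2` odd, `θ v̄ = v̄`, so `dv̄ = (v̄/j̄) dj̄`.
-/

set_option autoImplicit false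

open HahnSeries ModularCurve IntermediateField AlgebraicCurve KaehlerDifferential
open Fermat.Agent.Igusa Fermat.Agent.Curve Fermat.Agent.S23Lib

noncomputable section

namespace Fermat.Agent.Eis

section Derivation

variable (k : Type*) [Field k] (p : ℕ) [NeZero p]

/-- `k((q))` as a module over `F'` (local to this file) -/
local instance ehModuleLaurent : Module (EhField k p) (LaurentSeries k) :=
  Module.compHom (LaurentSeries k) (ehEmb k p).toRingHom

theorem eh_smul_laurent (a : EhField k p) (m : LaurentSeries k) : a • m = ehEmb k p a * m := rfl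

theorem ehEmb_smul (c : k) (a : EhField k p) :
    ehEmb k p (c • a) = HahnSeries.C c * ehEmb k p a := by
  rw [Algebra.smul_def, map_mul, AlgHom.commutes, LaurentSeries.algebraMap_apply]

local instance ehTowerLaurent : IsScalarTower k (EhField k p) (LaurentSeries k) :=
  ⟨fun c a m => by
    rw [eh_smul_laurent, eh_smul_laurent, ehEmb_smul, mul_assoc, HahnSeries.C_mul_eq_smul]⟩

/-- `θ = q d/dq` as a `k`-derivation `F' → k((q))` -/
def ehThetaDer : Derivation k (EhField k p) (LaurentSeries k) where
  toFun f := qTheta (ehEmb k p f)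
  map_add' f g := by rw [map_add, qTheta_add]
  map_smul' c f := by
    rw [RingHom.id_apply, ehEmb_smul, qTheta_mul, qTheta_C, zero_mul, zero_add,
      HahnSeries.C_mul_eq_smul]
  map_one_eq_zero' := by
    show qTheta (ehEmb k p 1) = 0
    rw [map_one, ← map_one (HahnSeries.C : k →+* LaurentSeries k), qTheta_C]
  leibniz' f g := by
    show qTheta (ehEmb k p (f * g)) = f • qTheta (ehEmb k p g) + g • qTheta (ehEmb k p f)
    rw [map_mul, qTheta_mul, eh_smul_laurent, eh_smul_laurent]
    ring

theorem ehThetaDer_apply (f : EhField k p) : ehThetaDer k p f = qTheta (ehEmb k p f) := rfl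

variable [CharP k 2] [IsAlgClosed k]

/-- **differentials from `θ`**: if `θ f = h · θ j̄` then `df = h dj̄` in `Ω[F'/k]` -/
theorem eh_D_eq_smul_of_qTheta (hp : p.Prime) (hp2 : p ≠ 2) (f h : EhField k p)
    (hθ : qTheta (ehEmb k p f) = ehEmb k p h * qTheta (jqModC k)) :
    D k (EhField k p) f = h • D k (EhField k p) (ehX k p) := by
  have hgen := ehField_isFunctionFieldGen k p hp hp2
  have := ehField_isSeparable k p hp hp2
  obtain ⟨h', hh'⟩ := Fermat.Agent.CurveP.exists_eq_smul_D hgen (D k (EhField k p) f)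
  have h1 := congrArg (ehThetaDer k p).liftKaehlerDifferential hh'
  rw [Derivation.liftKaehlerDifferential_comp_D, map_smul,
    Derivation.liftKaehlerDifferential_comp_D, ehThetaDer_apply, ehThetaDer_apply,
    eh_smul_laurent, ehEmb_ehX, hθ] at h1
  have hne : qTheta (jqModC k) ≠ 0 := by
    rw [eg_qTheta_jqModC]
    exact jqModC_ne_zero k
  have h2 : ehEmb k p h = ehEmb k p h' := mul_right_cancel₀ hne h1
  rw [hh', ehEmb_injective k p h2]

end Derivation

end Fermat.Agent.Eis
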